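/-
Programme MAZ (S15), G-side, brick FLAT-R1 (helper68).

The two LOCAL-AT-`r` inputs of the four rank-one cases of the Eisenstein descent, for `r` ODD, stated in
the GLOBAL vocabulary `FlatModel r E act` (`E` a finite `G_ℚ`-module which is the group of `ℚ̄`-points of
a finite flat commutative Hopf algebra over `ℤ_(r)`; this is `ModelOf` over `ℤ_(r)` by
`GlobalClosure68.flatModel_iff`, and the literal shape of the frozen S19).

* `act_eq_of_flat_of_unipotent` (R1): a flat module killed by `r` on which the inertia group at a place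
  `A ∣ r` acts unipotently in two steps (trivially on a subgroup `W`, and `σ e - e ∈ W`) is UNRAMIFIED at
  `A`.  ("A finite flat extension of `ℤ/r` by `ℤ/r` over `ℤ_(r)` is étale", `r` odd.)
* `dvd_padicValRat_of_flat` (R2): if an `r`-th root of `u ∈ ℚ^×` lies in the field cut out by `μ_r` and a
  flat module killed by `r`, then `r ∣ v_r(u)`.  ("`H¹_fl(ℤ_(r), μ_r)` = units modulo `r`-th powers.")

Proofs: global flat ⇒ local flat (`LocalOfGlobal68`), then THEOREM STAR (`Unr68.star`) resp. THEOREM KF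
(`KF92.kummerFontaine`) of programme TW, chapter FF; places over `r` are conjugate (`PlaceConj96`), local
and global inertia agree (`LocalInertia97`).
-/
import Mathlib
import Fermat.Agent.TW.FF.LocalOfGlobal68
import Fermat.Agent.TW.FF.Unr68
import Fermat.Agent.TW.FF.KF92
import Fermat.Agent.TW.Bridge.LocalInertia97
import Fermat.Agent.TW.LocalQ.FrobConj96
import Fermat.Agent.TW.Cnt.TameField97
import Fermat.Agent.FFJ.Glue.GlobalClosure68

set_option autoImplicit false
set_option linter.unusedSectionVars false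

noncomputable section

namespace Fermat.Agent.MAZ.Local.FlatRank68

open scoped Pointwise
open Fermat.Agent.TW.FF.FlatModel68 Fermat.Agent.TW.FF.Spec72
open Fermat.Agent.TW.FF.LocalOfGlobal68 Fermat.Agent.FFJ.Glue.GlobalClosure68
open Fermat.Agent.TW.Bridge.LocalInertia97 Fermat.Agent.TW.LocalQ.PlaceConj96
open Fermat.Agent.TW.LocalQ.FrobConj96 Fermat.Agent.TW.OrdLocal.PadicPlace97

local notation "Qb" => AlgebraicClosure ℚ

variable {r : ℕ} [Fact r.Prime]

section Additive

variable {E : Type} [AddCommGroup E] {act : GQ → E → E}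

theorem act_neg68 (h : FlatModel r E act) (σ : GQ) (e : E) : act σ (-e) = -act σ e := by
  have h1 : act σ (-e) + act σ e = 0 := by
    rw [← FlatModel.act_add h, neg_add_cancel, FlatModel.act_zero h]
  exact eq_neg_of_add_eq_zero_left h1

theorem act_sub68 (h : FlatModel r E act) (σ : GQ) (e e' : E) :
    act σ (e - e') = act σ e - act σ e' := by
  rw [sub_eq_add_neg, FlatModel.act_add h, act_neg68 h, ← sub_eq_add_neg]

theorem act_inv_act68 (h : FlatModel r E act) (g : GQ) (e : E) : act g⁻¹ (act g e) = e := by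
  rw [← FlatModel.act_mul h, inv_mul_cancel, FlatModel.act_one h]

theorem act_act_inv68 (h : FlatModel r E act) (g : GQ) (e : E) : act g (act g⁻¹ e) = e := by
  rw [← FlatModel.act_mul h, mul_inv_cancel, FlatModel.act_one h]

end Additive

/-! ### (R1) flat + unipotent inertia ⇒ unramified -/

section R1

variable {E : Type} [AddCommGroup E] [Finite E] {act : GQ → E → E}

/-- (R1) at the standard place `padicPlace r`. -/
theorem act_eq_of_flat_of_unipotent_padicPlace (hr2 : r ≠ 2) (hflat : FlatModel r E act)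
    (hkill : ∀ e : E, r • e = 0) (W : AddSubgroup E)
    (hW : ∀ σ ∈ (padicPlace r).inertiaSubgroupIn ℚ, ∀ w ∈ W, act σ w = w)
    (hEW : ∀ σ ∈ (padicPlace r).inertiaSubgroupIn ℚ, ∀ e : E, act σ e - e ∈ W) :
    ∀ σ ∈ (padicPlace r).inertiaSubgroupIn ℚ, ∀ e : E, act σ e = e := by
  intro σ hσ e
  obtain ⟨τ, rfl, hτ⟩ := exists_local_inertia_of_mem_inertia r hσ
  have hloc : LocalFlatModel r E (fun τ => act (localGaloisToGlobal r τ)) :=
    localFlatModel_of_flatModel r hflat
  have key : act (localGaloisToGlobal r τ) e - e = 0 := by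
    refine Fermat.Agent.TW.FF.Unr68.star r hr2 E (fun τ => act (localGaloisToGlobal r τ)) hloc
      hkill _ ?_ ?_
    · intro τ₁ hτ₁
      exact hW _ ((localGaloisToGlobal_mem_inertia_iff r τ₁).2 hτ₁) _ (hEW _ hσ e)
    · exact AddSubgroup.subset_closure ⟨τ, hτ, e, rfl⟩
  exact sub_eq_zero.1 key

/-- **(R1)** A flat module killed by `r` (`r` odd) on which the inertia group at a place `A` over `r`
acts unipotently in two steps is unramified at `A`. -/
theorem act_eq_of_flat_of_unipotent (hr2 : r ≠ 2) (hflat : FlatModel r E act)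
    (hkill : ∀ e : E, r • e = 0) {A : ValuationSubring Qb} (hA : A.LiesOverPrime r)
    (W : AddSubgroup E)
    (hW : ∀ σ ∈ A.inertiaSubgroupIn ℚ, ∀ w ∈ W, act σ w = w)
    (hEW : ∀ σ ∈ A.inertiaSubgroupIn ℚ, ∀ e : E, act σ e - e ∈ W) :
    ∀ σ ∈ A.inertiaSubgroupIn ℚ, ∀ e : E, act σ e = e := by
  have hr : r.Prime := Fact.out
  have hP := padicPlace_liesOverPrime r
  obtain ⟨g, rfl⟩ := exists_smul_eq_of_liesOverPrime hr hP hA
  -- the conjugated subgroup
  let W' : AddSubgroup E :=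
    { carrier := {w | act g w ∈ W}
      zero_mem' := by
        show act g 0 ∈ W
        rw [FlatModel.act_zero hflat]
        exact W.zero_mem
      add_mem' := by
        intro a b ha hb
        show act g (a + b) ∈ W
        rw [FlatModel.act_add hflat]
        exact W.add_mem ha hb
      neg_mem' := by
        intro a ha
        show act g (-a) ∈ W
        rw [act_neg68 hflat]
        exact W.neg_mem ha }
  have conj : ∀ σ' ∈ (padicPlace r).inertiaSubgroupIn ℚ,
      g * σ' * g⁻¹ ∈ (g • padicPlace r).inertiaSubgroupIn ℚ := by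
    intro σ' hσ'
    rw [mem_inertiaSubgroupIn_smul_iff hr hP g]
    have e1 : g⁻¹ * (g * σ' * g⁻¹) * g = σ' := by group
    rw [e1]
    exact hσ'
  have hmain := act_eq_of_flat_of_unipotent_padicPlace hr2 hflat hkill W' ?_ ?_
  · intro σ hσ e
    have hσ' : g⁻¹ * σ * g ∈ (padicPlace r).inertiaSubgroupIn ℚ :=
      (mem_inertiaSubgroupIn_smul_iff hr hP g).1 hσ
    have h1 := hmain _ hσ' (act g⁻¹ e)
    rw [FlatModel.act_mul hflat, FlatModel.act_mul hflat, act_act_inv68 hflat] at h1
    have h2 := congrArg (act g) h1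
    rwa [act_act_inv68 hflat, act_act_inv68 hflat] at h2
  · intro σ' hσ' w hw
    have h1 := hW _ (conj σ' hσ') _ hw
    rw [FlatModel.act_mul hflat, FlatModel.act_mul hflat, act_inv_act68 hflat] at h1
    have h2 := congrArg (act g⁻¹) h1
    rwa [act_inv_act68 hflat, act_inv_act68 hflat] at h2
  · intro σ' hσ' e
    show act g (act σ' e - e) ∈ W
    have h1 := hEW _ (conj σ' hσ') (act g e)
    rw [FlatModel.act_mul hflat, FlatModel.act_mul hflat, act_inv_act68 hflat] at h1
    rwa [act_sub68 hflat]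

end R1

/-! ### (R2) Kummer classes cut out by flat modules are units at `r` -/

section R2

variable {E : Type} [AddCommGroup E] [Finite E] {act : GQ → E → E}

/-- `‖1 + x‖ = 1` for `‖x‖ < 1` in `PadicAlgCl r`. -/
theorem norm_one_add68 {x : PadicAlgCl r} (hx : ‖x‖ < 1) : ‖1 + x‖ = 1 := by
  apply le_antisymm
  · refine (IsUltrametricDist.norm_add_le_max _ _).trans (max_le ?_ hx.le)
    rw [norm_one]
  · by_contra hlt
    rw [not_le] at hlt
    have h1 : ‖(1 : PadicAlgCl r)‖ ≤ max ‖1 + x‖ ‖x‖ := by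
      have e : (1 : PadicAlgCl r) = (1 + x) - x := by ring
      calc ‖(1 : PadicAlgCl r)‖ = ‖(1 + x) - x‖ := by rw [← e]
        _ ≤ max ‖1 + x‖ ‖x‖ := norm_sub_le_max' r _ _
    rw [norm_one] at h1
    exact absurd h1 (not_le.2 (max_lt hlt hx))

/-- the norm of a rational number in `PadicAlgCl r`. -/
theorem norm_ratCast68 (u : ℚ) (hu : u ≠ 0) :
    ‖((u : ℚ_[r]) : PadicAlgCl r)‖ = (r : ℝ) ^ (-padicValRat r u) := by
  have h1 : ‖((u : ℚ_[r]) : PadicAlgCl r)‖ = ‖(u : ℚ_[r])‖ := PadicAlgCl.norm_extends r _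
  rw [h1, Padic.eq_padicNorm, padicNorm.eq_zpow_of_nonzero hu]
  push_cast
  rfl

/-- **(R2)** If an `r`-th root `z` of `u ∈ ℚ^×` is fixed by every element of `G_ℚ` which fixes `μ_r` and
acts trivially on a flat module `E` killed by `r` (`r` odd), then `r ∣ v_r(u)`. -/
theorem dvd_padicValRat_of_flat (hr2 : r ≠ 2) (hflat : FlatModel r E act)
    (hkill : ∀ e : E, r • e = 0) (u : ℚ) (hu : u ≠ 0) (z : Qb) (hz : z ^ r = (u : Qb))
    (hfix : ∀ σ : GQ, (∀ ζ : Qb, ζ ^ r = 1 → σ ζ = ζ) → (∀ e : E, act σ e = e) → σ z = z) :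
    (r : ℤ) ∣ padicValRat r u := by
  classical
  have hr : r.Prime := Fact.out
  have : NeZero (r : PadicAlgCl r) := ⟨by
    have := hr.ne_zero
    exact_mod_cast this⟩
  obtain ⟨ζ, hζ⟩ := HasEnoughRootsOfUnity.exists_primitiveRoot (PadicAlgCl r) r
  -- the tame field `K0 = ℚ_r(ζ_r)`
  let K0 : IntermediateField ℚ_[r] (PadicAlgCl r) := IntermediateField.adjoin ℚ_[r] {ζ}
  have hζint : IsIntegral ℚ_[r] ζ := (hζ.isIntegral hr.pos).tower_top
  have hfd : FiniteDimensional ℚ_[r] K0 := IntermediateField.adjoin.finiteDimensional hζint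
  have hcyc : IsCyclotomicExtension {r} ℚ_[r] K0 :=
    hζ.intermediateField_adjoin_isCyclotomicExtension ℚ_[r]
  have hgal : IsGalois ℚ_[r] K0 := IsCyclotomicExtension.isGalois {r} ℚ_[r] K0
  have hζK : ζ ∈ K0 := IntermediateField.mem_adjoin_simple_self ℚ_[r] ζ
  have hdeg : ¬ r ∣ Module.finrank ℚ_[r] K0 := by
    have h1 : Module.finrank ℚ_[r] K0 = (minpoly ℚ_[r] ζ).natDegree :=
      IntermediateField.adjoin.finrank hζint
    have h2 : minpoly ℚ_[r] ζ ∣ Polynomial.cyclotomic r ℚ_[r] := by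
      apply minpoly.dvd
      rw [Polynomial.aeval_def, Polynomial.eval₂_eq_eval_map, Polynomial.map_cyclotomic]
      exact Polynomial.isRoot_cyclotomic_iff.2 hζ
    have h3 : (minpoly ℚ_[r] ζ).natDegree ≤ r - 1 := by
      have := Polynomial.natDegree_le_of_dvd h2 (Polynomial.cyclotomic_ne_zero r ℚ_[r])
      rwa [Polynomial.natDegree_cyclotomic, Nat.totient_prime hr] at this
    have h4 : 0 < (minpoly ℚ_[r] ζ).natDegree := minpoly.natDegree_pos hζint
    rw [h1]
    exact Nat.not_dvd_of_pos_of_lt h4 (lt_of_le_of_lt h3 (Nat.sub_lt hr.pos one_pos))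
  have htame : IsTame r K0 := Fermat.Agent.TW.Cnt.TameField97.isTame_of_not_dvd_finrank K0 hdeg
  have hζex : ∃ ζ' : K0, IsPrimitiveRoot ζ' r := by
    refine ⟨⟨ζ, hζK⟩, ?_⟩
    have : IsPrimitiveRoot ((algebraMap K0 (PadicAlgCl r)) ⟨ζ, hζK⟩) r := hζ
    exact IsPrimitiveRoot.of_map_of_injective this (algebraMap K0 (PadicAlgCl r)).injective
  -- local data
  have hloc : LocalFlatModel r E (fun τ => act (localGaloisToGlobal r τ)) :=
    localFlatModel_of_flatModel r hflat
  let u0 : K0 := algebraMap ℚ_[r] K0 (u : ℚ_[r])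
  have hu0 : u0 ≠ 0 := by
    intro h
    have h1 : (u : ℚ_[r]) = 0 := (algebraMap ℚ_[r] K0).injective (by rw [map_zero]; exact h)
    exact hu (by exact_mod_cast h1)
  have hu0coe : ((u0 : K0) : PadicAlgCl r) = ((u : ℚ_[r]) : PadicAlgCl r) := rfl
  have hzloc : (padicEmbedding r z) ^ r = ((u0 : K0) : PadicAlgCl r) := by
    rw [← map_pow, hz, map_ratCast, hu0coe]
    simp
  have hfixloc : ∀ τ : GQp r, (∀ x : K0, τ (x : PadicAlgCl r) = x) →
      (∀ v : E, act (localGaloisToGlobal r τ) v = v) → τ (padicEmbedding r z) = padicEmbedding r z := by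
    intro τ hτK hτE
    rw [← padicEmbedding_localGaloisToGlobal]
    congr 1
    refine hfix _ ?_ hτE
    intro ζ' hζ'
    apply (padicEmbedding r).injective
    show padicEmbedding r (localGaloisToGlobal r τ ζ') = padicEmbedding r ζ'
    rw [padicEmbedding_localGaloisToGlobal]
    have h1 : (padicEmbedding r ζ') ^ r = 1 := by rw [← map_pow, hζ', map_one]
    obtain ⟨i, -, hi⟩ := hζ.eq_pow_of_pow_eq_one h1
    have h2 : padicEmbedding r ζ' ∈ K0 := by
      rw [← hi]
      exact pow_mem hζK i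
    exact hτK ⟨_, h2⟩
  obtain ⟨a, y, ha, hy0, huy⟩ := Fermat.Agent.TW.FF.KF92.kummerFontaine (p := r) hr2 E
    (fun τ => act (localGaloisToGlobal r τ)) hloc hkill K0 htame hζex u0 (padicEmbedding r z) hu0
    hzloc hfixloc
  -- norms
  obtain ⟨e, he, hval⟩ := htame
  obtain ⟨m, hm⟩ := hval y hy0
  have hnorm : ‖((u : ℚ_[r]) : PadicAlgCl r)‖ = ‖(y : PadicAlgCl r)‖ ^ r := by
    have h1 : ((u0 : K0) : PadicAlgCl r)
        = (1 + (r : PadicAlgCl r) * (a : PadicAlgCl r)) * (y : PadicAlgCl r) ^ r := by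
      rw [huy]
      push_cast
      rfl
    rw [← hu0coe, h1, norm_mul, norm_pow]
    have h2 : ‖(r : PadicAlgCl r) * (a : PadicAlgCl r)‖ < 1 := by
      rw [norm_mul]
      have h3 : ‖(r : PadicAlgCl r)‖ < 1 := by
        have h4 : ‖((r : ℚ_[r]) : PadicAlgCl r)‖ = ‖(r : ℚ_[r])‖ := PadicAlgCl.norm_extends r _
        have h5 : ((r : ℚ_[r]) : PadicAlgCl r) = (r : PadicAlgCl r) := by simp
        rw [← h5, h4, Padic.norm_p]
        have : (1 : ℝ) < r := by exact_mod_cast hr.one_lt
        exact inv_lt_one_of_one_lt₀ this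
      calc ‖(r : PadicAlgCl r)‖ * ‖(a : PadicAlgCl r)‖ ≤ ‖(r : PadicAlgCl r)‖ * 1 :=
            mul_le_mul_of_nonneg_left ha (norm_nonneg _)
        _ < 1 := by rwa [mul_one]
    rw [norm_one_add68 h2, one_mul]
  rw [norm_ratCast68 u hu] at hnorm
  -- compare exponents
  have hr1 : (1 : ℝ) < r := by exact_mod_cast hr.one_lt
  have hr0 : (0 : ℝ) < r := lt_trans zero_lt_one hr1
  have hexp : ((r : ℝ) ^ (-padicValRat r u)) ^ e = ((r : ℝ) ^ m) ^ r := by
    rw [hnorm, ← hm, ← pow_mul, ← pow_mul, mul_comm]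
  rw [← zpow_natCast, ← zpow_natCast, ← zpow_mul, ← zpow_mul] at hexp
  have hinj := zpow_right_injective₀ hr0 (ne_of_gt hr1) hexp
  -- `-(v) * e = m * r`
  have hdvd : (r : ℤ) ∣ padicValRat r u * (e : ℤ) := ⟨-m, by linarith⟩
  have hcop : IsCoprime (r : ℤ) (e : ℤ) := by
    rw [Int.isCoprime_iff_gcd_eq_one, Int.gcd_natCast_natCast]
    exact (Nat.Prime.coprime_iff_not_dvd hr).2 he
  exact hcop.dvd_of_dvd_mul_right hdvd

/-- (R2) with `u` embedded through `algebraMap`. -/
theorem dvd_padicValRat_of_flat' (hr2 : r ≠ 2) (hflat : FlatModel r E act)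
    (hkill : ∀ e : E, r • e = 0) (u : ℚ) (hu : u ≠ 0) (z : Qb)
    (hz : z ^ r = algebraMap ℚ Qb u)
    (hfix : ∀ σ : GQ, (∀ ζ : Qb, ζ ^ r = 1 → σ ζ = ζ) → (∀ e : E, act σ e = e) → σ z = z) :
    (r : ℤ) ∣ padicValRat r u :=
  dvd_padicValRat_of_flat hr2 hflat hkill u hu z (by rw [hz, eq_ratCast]) hfix

end R2

end Fermat.Agent.MAZ.Local.FlatRank68
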