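/-
Programme MAZ (S15), pole P3 (r = 2), brick (mult₂) (helper22): **the Kummer rank-one case at `r = 2`
needs no mark** — ANY finite flat model of a rank-one extension module forces `2 ∣ v₂(u)`.

* `even_of_isFunOrder` (local): `H ⊆ Fun(M, ℚ̄₂)` a function order over `ℤ₂` (`FunOrder68.IsFunOrder`),
  `n ∈ M` a Galois-fixed point of order two, `e ∈ M` with `2e ∈ {0, n}` and orbit inside `{e, e + n}`,
  `z² = u ∈ ℚ₂^×` with `Stab(e) ≤ Stab(z)`.  Then `v(u)` is even.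
* `dvd_padicValRat_two_of_flat` (global, the shape of `FlatRank68.dvd_padicValRat_of_flat'`, which
  excludes `r = 2`): the same for `FlatModel 2 E act`, `u ∈ ℚ^×`, `z ∈ ℚ̄`.

Proof (norms only).  Suppose `v(u)` is odd; then `z ∉ ℚ₂` and `σ e = e ↔ σ z = z`.  For `f ∈ H` the
trace `f(e) + f(e+n)` and `(f(e) - f(e+n))/z` are Galois-fixed, so `f(e) = α + βz`, `f(e+n) = α - βz`
with `α, β ∈ ℚ₂`; `‖α² - β²u‖ = ‖f(e) f(e+n)‖ ≤ 1` and the norms of `α²` and `β²u` differ (parity), so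
`‖βz‖ < 1` strictly, i.e. `‖f(e) - f(e+n)‖ < 1/2`.  The comultiplication
`g(x+y) = Σ aᵢ(x) bᵢ(y)` gives `g(2e) - g(2e+n) = Σ aᵢ(e)(bᵢ(e) - bᵢ(e+n))`, of norm `< 1/2`; as
`{2e, 2e+n} = {0, n}` and `g(n) - g(0) ∈ ℚ₂`: `‖g(n) - g(0)‖ ≤ 1/4` for ALL `g ∈ H`.  The second
difference of the comultiplication on `{0, n}` gives `-2(g(n) - g(0)) = Σ (aᵢ(n) - aᵢ(0))(bᵢ(n) - bᵢ(0))`,
so a uniform bound `δ ≤ 1/4` improves to `2δ²`; hence `g(n) = g(0)` for all `g ∈ H`, contradicting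
separation.  (For `v(u)` even nothing is claimed: `u = -1, 3` do occur; distinguishing them is the job
of the marks.)
-/
import Mathlib
import Fermat.Agent.TW.FF.Red68
import Fermat.Agent.TW.FF.LocalOfGlobal68

set_option autoImplicit false
set_option linter.unusedSectionVars false
set_option linter.unusedSimpArgs false
set_option linter.style.haveILetI false

noncomputable section

namespace Fermat.Agent.MAZ.Local.KummerTwo22

open Fermat.Agent.S19.Shell64 Fermat.Agent.TW.FF.FunOrder68 Fermat.Agent.TW.FF.FlatModel68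
open Fermat.Agent.TW.FF.Spec72 Fermat.Agent.TW.FF.Red68 Fermat.Agent.TW.FF.ReducedModel68
open Fermat.Agent.TW.FF.LocalOfGlobal68

/-! ### 1. Norms in `ℚ_2` -/

theorem two_zpow_lt_one_iff (k : ℤ) : (2 : ℝ) ^ k < 1 ↔ k < 0 := by
  rw [← zpow_zero (2 : ℝ)]
  exact zpow_lt_zpow_iff_right₀ (by norm_num)

theorem two_zpow_le_one_iff (k : ℤ) : (2 : ℝ) ^ k ≤ 1 ↔ k ≤ 0 := by
  rw [← zpow_zero (2 : ℝ)]
  exact zpow_le_zpow_iff_right₀ (by norm_num)

theorem norm_eq22 {x : ℚ_[2]} (hx : x ≠ 0) : ‖x‖ = (2 : ℝ) ^ (-x.valuation) := by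
  have := Padic.norm_eq_zpow_neg_valuation (p := 2) hx
  simpa using this

/-- an element of `ℚ_2` of norm `< 1/2` has norm `≤ 1/4`. -/
theorem norm_le_quarter {x : ℚ_[2]} (h : ‖x‖ < 1 / 2) : ‖x‖ ≤ 1 / 4 := by
  by_cases hx : x = 0
  · rw [hx, norm_zero]; norm_num
  rw [norm_eq22 hx] at h ⊢
  have h1 : (1 / 2 : ℝ) = (2 : ℝ) ^ (-1 : ℤ) := by norm_num
  have h2 : (1 / 4 : ℝ) = (2 : ℝ) ^ (-2 : ℤ) := by norm_num
  rw [h1, zpow_lt_zpow_iff_right₀ (by norm_num : (1 : ℝ) < 2)] at h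
  rw [h2, zpow_le_zpow_iff_right₀ (by norm_num : (1 : ℝ) < 2)]
  omega

/-- **the parity lemma**: if `v(u)` is odd and `‖α² - β² u‖ ≤ 1` then `‖β‖² ‖u‖ < 1`. -/
theorem norm_sq_mul_lt_one {α β u : ℚ_[2]} (hu : u ≠ 0) (hodd : ¬ Even u.valuation)
    (h : ‖α ^ 2 - β ^ 2 * u‖ ≤ 1) : ‖β‖ ^ 2 * ‖u‖ < 1 := by
  by_cases hβ : β = 0
  · rw [hβ, norm_zero]; norm_num
  have hy : β ^ 2 * u ≠ 0 := mul_ne_zero (pow_ne_zero 2 hβ) hu
  have hvy : (β ^ 2 * u).valuation = 2 * β.valuation + u.valuation := by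
    rw [Padic.valuation_mul (pow_ne_zero 2 hβ) hu, Padic.valuation_pow]
    push_cast
    ring
  have hnorm : ‖β‖ ^ 2 * ‖u‖ = ‖β ^ 2 * u‖ := by rw [norm_mul, norm_pow]
  rw [hnorm]
  have hyodd : (β ^ 2 * u).valuation ≠ 0 := by
    intro h0
    apply hodd
    rw [hvy] at h0
    exact ⟨-β.valuation, by omega⟩
  -- it suffices to show `‖β² u‖ ≤ 1`
  suffices hle : ‖β ^ 2 * u‖ ≤ 1 by
    rw [norm_eq22 hy] at hle ⊢
    rw [two_zpow_le_one_iff] at hle
    rw [two_zpow_lt_one_iff]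
    omega
  by_cases hα : α = 0
  · rw [hα] at h
    simpa using h
  have hx : α ^ 2 ≠ 0 := pow_ne_zero 2 hα
  have hvx : (α ^ 2).valuation = 2 * α.valuation := by
    rw [Padic.valuation_pow]; push_cast; ring
  have hne : ‖α ^ 2‖ ≠ ‖β ^ 2 * u‖ := by
    rw [norm_eq22 hx, norm_eq22 hy]
    intro heq
    have := zpow_right_injective₀ (by norm_num : (0 : ℝ) < 2) (by norm_num : (2 : ℝ) ≠ 1) heq
    apply hodd
    rw [hvx, hvy] at this
    exact ⟨α.valuation - β.valuation, by omega⟩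
  have hmax : ‖α ^ 2 - β ^ 2 * u‖ = max ‖α ^ 2‖ ‖β ^ 2 * u‖ := by
    rw [sub_eq_add_neg, ← norm_neg (β ^ 2 * u)]
    exact IsUltrametricDist.norm_add_eq_max_of_norm_ne_norm (by rwa [norm_neg])
  rw [hmax] at h
  exact le_trans (le_max_right _ _) h


local notation "Ω" => PadicAlgCl 2

/-! ### 2. Galois descent and ultrametric sums in `Ω` -/

theorem exists_of_fixed (y : Ω) (hy : ∀ σ : GQp 2, σ y = y) : ∃ a : ℚ_[2], y = (a : Ω) := by
  obtain ⟨a, ha⟩ := (fixedFieldEqBase_of_isGalois (F := ℚ_[2]) (K := Ω)) y hy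
  exact ⟨a, ha.symm⟩

theorem norm_two22 : ‖(2 : Ω)‖ = 1 / 2 := by
  have h1 : ((2 : ℚ_[2]) : Ω) = (2 : Ω) := map_ofNat (algebraMap ℚ_[2] Ω) 2
  rw [← h1, PadicAlgCl.norm_extends]
  have := Padic.norm_p (p := 2)
  simpa using this

theorem norm_sum_lt22 {ι : Type*} (s : Finset ι) (f : ι → Ω) {c : ℝ} (hc : 0 < c)
    (h : ∀ i ∈ s, ‖f i‖ < c) : ‖∑ i ∈ s, f i‖ < c := by
  rcases s.eq_empty_or_nonempty with rfl | hs
  · simpa using hc
  · obtain ⟨i, hi, hle⟩ := IsUltrametricDist.exists_norm_finsetSum_le_of_nonempty hs f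
    exact lt_of_le_of_lt hle (h i hi)

theorem norm_sum_le22 {ι : Type*} (s : Finset ι) (f : ι → Ω) {c : ℝ} (hc : 0 ≤ c)
    (h : ∀ i ∈ s, ‖f i‖ ≤ c) : ‖∑ i ∈ s, f i‖ ≤ c := by
  rcases s.eq_empty_or_nonempty with rfl | hs
  · simpa using hc
  · obtain ⟨i, hi, hle⟩ := IsUltrametricDist.exists_norm_finsetSum_le_of_nonempty hs f
    exact le_trans hle (h i hi)


/-! ### 3. The local statement -/

section Local

variable {M : Type} [AddCommGroup M] [DistribMulAction (GQp 2) M]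
  {H : Subalgebra ℤ_[2] (M → Ω)}

/-- **(mult₂), local form.** Let `H` be a function order over `ℤ_2` on a `G_{ℚ_2}`-module `M`
containing a fixed point `n` of order two and a point `e` with `2e ∈ {0, n}` whose orbit lies in
`{e, e + n}`.  If the stabiliser of `e` fixes a square root `z` of `u ∈ ℚ_2^×` then `v(u)` is even. -/
theorem even_of_isFunOrder (hH : IsFunOrder ℤ_[2] ℚ_[2] H) (n e : M) (hn : n ≠ 0)
    (h2n : n + n = 0) (h2e : e + e = 0 ∨ e + e = n) (hGn : ∀ σ : GQp 2, σ • n = n)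
    (hGe : ∀ σ : GQp 2, σ • e = e ∨ σ • e = e + n) (u : ℚ_[2]) (hu : u ≠ 0) (z : Ω)
    (hz : z ^ 2 = (u : Ω)) (hfix : ∀ σ : GQp 2, σ • e = e → σ z = z) : Even u.valuation := by
  by_contra hodd
  have huΩ : (u : Ω) ≠ 0 := fun h => hu ((algebraMap ℚ_[2] Ω).injective (by rw [map_zero]; exact h))
  have hzne : z ≠ 0 := by
    intro h
    rw [h] at hz
    exact huΩ (by rw [← hz]; ring)
  -- if every `σ` fixes `z` then `z ∈ ℚ_2` and `v(u)` is even
  by_cases hall : ∀ σ : GQp 2, σ z = z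
  · obtain ⟨a, ha⟩ := exists_of_fixed z hall
    have hua : u = a ^ 2 := by
      apply (algebraMap ℚ_[2] Ω).injective
      rw [map_pow]
      change (u : Ω) = (a : Ω) ^ 2
      rw [← ha, hz]
    apply hodd
    rw [hua, Padic.valuation_pow]
    exact ⟨a.valuation, by push_cast; ring⟩
  push Not at hall
  obtain ⟨σ₀, hσ₀⟩ := hall
  have hσ₀e : σ₀ • e = e + n := (hGe σ₀).resolve_left (fun h => hσ₀ (hfix σ₀ h))
  have hσ₀z : σ₀ z = -z := by
    have h1 : (σ₀ z) ^ 2 = z ^ 2 := by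
      rw [← map_pow, hz]
      exact σ₀.commutes u
    rcases sq_eq_sq_iff_eq_or_eq_neg.mp h1 with h | h
    · exact absurd h hσ₀
    · exact h
  -- the dichotomy
  have hdich : ∀ σ : GQp 2, (σ • e = e ∧ σ z = z) ∨ (σ • e = e + n ∧ σ z = -z) := by
    intro σ
    rcases hGe σ with h | h
    · exact Or.inl ⟨h, hfix σ h⟩
    · refine Or.inr ⟨h, ?_⟩
      have h1 : σ₀⁻¹ • (e + n) = e := by rw [← hσ₀e, inv_smul_smul]
      have h2 : (σ₀⁻¹ * σ) • e = e := by rw [mul_smul, h, h1]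
      have h3 : (σ₀⁻¹ * σ) z = z := hfix _ h2
      have h4 : σ z = σ₀ z := by
        have h5 := congrArg σ₀ h3
        rw [AlgEquiv.mul_apply] at h5
        rw [← h5]
        exact (AlgEquiv.apply_symm_apply σ₀ (σ z)).symm
      rw [h4, hσ₀z]
  have hnz : ‖z‖ ^ 2 = ‖u‖ := by
    rw [← norm_pow, hz, PadicAlgCl.norm_extends]
  -- step 1: the two values on the coset are close
  have key1 : ∀ f ∈ H, ‖f e - f (e + n)‖ < 1 / 2 := by
    intro f hf
    have heq := hH.equivariant f hf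
    have hs : ∀ σ : GQp 2, σ (f e + f (e + n)) = f e + f (e + n) := by
      intro σ
      rw [map_add, ← heq σ e, ← heq σ (e + n), smul_add, hGn σ]
      rcases hGe σ with h | h
      · rw [h]
      · rw [h, add_assoc, h2n, add_zero, add_comm]
    have hd : ∀ σ : GQp 2, σ ((f e - f (e + n)) / z) = (f e - f (e + n)) / z := by
      intro σ
      rw [map_div₀, map_sub, ← heq σ e, ← heq σ (e + n), smul_add, hGn σ]
      rcases hdich σ with ⟨h, hz'⟩ | ⟨h, hz'⟩
      · rw [h, hz']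
      · rw [h, hz', add_assoc, h2n, add_zero, div_neg, ← neg_div, neg_sub]
    obtain ⟨A, hA⟩ := exists_of_fixed _ hs
    obtain ⟨B, hB⟩ := exists_of_fixed _ hd
    have h1 : f e - f (e + n) = (B : Ω) * z := by
      rw [← hB]
      field_simp
    have hprod : f e * f (e + n) = algebraMap ℚ_[2] Ω ((A / 2) ^ 2 - (B / 2) ^ 2 * u) := by
      have he : f e = ((A : Ω) + B * z) / 2 := by linear_combination (h1 + hA) / 2
      have hen : f (e + n) = ((A : Ω) - B * z) / 2 := by linear_combination (hA - h1) / 2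
      rw [he, hen, map_sub, map_mul, map_pow, map_pow, map_div₀, map_div₀, map_ofNat]
      change _ = ((A : Ω) / 2) ^ 2 - ((B : Ω) / 2) ^ 2 * (u : Ω)
      rw [← hz]
      ring
    have hle : ‖(A / 2) ^ 2 - (B / 2) ^ 2 * u‖ ≤ 1 := by
      have hne := PadicAlgCl.norm_extends (p := 2) ((A / 2) ^ 2 - (B / 2) ^ 2 * u)
      rw [← hne]
      change ‖algebraMap ℚ_[2] Ω ((A / 2) ^ 2 - (B / 2) ^ 2 * u)‖ ≤ 1
      rw [← hprod, norm_mul]
      exact mul_le_one₀ (norm_apply_le_one hH.finite hf e) (norm_nonneg _)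
        (norm_apply_le_one hH.finite hf (e + n))
    have h3 := norm_sq_mul_lt_one hu hodd hle
    have hB2 : ‖B / 2‖ = 2 * ‖B‖ := by
      rw [norm_div]
      have : ‖(2 : ℚ_[2])‖ = 1 / 2 := by
        have := Padic.norm_p (p := 2)
        simpa using this
      rw [this]
      ring
    rw [h1, norm_mul, PadicAlgCl.norm_extends]
    rw [hB2, ← hnz] at h3
    have hnn : 0 ≤ ‖B‖ * ‖z‖ := mul_nonneg (norm_nonneg _) (norm_nonneg _)
    nlinarith
  -- step 2: hence `g n` and `g 0` are close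
  have key2 : ∀ g ∈ H, ‖g n - g 0‖ < 1 / 2 := by
    intro g hg
    obtain ⟨k, a, b, hab⟩ := hH.comul g hg
    have h1 : g (e + e) - g (e + (e + n)) =
        ∑ i, (a i : M → Ω) e * ((b i : M → Ω) e - (b i : M → Ω) (e + n)) := by
      rw [hab e e, hab e (e + n), ← Finset.sum_sub_distrib]
      refine Finset.sum_congr rfl (fun i _ => ?_)
      ring
    have h2 : ‖g (e + e) - g (e + (e + n))‖ < 1 / 2 := by
      rw [h1]
      refine norm_sum_lt22 _ _ (by norm_num) (fun i _ => ?_)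
      rw [norm_mul]
      have h3 := norm_apply_le_one hH.finite (a i).2 e
      have h4 := key1 _ (b i).2
      have h5 := norm_nonneg ((b i : M → Ω) e - (b i : M → Ω) (e + n))
      nlinarith [norm_nonneg ((a i : M → Ω) e)]
    rcases h2e with h | h
    · have h3 : e + (e + n) = n := by rw [← add_assoc, h, zero_add]
      rw [h, h3, norm_sub_rev] at h2
      exact h2
    · have h3 : e + (e + n) = 0 := by rw [← add_assoc, h, h2n]
      rw [h, h3] at h2
      exact h2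
  -- step 3: rationality improves the bound
  have key3 : ∀ g ∈ H, ‖g n - g 0‖ ≤ 1 / 4 := by
    intro g hg
    have heq := hH.equivariant g hg
    have hfixed : ∀ σ : GQp 2, σ (g n - g 0) = g n - g 0 := by
      intro σ
      rw [map_sub, ← heq σ n, ← heq σ 0, hGn σ, smul_zero]
    obtain ⟨c, hc⟩ := exists_of_fixed _ hfixed
    have h1 := key2 g hg
    rw [hc, PadicAlgCl.norm_extends] at h1 ⊢
    exact norm_le_quarter h1
  -- step 4: the contraction
  have key4 : ∀ k : ℕ, ∀ g ∈ H, ‖g n - g 0‖ ≤ (1 / 2 : ℝ) ^ (k + 2) := by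
    intro k
    induction k with
    | zero =>
      intro g hg
      have := key3 g hg
      norm_num at this ⊢
      exact this
    | succ k ih =>
      intro g hg
      obtain ⟨m, a, b, hab⟩ := hH.comul g hg
      have h1 : -(2 * (g n - g 0)) =
          ∑ i, ((a i : M → Ω) n - (a i : M → Ω) 0) * ((b i : M → Ω) n - (b i : M → Ω) 0) := by
        have h0 : ∑ i, ((a i : M → Ω) n - (a i : M → Ω) 0) * ((b i : M → Ω) n - (b i : M → Ω) 0) =
            g (n + n) - g (n + 0) - g (0 + n) + g (0 + 0) := by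
          rw [hab n n, hab n 0, hab 0 n, hab 0 0, ← Finset.sum_sub_distrib,
            ← Finset.sum_sub_distrib, ← Finset.sum_add_distrib]
          refine Finset.sum_congr rfl (fun i _ => ?_)
          ring
        rw [h0, h2n]
        simp only [add_zero, zero_add]
        ring
      have h2 : ‖-(2 * (g n - g 0))‖ ≤ ((1 / 2 : ℝ) ^ (k + 2)) ^ 2 := by
        rw [h1]
        refine norm_sum_le22 _ _ (by positivity) (fun i _ => ?_)
        rw [norm_mul, pow_two]
        exact mul_le_mul (ih _ (a i).2) (ih _ (b i).2) (norm_nonneg _) (by positivity)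
      rw [norm_neg, norm_mul, norm_two22] at h2
      have h3 : ((1 / 2 : ℝ) ^ (k + 2)) ^ 2 * 2 ≤ (1 / 2 : ℝ) ^ (k + 1 + 2) := by
        have h4 : ((1 / 2 : ℝ) ^ (k + 2)) ^ 2 * 2 = (1 / 2 : ℝ) ^ (k + 3) * (1 / 2 : ℝ) ^ k := by
          rw [← pow_mul, ← pow_add]
          have : (k + 2) * 2 = (k + 3 + k) + 1 := by ring
          rw [this, pow_succ]
          ring
        rw [h4]
        have h5 : (1 / 2 : ℝ) ^ k ≤ 1 := pow_le_one₀ (by norm_num) (by norm_num)
        have h6 : (0 : ℝ) ≤ (1 / 2 : ℝ) ^ (k + 3) := by positivity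
        calc (1 / 2 : ℝ) ^ (k + 3) * (1 / 2 : ℝ) ^ k ≤ (1 / 2 : ℝ) ^ (k + 3) * 1 :=
              mul_le_mul_of_nonneg_left h5 h6
          _ = (1 / 2 : ℝ) ^ (k + 1 + 2) := by rw [mul_one]
      linarith
  -- conclusion: `g n = g 0` for all `g ∈ H`, contradicting separation
  obtain ⟨g, hg, hgn⟩ := hH.separates n 0 hn
  have hpos : 0 < ‖g n - g 0‖ := norm_pos_iff.mpr (sub_ne_zero.mpr hgn)
  obtain ⟨k, hk⟩ := exists_pow_lt_of_lt_one hpos (by norm_num : (1 / 2 : ℝ) < 1)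
  have h1 := key4 k g hg
  have h2 : (1 / 2 : ℝ) ^ (k + 2) ≤ (1 / 2 : ℝ) ^ k :=
    pow_le_pow_of_le_one (by norm_num) (by norm_num) (by omega)
  linarith

end Local


/-! ### 4. The global statement -/

section Global

local notation "Qb" => AlgebraicClosure ℚ

variable {E : Type} [AddCommGroup E] {act : GQ → E → E}

/-- **(mult₂) = (R2) at `r = 2` for rank-one extension modules.**  If `E` is flat over `ℤ_(2)`,
contains a Galois-fixed point `n` of order two and a point `e` with `2e ∈ {0, n}` whose orbit lies in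
`{e, e + n}`, and the stabiliser of `e` fixes a square root `z ∈ ℚ̄` of `u ∈ ℚ^×`, then `2 ∣ v₂(u)`. -/
theorem dvd_padicValRat_two_of_flat (hflat : FlatModel 2 E act) (n e : E) (hn : n ≠ 0)
    (h2n : n + n = 0) (h2e : e + e = 0 ∨ e + e = n) (hGn : ∀ σ : GQ, act σ n = n)
    (hGe : ∀ σ : GQ, act σ e = e ∨ act σ e = e + n) (u : ℚ) (hu : u ≠ 0) (z : Qb)
    (hz : z ^ 2 = algebraMap ℚ Qb u) (hfix : ∀ σ : GQ, act σ e = e → σ z = z) :
    (2 : ℤ) ∣ padicValRat 2 u := by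
  have hloc : LocalFlatModel 2 E (fun τ => act (localGaloisToGlobal 2 τ)) :=
    localFlatModel_of_flatModel 2 hflat
  obtain ⟨H, i1, i2, hfin, -, -, em, hmul, hact⟩ := hloc
  let _ := galDistribMulAction (F := ℚ_[2]) em hmul
  have hH : IsFunOrder ℤ_[2] ℚ_[2] (redAlg em) := isFunOrder_redAlg (F := ℚ_[2]) em hmul
  have hsm : ∀ (σ : GQp 2) (m : E), σ • m = act (localGaloisToGlobal 2 σ) m := fun σ m =>
    (act_eq_galSmul em _ hact σ m).symm
  have hu2 : ((u : ℚ) : ℚ_[2]) ≠ 0 := by exact_mod_cast hu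
  have key := even_of_isFunOrder hH n e hn h2n h2e (fun σ => by rw [hsm]; exact hGn _)
    (fun σ => by rw [hsm]; exact hGe _) ((u : ℚ) : ℚ_[2]) hu2 (padicEmbedding 2 z) ?_ ?_
  · rw [Padic.valuation_ratCast] at key
    exact even_iff_two_dvd.mp key
  · rw [← map_pow, hz, AlgHom.commutes]
    simp
  · intro σ hσ
    rw [hsm] at hσ
    rw [← padicEmbedding_localGaloisToGlobal, hfix _ hσ]

end Global

end Fermat.Agent.MAZ.Local.KummerTwo22
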