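/-
Programme MAZ (S15), G-side, brick FLAT-R1, general exponent (helper68).

`FlatRank68` (R1) for modules killed by a POWER of `r` (`r` odd): a finite flat `G_ℚ`-module of `r`-power
order on which the inertia group at a place `A ∣ r` acts unipotently in two steps is unramified at `A`.
(Proof: `ORD/FlatOrd/CoinvGen68.star_gen`, the `r`-power form of THEOREM STAR.)  Consequence for the
admissible cocycles of `FlatAdm68`, at every level `k` and for every good module `N` (not only those
killed by `r`): if inertia at `A ∣ r` acts trivially on `N`, an admissible cocycle vanishes on it.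
-/
import Mathlib
import Fermat.Agent.MAZ.Local.FlatRank68
import Fermat.Agent.ORD.FlatOrd.CoinvGen68
import Fermat.Agent.MAZ.Desc.FlatAdm68

set_option autoImplicit false
set_option linter.unusedSectionVars false
set_option linter.style.haveILetI false

noncomputable section

namespace Fermat.Agent.MAZ.Local.FlatRankGen68

open scoped Pointwise
open Fermat.Agent.TW.FF.FlatModel68 Fermat.Agent.TW.FF.Spec72
open Fermat.Agent.TW.FF.LocalOfGlobal68 Fermat.Agent.FFJ.Glue.GlobalClosure68
open Fermat.Agent.TW.Bridge.LocalInertia97 Fermat.Agent.TW.LocalQ.PlaceConj96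
open Fermat.Agent.TW.LocalQ.FrobConj96 Fermat.Agent.TW.OrdLocal.PadicPlace97
open Fermat.Agent.MAZ.Local.FlatRank68 Fermat.Agent.MAZ.Desc.FlatAdm68

local notation "Qb" => AlgebraicClosure ℚ

variable {r : ℕ} [Fact r.Prime]

section R1

variable {E : Type} [AddCommGroup E] [Finite E] {act : GQ → E → E}

/-- (R1), `r`-power form, at the standard place `padicPlace r`. -/
theorem act_eq_of_flat_of_unipotent_pow_padicPlace (hr2 : r ≠ 2) (hflat : FlatModel r E act)
    (hkill : ∃ n : ℕ, ∀ e : E, r ^ n • e = 0) (W : AddSubgroup E)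
    (hW : ∀ σ ∈ (padicPlace r).inertiaSubgroupIn ℚ, ∀ w ∈ W, act σ w = w)
    (hEW : ∀ σ ∈ (padicPlace r).inertiaSubgroupIn ℚ, ∀ e : E, act σ e - e ∈ W) :
    ∀ σ ∈ (padicPlace r).inertiaSubgroupIn ℚ, ∀ e : E, act σ e = e := by
  intro σ hσ e
  obtain ⟨τ, rfl, hτ⟩ := exists_local_inertia_of_mem_inertia r hσ
  have hloc : LocalFlatModel r E (fun τ => act (localGaloisToGlobal r τ)) :=
    localFlatModel_of_flatModel r hflat
  have key : act (localGaloisToGlobal r τ) e - e = 0 := by
    refine Fermat.Agent.ORD.FlatOrd.CoinvGen68.star_gen hr2 hloc hkill ?_ ?_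
    · intro τ₁ hτ₁
      exact hW _ ((localGaloisToGlobal_mem_inertia_iff r τ₁).2 hτ₁) _ (hEW _ hσ e)
    · exact AddSubgroup.subset_closure ⟨τ, hτ, e, AddSubgroup.mem_top e, rfl⟩
  exact sub_eq_zero.1 key

/-- **(R1), `r`-power form.**  A flat module of `r`-power exponent (`r` odd) on which the inertia group
at a place `A` over `r` acts unipotently in two steps is unramified at `A`. -/
theorem act_eq_of_flat_of_unipotent_pow (hr2 : r ≠ 2) (hflat : FlatModel r E act)
    (hkill : ∃ n : ℕ, ∀ e : E, r ^ n • e = 0) {A : ValuationSubring Qb} (hA : A.LiesOverPrime r)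
    (W : AddSubgroup E)
    (hW : ∀ σ ∈ A.inertiaSubgroupIn ℚ, ∀ w ∈ W, act σ w = w)
    (hEW : ∀ σ ∈ A.inertiaSubgroupIn ℚ, ∀ e : E, act σ e - e ∈ W) :
    ∀ σ ∈ A.inertiaSubgroupIn ℚ, ∀ e : E, act σ e = e := by
  have hr : r.Prime := Fact.out
  have hP := padicPlace_liesOverPrime r
  obtain ⟨g, rfl⟩ := exists_smul_eq_of_liesOverPrime hr hP hA
  let W' : AddSubgroup E :=
    { carrier := {w | act g w ∈ W}
      zero_mem' := by
        show act g 0 ∈ W
        rw [FlatModel.act_zero hflat]
        exact W.zero_mem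
      add_mem' := by
        intro a b ha hb
        show act g (a + b) ∈ W
        rw [FlatModel.act_add hflat]
        exact W.add_mem ha hb
      neg_mem' := by
        intro a ha
        show act g (-a) ∈ W
        rw [act_neg68 hflat]
        exact W.neg_mem ha }
  have conj : ∀ σ' ∈ (padicPlace r).inertiaSubgroupIn ℚ,
      g * σ' * g⁻¹ ∈ (g • padicPlace r).inertiaSubgroupIn ℚ := by
    intro σ' hσ'
    rw [mem_inertiaSubgroupIn_smul_iff hr hP g]
    have e1 : g⁻¹ * (g * σ' * g⁻¹) * g = σ' := by group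
    rw [e1]
    exact hσ'
  have hmain := act_eq_of_flat_of_unipotent_pow_padicPlace hr2 hflat hkill W' ?_ ?_
  · intro σ hσ e
    have hσ' : g⁻¹ * σ * g ∈ (padicPlace r).inertiaSubgroupIn ℚ :=
      (mem_inertiaSubgroupIn_smul_iff hr hP g).1 hσ
    have h1 := hmain _ hσ' (act g⁻¹ e)
    rw [FlatModel.act_mul hflat, FlatModel.act_mul hflat, act_act_inv68 hflat] at h1
    have h2 := congrArg (act g) h1
    rwa [act_act_inv68 hflat, act_act_inv68 hflat] at h2
  · intro σ' hσ' w hw
    have h1 := hW _ (conj σ' hσ') _ hw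
    rw [FlatModel.act_mul hflat, FlatModel.act_mul hflat, act_inv_act68 hflat] at h1
    have h2 := congrArg (act g⁻¹) h1
    rwa [act_inv_act68 hflat, act_inv_act68 hflat] at h2
  · intro σ' hσ' e
    show act g (act σ' e - e) ∈ W
    have h1 := hEW _ (conj σ' hσ') (act g e)
    rw [FlatModel.act_mul hflat, FlatModel.act_mul hflat, act_inv_act68 hflat] at h1
    rwa [act_sub68 hflat]

/-- special case: a flat module of `r`-power exponent with a filtration `0 ≤ W ≤ E` on whose two steps
inertia at `A ∣ r` acts trivially. -/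
theorem act_eq_of_flat_of_two_step (hr2 : r ≠ 2) (hflat : FlatModel r E act)
    (hkill : ∃ n : ℕ, ∀ e : E, r ^ n • e = 0) {A : ValuationSubring Qb} (hA : A.LiesOverPrime r)
    (W : AddSubgroup E)
    (hW : ∀ σ ∈ A.inertiaSubgroupIn ℚ, ∀ w ∈ W, act σ w = w)
    (hEW : ∀ σ ∈ A.inertiaSubgroupIn ℚ, ∀ e : E, act σ e - e ∈ W) (σ : GQ)
    (hσ : σ ∈ A.inertiaSubgroupIn ℚ) (e : E) : act σ e = e :=
  act_eq_of_flat_of_unipotent_pow hr2 hflat hkill hA W hW hEW σ hσ e

end R1

/-! ### Admissible cocycles of modules with trivial inertia at `r` -/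

section Adm

variable {k p : ℕ} {N : Type} [AddCommGroup N] [DistribMulAction GQ N]

/-- **(A1), all levels and all good modules** (`r` odd): an admissible cocycle with values in a good
module `N` on which the inertia group at a place `A ∣ r` acts trivially vanishes on that inertia group
(no hypothesis `r • N = 0`). -/
theorem eq_zero_of_mem_Zadm_of_inertia_trivial' (hr2 : r ≠ 2) (hN : OkMod r k p N) {c : GQ → N}
    (hc : c ∈ Zadm r k p N) {A : ValuationSubring Qb} (hA : A.LiesOverPrime r)
    (htriv : ∀ σ ∈ A.inertiaSubgroupIn ℚ, ∀ x : N, σ • x = x) :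
    ∀ σ ∈ A.inertiaSubgroupIn ℚ, c σ = 0 := by
  rcases Nat.eq_zero_or_pos k with hk | hk
  · subst hk
    intro σ _
    have := hN.killed (c σ)
    rwa [pow_zero, one_smul] at this
  have hfl := hc.2.2 hN.flat
  haveI : Finite (N × ZMod (r ^ k)) := FlatModel.finite hfl
  have hkillE : ∃ n : ℕ, ∀ e : N × ZMod (r ^ k), r ^ n • e = 0 := by
    refine ⟨k, fun e => Prod.ext (hN.killed e.1) ?_⟩
    change r ^ k • e.2 = 0
    rw [nsmul_eq_mul, ZMod.natCast_self, zero_mul]
  intro σ hσ
  refine eq_zero_of_extActN_eq hk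
    (act_eq_of_flat_of_unipotent_pow hr2 hfl hkillE hA
      ((⊤ : AddSubgroup N).prod (⊥ : AddSubgroup (ZMod (r ^ k)))) ?_ ?_ σ hσ)
  · rintro τ hτ ⟨n, a⟩ hw
    have ha : a = 0 := (AddSubgroup.mem_prod.1 hw).2
    subst ha
    rw [extActN_apply, ZMod.val_zero, zero_smul, add_zero, htriv τ hτ]
  · rintro τ hτ ⟨n, a⟩
    rw [extActN_apply, AddSubgroup.mem_prod]
    exact ⟨AddSubgroup.mem_top _, by
      change a - a ∈ (⊥ : AddSubgroup (ZMod (r ^ k)))
      rw [sub_self]
      exact AddSubgroup.zero_mem _⟩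

end Adm

end Fermat.Agent.MAZ.Local.FlatRankGen68
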