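/-
Programme MAZ (S15), chapter `r = 2` (P3), brick M4, local half (helper68).
**The multiplicative rank-one case at `2`: a marked extension of `ℤ/2^k` by `μ₂` is `peu ramifiée`.**

`E` a finite `G_{ℚ₂}`-module with a marked model `(H, E₀)` (`Mark68.MarkedModel`), `x ∈ E₀` a point of
order two fixed by Galois (a copy of `μ₂` inside the connected part), `t₀ ∈ E` with `τ t₀ ∈ {t₀, t₀ + x}`
(a `μ₂`-torsor).  If `α² = u ∈ ℚ₂^×` and every `τ` fixing `t₀` fixes `α`, then `v₂(u)` is even: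
`∃ q ∈ ℚ₂, ‖u‖·‖q‖² = 1`  (`exists_norm_sq`).

Proof.  (B) `χ ∈ H|_{⟨x⟩}`: the order on `{0, x}` is `R + R·c₀δ_x` and co-multiplication at `(x, x)` gives
`c₀ S = -2`, so `h_χ := 1 + S g` has `h_χ 0 = 1`, `h_χ x = -1`.  (C) because `x` is congruent to `0`,
for `f ∈ H` the function `f⁻ t = (f t - f (t + x))/2` is again in `H` (hence integral).  (D) `f⁻ t₀/α` is
Galois-fixed, so it is some `q ∈ ℚ₂`.  (E) co-multiplication of `h_χ` at `(t₀ + εx, -t₀ + ε'x)` gives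
`Σ_i a_i⁻ t₀ · b_i⁻ (-t₀) = 1`; all terms have norm `≤ 1`, so one factor `a_i⁻ t₀ = q α` has norm one.
-/
import Mathlib
import Fermat.Agent.MAZ.Flat.Mark68

set_option autoImplicit false
set_option linter.unusedSectionVars false
set_option linter.style.haveILetI false

noncomputable section

namespace Fermat.Agent.MAZ.Local.KummerTwo68

open Fermat.Agent.S19.Shell64 Fermat.Agent.TW.FF.FunOrder68 Fermat.Agent.TW.FF.FlatModel68
open Fermat.Agent.TW.FF.Spec72 Fermat.Agent.TW.FF.Red68 Fermat.Agent.MAZ.Flat.Mark68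

/-! ### A. Values at fixed points -/

section General

variable {p : ℕ} [Fact p.Prime] {E : Type} [AddCommGroup E] [MulAction (GQp p) E]
  {H : Subalgebra ℤ_[p] (E → PadicAlgCl p)}

/-- the value of a function of the order at a Galois-fixed point lies in `ℤ_p`. -/
theorem apply_mem_range_of_fixed (hH : IsFunOrder ℤ_[p] ℚ_[p] H) {h : E → PadicAlgCl p}
    (hh : h ∈ H) {m : E} (hm : ∀ τ : GQp p, τ • m = m) :
    ∃ a : ℤ_[p], algebraMap ℤ_[p] (PadicAlgCl p) a = h m := by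
  have := hH.finite
  refine Fermat.Agent.TW.FF.ClosureQuot68.mem_range_of_fixed_of_isIntegral (R := ℤ_[p])
    (F := ℚ_[p]) fixedFieldEqBase_of_isGalois (fun τ => ?_) ?_
  · rw [← hH.equivariant h hh τ m, hm]
  · exact (Algebra.IsIntegral.isIntegral (R := ℤ_[p]) (⟨h, hh⟩ : H)).map (evalPt H.val m)

theorem norm_algebraMap_padicInt (a : ℤ_[p]) : ‖algebraMap ℤ_[p] (PadicAlgCl p) a‖ = ‖a‖ := by
  rw [IsScalarTower.algebraMap_apply ℤ_[p] ℚ_[p] (PadicAlgCl p)]
  exact PadicAlgCl.norm_extends p _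

end General

/-! ### B, C. The order on a connected subgroup of order two -/

section Two

local notation "Ω" => PadicAlgCl 2

variable {E : Type} [AddCommGroup E] [DistribMulAction (GQp 2) E]
  {H : Subalgebra ℤ_[2] (E → Ω)}

/-- (B) the non-trivial character of `{0, x}` extends to a function of the order. -/
theorem exists_chi (hH : IsFunOrder ℤ_[2] ℚ_[2] H) {x : E} (hx0 : x ≠ 0) (hx2 : x + x = 0)
    (hxfix : ∀ τ : GQp 2, τ • x = x) : ∃ h ∈ H, h 0 = 1 ∧ h x = -1 := by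
  have h0fix : ∀ τ : GQp 2, τ • (0 : E) = 0 := fun τ => smul_zero τ
  -- the difference map
  let D : H →ₗ[ℤ_[2]] Ω :=
    ((LinearMap.proj x : (E → Ω) →ₗ[ℤ_[2]] Ω) - LinearMap.proj 0) ∘ₗ H.val.toLinearMap
  have hD : ∀ h : H, D h = (h : E → Ω) x - (h : E → Ω) 0 := fun _ => rfl
  let I' : Ideal ℤ_[2] := (LinearMap.range D).comap (Algebra.linearMap ℤ_[2] Ω)
  have hmemI : ∀ a : ℤ_[2], a ∈ I' ↔ ∃ h : H, D h = algebraMap ℤ_[2] Ω a := fun a => Iff.rfl
  -- every difference is the image of an element of the ideal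
  have hdiff : ∀ h : H, ∃ a ∈ I', algebraMap ℤ_[2] Ω a = (h : E → Ω) x - (h : E → Ω) 0 := by
    intro h
    obtain ⟨a₁, ha₁⟩ := apply_mem_range_of_fixed hH h.2 hxfix
    obtain ⟨a₀, ha₀⟩ := apply_mem_range_of_fixed hH h.2 h0fix
    refine ⟨a₁ - a₀, (hmemI _).2 ⟨h, ?_⟩, ?_⟩
    · rw [hD, map_sub, ha₁, ha₀]
    · rw [map_sub, ha₁, ha₀]
  have hinj : Function.Injective (algebraMap ℤ_[2] Ω) := by
    rw [IsScalarTower.algebraMap_eq ℤ_[2] ℚ_[2] Ω]
    exact (algebraMap ℚ_[2] Ω).injective.comp (IsFractionRing.injective ℤ_[2] ℚ_[2])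
  -- the generator
  have hprin : I'.IsPrincipal := IsPrincipalIdealRing.principal I'
  set c₀ : ℤ_[2] := Submodule.IsPrincipal.generator I' with hc₀def
  have hc₀mem : c₀ ∈ I' := Submodule.IsPrincipal.generator_mem I'
  have hgen : ∀ a ∈ I', ∃ a' : ℤ_[2], a = a' * c₀ := by
    intro a ha
    obtain ⟨s, hs⟩ := (Submodule.IsPrincipal.mem_iff_eq_smul_generator I').1 ha
    exact ⟨s, by rw [hs, smul_eq_mul]⟩
  have hc₀ne : c₀ ≠ 0 := by
    intro h0
    obtain ⟨h, hh, hne⟩ := hH.separates x 0 hx0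
    obtain ⟨a, ha, hax⟩ := hdiff ⟨h, hh⟩
    obtain ⟨a', ha'⟩ := hgen a ha
    rw [ha', h0, mul_zero, map_zero] at hax
    exact hne (sub_eq_zero.1 hax.symm)
  set C : Ω := algebraMap ℤ_[2] Ω c₀ with hCdef
  have hCne : C ≠ 0 := fun h => hc₀ne (hinj (by rw [map_zero]; exact h))
  have hkey : ∀ h : H, ∃ a' : ℤ_[2],
      (h : E → Ω) x - (h : E → Ω) 0 = algebraMap ℤ_[2] Ω a' * C := by
    intro h
    obtain ⟨a, ha, hax⟩ := hdiff h
    obtain ⟨a', ha'⟩ := hgen a ha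
    exact ⟨a', by rw [← hax, ha', map_mul]⟩
  -- a function with `g 0 = 0`, `g x = C`
  obtain ⟨g₁, hg₁⟩ := (hmemI c₀).1 hc₀mem
  obtain ⟨z₀, hz₀⟩ := apply_mem_range_of_fixed hH g₁.2 h0fix
  let g : H := g₁ - algebraMap ℤ_[2] H z₀
  have hg0 : (g : E → Ω) 0 = 0 := by
    change (g₁ : E → Ω) 0 - (algebraMap ℤ_[2] (E → Ω) z₀) 0 = 0
    rw [Pi.algebraMap_apply, hz₀, sub_self]
  have hgx : (g : E → Ω) x = C := by
    change (g₁ : E → Ω) x - (algebraMap ℤ_[2] (E → Ω) z₀) x = C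
    rw [Pi.algebraMap_apply, hz₀, ← hD, hg₁]
  -- co-multiplication
  obtain ⟨k, a, b, hab⟩ := hH.comul g g.2
  choose a' ha' using fun i => hkey (a i)
  choose b' hb' using fun i => hkey (b i)
  let S : ℤ_[2] := ∑ i, a' i * b' i
  have e00 := hab 0 0
  have ex0 := hab x 0
  have e0x := hab 0 x
  have exx := hab x x
  rw [add_zero, hg0] at e00
  rw [add_zero, hgx] at ex0
  rw [zero_add, hgx] at e0x
  rw [hx2, hg0] at exx
  have hsecond : ∑ i, ((a i : E → Ω) x - (a i : E → Ω) 0) * ((b i : E → Ω) x - (b i : E → Ω) 0)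
      = -2 * C := by
    have : ∀ i, ((a i : E → Ω) x - (a i : E → Ω) 0) * ((b i : E → Ω) x - (b i : E → Ω) 0) =
        (a i : E → Ω) x * (b i : E → Ω) x - (a i : E → Ω) x * (b i : E → Ω) 0
          - (a i : E → Ω) 0 * (b i : E → Ω) x + (a i : E → Ω) 0 * (b i : E → Ω) 0 := fun i => by
      ring
    simp only [this, Finset.sum_add_distrib, Finset.sum_sub_distrib]
    rw [← exx, ← ex0, ← e0x, ← e00]
    ring
  have hS : C * C * algebraMap ℤ_[2] Ω S = -2 * C := by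
    rw [← hsecond, map_sum, Finset.mul_sum]
    refine Finset.sum_congr rfl fun i _ => ?_
    rw [ha' i, hb' i, map_mul]
    ring
  have hCS : algebraMap ℤ_[2] Ω S * C = -2 := by
    have h1 : C * (algebraMap ℤ_[2] Ω S * C) = C * (-2) := by
      rw [show C * (algebraMap ℤ_[2] Ω S * C) = C * C * algebraMap ℤ_[2] Ω S by ring, hS]
      ring
    exact mul_left_cancel₀ hCne h1
  refine ⟨((1 : H) + S • g : H), (1 + S • g : H).2, ?_, ?_⟩
  · change (1 : Ω) + (S • (g : E → Ω)) 0 = 1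
    rw [Pi.smul_apply, hg0, smul_zero, add_zero]
  · change (1 : Ω) + (S • (g : E → Ω)) x = -1
    rw [Pi.smul_apply, hgx, Algebra.smul_def, hCS]
    ring

/-- (C) if `x` is congruent to `0`, the odd part `(f t - f (t + x))/2` of `f ∈ H` is in `H`. -/
theorem exists_half_diff (hH : IsFunOrder ℤ_[2] ℚ_[2] H) {x : E} (hxfix : ∀ τ : GQp 2, τ • x = x)
    (hxc : Cong H x 0) {f : E → Ω} (hf : f ∈ H) :
    ∃ f' ∈ H, ∀ t : E, 2 * f' t = f t - f (t + x) := by
  have h0fix : ∀ τ : GQp 2, τ • (0 : E) = 0 := fun τ => smul_zero τ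
  obtain ⟨k, a, b, hab⟩ := hH.comul f hf
  have hβ : ∀ i, ∃ γ : ℤ_[2], (b i : E → Ω) x - (b i : E → Ω) 0 = 2 * algebraMap ℤ_[2] Ω γ := by
    intro i
    obtain ⟨a₁, ha₁⟩ := apply_mem_range_of_fixed hH (b i).2 hxfix
    obtain ⟨a₀, ha₀⟩ := apply_mem_range_of_fixed hH (b i).2 h0fix
    have hlt : ‖a₁ - a₀‖ < 1 := by
      rw [← norm_algebraMap_padicInt, map_sub, ha₁, ha₀]
      exact hxc _ (b i).2
    obtain ⟨γ, hγ⟩ := (PadicInt.norm_lt_one_iff_dvd (a₁ - a₀)).1 hlt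
    refine ⟨γ, ?_⟩
    rw [← ha₁, ← ha₀, ← map_sub, hγ, map_mul, map_natCast]
    norm_num
  choose γ hγ using hβ
  refine ⟨((-∑ i, γ i • a i : H) : E → Ω), (-∑ i, γ i • a i : H).2, fun t => ?_⟩
  have h1 : f t = ∑ i, (a i : E → Ω) t * (b i : E → Ω) 0 := by
    have := hab t 0
    rwa [add_zero] at this
  have h2 : f (t + x) = ∑ i, (a i : E → Ω) t * (b i : E → Ω) x := hab t x
  have h3 : ((-∑ i, γ i • a i : H) : E → Ω) t = -∑ i, algebraMap ℤ_[2] Ω (γ i) * (a i : E → Ω) t := by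
    rw [NegMemClass.coe_neg, Pi.neg_apply, AddSubmonoidClass.coe_finsetSum, Finset.sum_apply]
    congr 1
    refine Finset.sum_congr rfl fun i _ => ?_
    change (γ i • (a i : E → Ω)) t = _
    rw [Pi.smul_apply, Algebra.smul_def]
  rw [h3, h1, h2, ← Finset.sum_sub_distrib, mul_neg, Finset.mul_sum, ← Finset.sum_neg_distrib]
  refine Finset.sum_congr rfl fun i _ => ?_
  have := hγ i
  linear_combination ((a i : E → Ω) t) * this

end Two

/-! ### The theorem -/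

section Main

local notation "Ω" => PadicAlgCl 2

variable {E : Type} [AddCommGroup E]

/-- **(mult₂), local form.** -/
theorem exists_norm_sq {act : GQp 2 → E → E} {E₀ : AddSubgroup E} (hE : MarkedModel 2 E act E₀)
    {x t₀ : E} (hx0 : x ≠ 0) (hx2 : x + x = 0) (hxE : x ∈ E₀) (hxfix : ∀ τ, act τ x = x)
    (ht : ∀ τ, act τ t₀ = t₀ ∨ act τ t₀ = t₀ + x) {α : Ω} {u : ℚ_[2]} (hu : u ≠ 0)
    (hα : α ^ 2 = algebraMap ℚ_[2] Ω u) (hfix : ∀ τ : GQp 2, act τ t₀ = t₀ → τ α = α) :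
    ∃ q : ℚ_[2], ‖u‖ * ‖q‖ ^ 2 = 1 := by
  obtain ⟨inst, H, hH, hact, hE₀⟩ := hE
  have hxfix' : ∀ τ : GQp 2, τ • x = x := fun τ => by rw [hact]; exact hxfix τ
  have ht' : ∀ τ : GQp 2, τ • t₀ = t₀ ∨ τ • t₀ = t₀ + x := fun τ => by rw [hact]; exact ht τ
  have hfix' : ∀ τ : GQp 2, τ • t₀ = t₀ → τ α = α := fun τ h => hfix τ (by rw [← hact]; exact h)
  have hxc : Cong H x 0 := (hE₀ x).1 hxE
  have hnormα : ‖α‖ ^ 2 = ‖u‖ := by
    rw [← norm_pow, hα]
    exact PadicAlgCl.norm_extends 2 u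
  have hα0 : α ≠ 0 := by
    intro h
    rw [h, norm_zero] at hnormα
    have : ‖u‖ = 0 := by rw [← hnormα]; norm_num
    exact hu (norm_eq_zero.1 this)
  by_cases hall : ∀ τ : GQp 2, τ α = α
  · -- `α` is rational
    obtain ⟨q₀, hq₀⟩ := (fixedFieldEqBase_of_isGalois : FixedFieldEqBase ℚ_[2] Ω) α hall
    have hq₀n : ‖q₀‖ = ‖α‖ := by
      rw [← hq₀]
      exact (PadicAlgCl.norm_extends 2 q₀).symm
    have hq₀ne : ‖q₀‖ ≠ 0 := by
      rw [hq₀n]
      exact norm_ne_zero_iff.2 hα0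
    refine ⟨q₀⁻¹, ?_⟩
    rw [← hnormα, ← hq₀n, norm_inv, inv_pow]
    exact mul_inv_cancel₀ (pow_ne_zero 2 hq₀ne)
  · push Not at hall
    obtain ⟨τ₀, hτ₀⟩ := hall
    have hpm : ∀ τ : GQp 2, τ α = α ∨ τ α = -α := by
      intro τ
      have : (τ α) ^ 2 = α ^ 2 := by
        rw [← map_pow, hα, AlgEquiv.commutes]
      exact sq_eq_sq_iff_eq_or_eq_neg.1 this
    have hτ₀α : τ₀ α = -α := (hpm τ₀).resolve_left hτ₀
    have hτ₀t : τ₀ • t₀ = t₀ + x := (ht' τ₀).resolve_left (fun h => hτ₀ (hfix' τ₀ h))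
    have hnegx : -x = x := by
      rw [neg_eq_iff_add_eq_zero]
      exact hx2
    have hτ₀inv : τ₀⁻¹ • t₀ = t₀ + x := by
      have h1 : τ₀⁻¹ • (τ₀ • t₀) = t₀ := inv_smul_smul τ₀ t₀
      rw [hτ₀t, smul_add, hxfix'] at h1
      have : τ₀⁻¹ • t₀ = t₀ - x := eq_sub_of_add_eq h1
      rw [this, sub_eq_add_neg, hnegx]
    -- the sign rule
    have hsign : ∀ τ : GQp 2, (τ • t₀ = t₀ ∧ τ α = α) ∨ (τ • t₀ = t₀ + x ∧ τ α = -α) := by
      intro τ
      rcases ht' τ with h | h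
      · exact Or.inl ⟨h, hfix' τ h⟩
      · refine Or.inr ⟨h, ?_⟩
        have h1 : (τ₀⁻¹ * τ) • t₀ = t₀ := by
          rw [mul_smul, h, smul_add, hxfix', hτ₀inv, add_assoc, hx2, add_zero]
        have h2 := hfix' _ h1
        have h3 : τ₀ ((τ₀⁻¹ * τ) α) = τ α := by
          rw [← AlgEquiv.mul_apply, ← mul_assoc, mul_inv_cancel, one_mul]
        rw [← h3, h2, hτ₀α]
    -- rationality of the odd parts divided by `α`
    have hrat : ∀ t : E, (∀ τ : GQp 2, (τ • t = t ∧ τ α = α) ∨ (τ • t = t + x ∧ τ α = -α)) →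
        ∀ f ∈ H, ∀ f' ∈ H, (∀ s : E, 2 * f' s = f s - f (s + x)) →
          ∃ q : ℚ_[2], f' t = algebraMap ℚ_[2] Ω q * α := by
      intro t hts f _ f' hf' hff'
      have hodd : f' (t + x) = -f' t := by
        have h1 := hff' t
        have h2 := hff' (t + x)
        rw [add_assoc, hx2, add_zero] at h2
        have h3 : (2 : Ω) * (f' (t + x) + f' t) = 0 := by
          rw [mul_add, h1, h2]
          ring
        have h4 : f' (t + x) + f' t = 0 := by
          rcases mul_eq_zero.1 h3 with h | h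
          · exact absurd h two_ne_zero
          · exact h
        exact eq_neg_of_add_eq_zero_left h4
      obtain ⟨q, hq⟩ := (fixedFieldEqBase_of_isGalois : FixedFieldEqBase ℚ_[2] Ω) (f' t / α)
        (fun τ => by
          rw [map_div₀, ← hH.equivariant f' hf' τ t]
          rcases hts τ with ⟨h1, h2⟩ | ⟨h1, h2⟩
          · rw [h1, h2]
          · rw [h1, h2, hodd, neg_div_neg_eq])
      exact ⟨q, by rw [hq, div_mul_cancel₀ _ hα0]⟩
    have hsign' : ∀ τ : GQp 2, (τ • (-t₀) = -t₀ ∧ τ α = α) ∨ (τ • (-t₀) = -t₀ + x ∧ τ α = -α) := by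
      intro τ
      rcases hsign τ with ⟨h1, h2⟩ | ⟨h1, h2⟩
      · exact Or.inl ⟨by rw [smul_neg, h1], h2⟩
      · refine Or.inr ⟨?_, h2⟩
        rw [smul_neg, h1, neg_add, hnegx]
    -- the character and its co-multiplication
    obtain ⟨hχ, hχH, hχ0, hχx⟩ := exists_chi hH hx0 hx2 hxfix'
    obtain ⟨k, a, b, hab⟩ := hH.comul hχ hχH
    choose a' ha'H ha' using fun i => exists_half_diff hH hxfix' hxc (a i).2
    choose b' hb'H hb' using fun i => exists_half_diff hH hxfix' hxc (b i).2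
    have hsum : ∑ i, a' i t₀ * b' i (-t₀) = 1 := by
      have h4 : ∑ i, (2 * a' i t₀) * (2 * b' i (-t₀)) = 4 := by
        simp only [ha', hb']
        have : ∀ i, ((a i : E → Ω) t₀ - (a i : E → Ω) (t₀ + x)) *
            ((b i : E → Ω) (-t₀) - (b i : E → Ω) (-t₀ + x)) =
            (a i : E → Ω) t₀ * (b i : E → Ω) (-t₀) - (a i : E → Ω) t₀ * (b i : E → Ω) (-t₀ + x)
            - (a i : E → Ω) (t₀ + x) * (b i : E → Ω) (-t₀)
            + (a i : E → Ω) (t₀ + x) * (b i : E → Ω) (-t₀ + x) := fun i => by ring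
        simp only [this, Finset.sum_add_distrib, Finset.sum_sub_distrib]
        rw [← hab, ← hab, ← hab, ← hab]
        have e1 : t₀ + -t₀ = 0 := add_neg_cancel t₀
        have e2 : t₀ + (-t₀ + x) = x := by abel
        have e3 : t₀ + x + -t₀ = x := by abel
        have e4 : t₀ + x + (-t₀ + x) = 0 := by
          have : t₀ + x + (-t₀ + x) = x + x := by abel
          rw [this, hx2]
        rw [e1, e2, e3, e4, hχ0, hχx]
        norm_num
      have h5 : (4 : Ω) * ∑ i, a' i t₀ * b' i (-t₀) = 4 := by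
        rw [Finset.mul_sum]
        calc ∑ i, 4 * (a' i t₀ * b' i (-t₀)) = ∑ i, (2 * a' i t₀) * (2 * b' i (-t₀)) :=
              Finset.sum_congr rfl fun i _ => by ring
          _ = 4 := h4
      have h40 : (4 : Ω) ≠ 0 := by norm_num
      exact mul_left_cancel₀ h40 (by rw [h5, mul_one])
    -- one term has norm one
    have hex : ∃ i, 1 ≤ ‖a' i t₀ * b' i (-t₀)‖ := by
      by_contra hno
      push Not at hno
      have := norm_sum_lt_one (p := 2) Finset.univ (fun i => a' i t₀ * b' i (-t₀))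
        (fun i _ => hno i)
      rw [hsum, norm_one] at this
      exact lt_irrefl _ this
    obtain ⟨i, hi⟩ := hex
    have hA : ‖a' i t₀‖ ≤ 1 := norm_apply_le_one hH.finite (ha'H i) t₀
    have hB : ‖b' i (-t₀)‖ ≤ 1 := norm_apply_le_one hH.finite (hb'H i) (-t₀)
    have hA1 : ‖a' i t₀‖ = 1 := by
      apply le_antisymm hA
      rw [norm_mul] at hi
      nlinarith [norm_nonneg (a' i t₀), norm_nonneg (b' i (-t₀))]
    obtain ⟨q, hq⟩ := hrat t₀ hsign _ (a i).2 _ (ha'H i) (ha' i)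
    refine ⟨q, ?_⟩
    have h6 : ‖q‖ * ‖α‖ = 1 := by
      rw [← hA1, hq, norm_mul]
      congr 1
      exact (PadicAlgCl.norm_extends 2 q).symm
    rw [← hnormα, mul_comm, ← mul_pow, h6, one_pow]

end Main

end Fermat.Agent.MAZ.Local.KummerTwo68
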