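/-
Programme MAZ (S15), chapter `r = 2` (P3), brick M4, global half (helper68).
**The two rank-one local statements at `r = 2`, for extension modules `E_c = N × ℤ/r^k` with a marked
local model** (`Mark68.MarkedModel` for the action of `Gal(ℚ̄_r/ℚ_r)` through `localGaloisToGlobal r`):

* `(ét₂)` `eq_zero_of_markedModel_bot` : mark `⊥` (étale) ⟹ the cocycle vanishes on the inertia group of
  the standard place; `eq_zero_of_markedModel_bot'` : on every inertia group at `r` when `G_ℚ` acts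
  trivially on `N` (any prime `r`);
* `(mult₂)` `two_dvd_padicValRat_of_markedModel` : `#N = 2`, the mark contains `N × 0`, `α² = u ∈ ℚ^×` and
  `σ α = α` whenever `c σ = 0` ⟹ `2 ∣ v₂(u)`  (`KummerTwo68.exists_norm_sq`).
-/
import Mathlib
import Fermat.Agent.MAZ.Local.KummerTwo68
import Fermat.Agent.MAZ.Local.FlatRankGen68

set_option autoImplicit false
set_option linter.unusedSectionVars false
set_option linter.style.haveILetI false

noncomputable section

namespace Fermat.Agent.MAZ.Local.RankOneTwo68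

open scoped Pointwise
open Fermat.Agent.TW.FF.FlatModel68 Fermat.Agent.TW.FF.Spec72
open Fermat.Agent.TW.Bridge.LocalInertia97 Fermat.Agent.TW.LocalQ.PlaceConj96
open Fermat.Agent.TW.LocalQ.FrobConj96 Fermat.Agent.TW.OrdLocal.PadicPlace97
open Fermat.Agent.MAZ.Desc.FlatAdm68 Fermat.Agent.MAZ.Flat.Mark68

local notation "Qb" => AlgebraicClosure ℚ

/-! ### Groups of order two -/

section CardTwo

variable {N : Type} [AddCommGroup N]

theorem exists_gen_of_card_two (hN : Nat.card N = 2) :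
    ∃ x : N, x ≠ 0 ∧ x + x = 0 ∧ ∀ n : N, n = 0 ∨ n = x := by
  obtain ⟨x, hx0, huniq⟩ := (Nat.card_eq_two_iff' (0 : N)).1 hN
  have hall : ∀ n : N, n = 0 ∨ n = x := fun n => by
    by_cases hn : n = 0
    · exact Or.inl hn
    · exact Or.inr (huniq n hn)
  refine ⟨x, hx0, ?_, hall⟩
  rcases hall (x + x) with h | h
  · exact h
  · exact absurd (by simpa using h) hx0

theorem smul_eq_of_card_two {G : Type} [Group G] [DistribMulAction G N] (hN : Nat.card N = 2)
    (g : G) (n : N) : g • n = n := by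
  obtain ⟨x, hx0, -, hall⟩ := exists_gen_of_card_two hN
  rcases hall n with hn | hn
  · rw [hn]
    exact smul_zero g
  · rw [hn]
    rcases hall (g • x) with h | h
    · exfalso
      apply hx0
      have := congrArg (fun y => g⁻¹ • y) h
      simpa using this
    · exact h

end CardTwo

variable {r : ℕ} [Fact r.Prime] {k : ℕ} {N : Type} [AddCommGroup N] [DistribMulAction GQ N]

/-! ### The étale case -/

/-- **(ét₂)** at the standard place. -/
theorem eq_zero_of_markedModel_bot (hk : 1 ≤ k) {c : GQ → N}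
    (hE : MarkedModel r (N × ZMod (r ^ k))
      (fun τ => extActN r k c (localGaloisToGlobal r τ)) ⊥) :
    ∀ σ ∈ (padicPlace r).inertiaSubgroupIn ℚ, c σ = 0 := by
  intro σ hσ
  obtain ⟨τ, rfl, hτ⟩ := exists_local_inertia_of_mem_inertia r hσ
  exact eq_zero_of_extActN_eq hk (fun e => hE.act_eq_of_mark_bot hτ e)

/-- **(ét₂)** at every place over `r`, when `G_ℚ` acts trivially on `N`. -/
theorem eq_zero_of_markedModel_bot' (hk : 1 ≤ k) {c : GQ → N}
    (hc : ∀ σ τ : GQ, c (σ * τ) = c σ + σ • c τ) (htriv : ∀ (g : GQ) (x : N), g • x = x)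
    (hE : MarkedModel r (N × ZMod (r ^ k))
      (fun τ => extActN r k c (localGaloisToGlobal r τ)) ⊥)
    {A : ValuationSubring Qb} (hA : A.LiesOverPrime r) :
    ∀ σ ∈ A.inertiaSubgroupIn ℚ, c σ = 0 := by
  have hr : r.Prime := Fact.out
  have hP := padicPlace_liesOverPrime r
  obtain ⟨g, rfl⟩ := exists_smul_eq_of_liesOverPrime hr hP hA
  intro σ hσ
  have hσ' : g⁻¹ * σ * g ∈ (padicPlace r).inertiaSubgroupIn ℚ :=
    (mem_inertiaSubgroupIn_smul_iff hr hP g).1 hσ
  have h0 := eq_zero_of_markedModel_bot hk hE _ hσ'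
  have hmul : ∀ σ τ : GQ, c (σ * τ) = c σ + c τ := fun σ τ => by rw [hc, htriv]
  have h1 : c 1 = 0 := by
    have := hmul 1 1
    rw [mul_one] at this
    exact left_eq_add.1 this
  have hinv : c g⁻¹ = -c g := by
    have := hmul g⁻¹ g
    rw [inv_mul_cancel, h1] at this
    exact eq_neg_of_add_eq_zero_left this.symm
  rw [hmul, hmul, hinv] at h0
  have : -c g + c σ + c g = c σ := by abel
  rwa [this] at h0

/-! ### The multiplicative case -/

/-- **(mult₂)**: a marked extension of `ℤ/2^k` by a connected group of order two is `peu ramifiée`. -/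
theorem two_dvd_padicValRat_of_markedModel {N : Type} [AddCommGroup N] [DistribMulAction GQ N]
    (hN : Nat.card N = 2) (hk : 1 ≤ k) {c : GQ → N} {E₀ : AddSubgroup (N × ZMod (2 ^ k))}
    (hE : MarkedModel 2 (N × ZMod (2 ^ k))
      (fun τ => extActN 2 k c (localGaloisToGlobal 2 τ)) E₀)
    (hE₀ : ∀ n : N, (n, (0 : ZMod (2 ^ k))) ∈ E₀)
    (α : Qb) (u : ℚ) (hu : u ≠ 0) (hα : α ^ 2 = algebraMap ℚ Qb u)
    (hfix : ∀ σ : GQ, c σ = 0 → σ α = α) : (2 : ℤ) ∣ padicValRat 2 u := by
  obtain ⟨x, hx0, hx2, hall⟩ := exists_gen_of_card_two hN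
  have htriv : ∀ (g : GQ) (n : N), g • n = n := smul_eq_of_card_two hN
  have hne : 2 ^ k ≠ 1 := by
    have h2 : 1 < 2 ^ k := Nat.one_lt_pow (by omega) (by norm_num)
    omega
  have hactx : ∀ σ : GQ, extActN 2 k c σ ((x, 0) : N × ZMod (2 ^ k)) = (x, 0) := fun σ => by
    rw [extActN_apply, ZMod.val_zero, zero_smul, add_zero, htriv]
  have hactt : ∀ σ : GQ, extActN 2 k c σ ((0, 1) : N × ZMod (2 ^ k)) = (c σ, 1) := fun σ => by
    rw [extActN_apply, ZMod.val_one'' hne, one_smul, smul_zero, zero_add]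
  have hu2 : ((u : ℚ_[2])) ≠ 0 := by exact_mod_cast hu
  obtain ⟨q, hq⟩ := Fermat.Agent.MAZ.Local.KummerTwo68.exists_norm_sq hE
    (x := ((x, 0) : N × ZMod (2 ^ k))) (t₀ := ((0, 1) : N × ZMod (2 ^ k)))
    (α := padicEmbedding 2 α) (u := (u : ℚ_[2]))
    (fun h => hx0 (congrArg Prod.fst h))
    (by rw [Prod.mk_add_mk, hx2, add_zero]; rfl)
    (hE₀ x) (fun τ => hactx _)
    (fun τ => by
      rw [hactt]
      rcases hall (c (localGaloisToGlobal 2 τ)) with h | h
      · left; rw [h]
      · right; rw [h, Prod.mk_add_mk, zero_add, add_zero])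
    hu2
    (by rw [← map_pow, hα, eq_ratCast, map_ratCast]; exact (map_ratCast _ u).symm)
    (fun τ h => by
      change extActN 2 k c _ _ = _ at h
      rw [hactt] at h
      have hc0 : c (localGaloisToGlobal 2 τ) = 0 := congrArg Prod.fst h
      rw [← padicEmbedding_localGaloisToGlobal, hfix _ hc0])
  -- valuations
  have hq0 : q ≠ 0 := by
    rintro rfl
    rw [norm_zero] at hq
    norm_num at hq
  rw [Padic.eq_padicNorm, padicNorm.eq_zpow_of_nonzero hu, Padic.norm_eq_zpow_neg_valuation hq0]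
    at hq
  push_cast at hq
  rw [← zpow_natCast, ← zpow_mul, ← zpow_add₀ (by norm_num : (2 : ℝ) ≠ 0)] at hq
  have h2 : (2 : ℝ) ^ (-padicValRat 2 u + -q.valuation * ((2 : ℕ) : ℤ)) = (2 : ℝ) ^ (0 : ℤ) := by
    rw [hq, zpow_zero]
  have hinj := zpow_right_injective₀ (by norm_num : (0 : ℝ) < 2) (by norm_num : (2 : ℝ) ≠ 1) h2
  exact ⟨-q.valuation, by push_cast at hinj; linarith⟩

end Fermat.Agent.MAZ.Local.RankOneTwo68
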