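/-
Programme MAZ (S15), G-side, route PT-GAL, brick (G1)/(hA)-LOCAL (helper63).

**A flat module on which the inertia group at `r` acts unipotently is unramified at `r`, for `r` odd and
ANY exponent.**  (`FlatRank68` (R1) is the case "killed by `r`, two steps".)

The exponent cannot be reduced to `r` by a devissage on the Galois module alone: for
`E = ℤ/r^a ⊗ ψ`, `ψ : G → 1 + r^(a-1) ℤ/r^a` a character ramified at `r`, every subquotient of `E`
killed by `r` is a constant module.  One has to use the function order `H` of the flat model: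

* `conn H` (the kernel of reduction, `Red68.conn`) meets `E[r]` in `conn (resAlg H E[r])`
  (`Red68.cong_resAlg_iff`);
* if inertia acts unipotently and `conn H ≠ 0`, then `conn H ∩ E[r]` is a non-zero inertia-stable
  group, hence contains a non-zero inertia-FIXED element (last non-zero step of the filtration), which
  contradicts `Star68.eq_zero_of_cong_of_fixed` on `E[r]` (killed by `r`, `r` odd);
* so `conn H = 0`, and `τ • v - v ∈ conn H` for `τ` in inertia (`Red68.smul_sub_mem_conn`).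

Statements
* `conn_eq_bot_of_filtration`, `smul_eq_of_filtration` : function-order form (local);
* `local_act_eq_of_filtration` : `LocalFlatModel` form;
* `act_eq_of_flat_of_filtration` : GLOBAL form (`FlatModel r E act`, any place `A ∣ r`, any finite
  filtration);
* `act_eq_of_flat_of_unipotent_pow` : the two-step form of `FlatRank68.act_eq_of_flat_of_unipotent`
  with `r ^ a • e = 0` instead of `r • e = 0`.
-/
import Mathlib
import Fermat.Agent.MAZ.Local.FlatRank68

set_option autoImplicit false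
set_option linter.unusedSectionVars false
set_option linter.style.haveILetI false

noncomputable section

namespace Fermat.Agent.MAZ.Local.FlatUnip63

open scoped Pointwise
open Fermat.Agent.S19.Shell64 Fermat.Agent.TW.FF.FunOrder68 Fermat.Agent.TW.FF.FlatModel68
open Fermat.Agent.TW.FF.Spec72 Fermat.Agent.TW.FF.Red68 Fermat.Agent.TW.FF.ReducedModel68
open Fermat.Agent.TW.FF.Star68
open Fermat.Agent.TW.FF.LocalOfGlobal68 Fermat.Agent.FFJ.Glue.GlobalClosure68
open Fermat.Agent.TW.Bridge.LocalInertia97 Fermat.Agent.TW.LocalQ.PlaceConj96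
open Fermat.Agent.TW.LocalQ.FrobConj96 Fermat.Agent.TW.OrdLocal.PadicPlace97
open Fermat.Agent.MAZ.Local.FlatRank68

local notation "Qb" => AlgebraicClosure ℚ

/-! ### Abstract: a unipotent action on a non-zero stable subgroup has a non-zero fixed vector -/

section Abstract

variable {M : Type} [AddCommGroup M]

/-- Let `S` be a set of additive endomorphisms-as-functions `t : M → M` and `F` a finite filtration
such that `t m - m ∈ F (i+1)` for `m ∈ F i`, `t ∈ S`.  Every non-zero subgroup `X` stable under `S`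
contains a non-zero element fixed by every `t ∈ S`. -/
theorem exists_fixed_of_filtration (S : Set (M → M)) (F : ℕ → AddSubgroup M) (hF0 : F 0 = ⊤) (n : ℕ)
    (hFn : F n = ⊥) (hstep : ∀ i, ∀ t ∈ S, ∀ m ∈ F i, t m - m ∈ F (i + 1))
    (X : AddSubgroup M) (hX : ∀ t ∈ S, ∀ x ∈ X, t x ∈ X) (hX0 : ∃ x ∈ X, x ≠ 0) :
    ∃ z ∈ X, z ≠ 0 ∧ ∀ t ∈ S, t z = z := by
  classical
  let P : ℕ → Prop := fun i => ∃ z ∈ X, z ≠ 0 ∧ z ∈ F i
  have hP0 : P 0 := by
    obtain ⟨x, hx, hx0⟩ := hX0
    exact ⟨x, hx, hx0, by rw [hF0]; exact AddSubgroup.mem_top x⟩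
  have hPn : ¬ P n := by
    rintro ⟨z, -, hz0, hz⟩
    rw [hFn, AddSubgroup.mem_bot] at hz
    exact hz0 hz
  set i := Nat.findGreatest P n with hi
  have hPi : P i := Nat.findGreatest_spec (P := P) (Nat.zero_le n) hP0
  have hin : i ≤ n := Nat.findGreatest_le n
  have hi_lt : i < n := by
    rcases Nat.lt_or_ge i n with h | h
    · exact h
    · exfalso
      have : i = n := le_antisymm hin h
      exact hPn (this ▸ hPi)
  have hPi1 : ¬ P (i + 1) := Nat.findGreatest_is_greatest (P := P) (Nat.lt_succ_self i) hi_lt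
  obtain ⟨z, hzX, hz0, hzF⟩ := hPi
  refine ⟨z, hzX, hz0, fun t ht => ?_⟩
  by_contra hne
  apply hPi1
  refine ⟨t z - z, X.sub_mem (hX t ht z hzX) hzX, fun h => hne (sub_eq_zero.1 h), hstep i t ht z hzF⟩

/-- In a group killed by `p ^ a`, a non-zero subgroup contains a non-zero element killed by `p`. -/
theorem exists_ne_zero_nsmul_eq_zero {p : ℕ} (a : ℕ) (hkill : ∀ m : M, p ^ a • m = 0)
    (X : AddSubgroup M) (hX0 : ∃ x ∈ X, x ≠ 0) : ∃ y ∈ X, y ≠ 0 ∧ p • y = 0 := by
  classical
  obtain ⟨x, hx, hx0⟩ := hX0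
  have hex : ∃ j, p ^ j • x = 0 := ⟨a, hkill x⟩
  set j := Nat.find hex with hj
  have hjspec : p ^ j • x = 0 := Nat.find_spec hex
  have hj0 : j ≠ 0 := by
    intro h0
    rw [h0, pow_zero, one_smul] at hjspec
    exact hx0 hjspec
  obtain ⟨j', hj'⟩ := Nat.exists_eq_succ_of_ne_zero hj0
  have hmin : ¬ p ^ j' • x = 0 := Nat.find_min hex (by rw [← hj, hj']; exact Nat.lt_succ_self j')
  refine ⟨p ^ j' • x, X.nsmul_mem hx _, hmin, ?_⟩
  rw [smul_smul, ← pow_succ', ← Nat.succ_eq_add_one, ← hj']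
  exact hjspec

end Abstract

/-! ### Function-order form -/

section Core

variable {p : ℕ} [Fact p.Prime]
variable {M : Type} [AddCommGroup M] [DistribMulAction (GQp p) M]
  {H : Subalgebra ℤ_[p] (M → PadicAlgCl p)}

/-- the subgroup of the elements killed by `p`. -/
def torsP (p : ℕ) (M : Type) [AddCommGroup M] : AddSubgroup M where
  carrier := {m | p • m = 0}
  zero_mem' := smul_zero p
  add_mem' := by
    intro a b ha hb
    change p • (a + b) = 0
    rw [smul_add, ha, hb, add_zero]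
  neg_mem' := by
    intro a ha
    change p • (-a) = 0
    rw [smul_neg, ha, neg_zero]

theorem mem_torsP_iff (m : M) : m ∈ torsP p M ↔ p • m = 0 := Iff.rfl

theorem smul_mem_torsP (σ : GQp p) (m : M) (hm : m ∈ torsP p M) : σ • m ∈ torsP p M := by
  change p • (σ • m) = 0
  rw [smul_comm, (mem_torsP_iff m).1 hm, smul_zero]

/-- the kernel of reduction is Galois-stable. -/
theorem smul_mem_conn (hH : IsFunOrder ℤ_[p] ℚ_[p] H) (σ : GQp p) {m : M} (hm : m ∈ conn hH) :
    σ • m ∈ conn hH := by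
  have h := Cong.smul hH σ ((mem_conn_iff hH m).1 hm)
  rw [smul_zero] at h
  exact h

/-- **The kernel of reduction of a function order with unipotent inertia is trivial** (`p` odd, any
exponent). -/
theorem conn_eq_bot_of_filtration (hp2 : p ≠ 2) (hunr : Unr p) (hH : IsFunOrder ℤ_[p] ℚ_[p] H)
    (a : ℕ) (hkill : ∀ m : M, p ^ a • m = 0) (F : ℕ → AddSubgroup M) (hF0 : F 0 = ⊤) (n : ℕ)
    (hFn : F n = ⊥)
    (hstep : ∀ i, ∀ τ ∈ inertiaSet p, ∀ m ∈ F i, τ • m - m ∈ F (i + 1)) : conn hH = ⊥ := by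
  by_contra hne
  have hX0 : ∃ x ∈ conn hH, x ≠ 0 := by
    by_contra hcon
    push Not at hcon
    exact hne ((AddSubgroup.eq_bot_iff_forall _).2 hcon)
  -- a non-zero element of `conn` killed by `p`
  obtain ⟨y, hyc, hy0, hpy⟩ := exists_ne_zero_nsmul_eq_zero a hkill (conn hH) hX0
  -- the subgroup `X = conn ⊓ M[p]`, stable under inertia
  let X : AddSubgroup M := conn hH ⊓ torsP p M
  let S : Set (M → M) := {t | ∃ τ ∈ inertiaSet p, t = fun m => τ • m}
  have hXS : ∀ t ∈ S, ∀ x ∈ X, t x ∈ X := by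
    rintro _ ⟨τ, -, rfl⟩ x hx
    exact ⟨smul_mem_conn hH τ hx.1, smul_mem_torsP τ x hx.2⟩
  have hstepS : ∀ i, ∀ t ∈ S, ∀ m ∈ F i, t m - m ∈ F (i + 1) := by
    rintro i _ ⟨τ, hτ, rfl⟩ m hm
    exact hstep i τ hτ m hm
  obtain ⟨z, hzX, hz0, hzfix⟩ := exists_fixed_of_filtration S F hF0 n hFn hstepS X hXS
    ⟨y, ⟨hyc, hpy⟩, hy0⟩
  -- restrict the function order to `M[p]`
  let W : AddSubgroup M := torsP p M
  have hW : ∀ (σ : GQp p) (m : M), m ∈ W → σ • m ∈ W := fun σ m hm => smul_mem_torsP σ m hm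
  let _ := Fermat.Agent.TW.FF.ClosureSub68.subAction W hW
  have hres := Fermat.Agent.TW.FF.ClosureSub68.IsFunOrder.restrict W hW hH
  have hkillW : ∀ w : W, p • w = 0 := fun w => Subtype.ext (by
    rw [AddSubgroup.coe_nsmul]
    exact w.2)
  let z' : W := ⟨z, hzX.2⟩
  have hz'c : z' ∈ conn hres := by
    rw [mem_conn_iff]
    exact (cong_resAlg_iff H W z' 0).mpr ((mem_conn_iff hH z).1 hzX.1)
  have hz'fix : ∀ τ ∈ inertiaSet p, τ • z' = z' := fun τ hτ =>
    Subtype.ext (hzfix _ ⟨τ, hτ, rfl⟩)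
  have hz'0 : z' = 0 := eq_zero_of_cong_of_fixed hp2 hunr hres hkillW hz'c hz'fix
  exact hz0 (congrArg Subtype.val hz'0)

/-- **Unipotent inertia on a function order is trivial** (`p` odd, any exponent). -/
theorem smul_eq_of_filtration (hp2 : p ≠ 2) (hunr : Unr p) (hH : IsFunOrder ℤ_[p] ℚ_[p] H)
    (a : ℕ) (hkill : ∀ m : M, p ^ a • m = 0) (F : ℕ → AddSubgroup M) (hF0 : F 0 = ⊤) (n : ℕ)
    (hFn : F n = ⊥)
    (hstep : ∀ i, ∀ τ ∈ inertiaSet p, ∀ m ∈ F i, τ • m - m ∈ F (i + 1)) :
    ∀ τ ∈ inertiaSet p, ∀ m : M, τ • m = m := by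
  intro τ hτ m
  have h := smul_sub_mem_conn hH hτ m
  rw [conn_eq_bot_of_filtration hp2 hunr hH a hkill F hF0 n hFn hstep, AddSubgroup.mem_bot] at h
  exact sub_eq_zero.1 h

end Core

/-! ### `LocalFlatModel` form -/

section Local

variable (p : ℕ) [Fact p.Prime]

/-- **A locally flat module with unipotent inertia is unramified** (`p` odd, any exponent). -/
theorem local_act_eq_of_filtration (hp2 : p ≠ 2) (V : Type) [AddCommGroup V] [Finite V]
    (act : GQp p → V → V) (hV : LocalFlatModel p V act) (a : ℕ) (hkill : ∀ v : V, p ^ a • v = 0)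
    (F : ℕ → AddSubgroup V) (hF0 : F 0 = ⊤) (n : ℕ) (hFn : F n = ⊥)
    (hstep : ∀ i, ∀ τ ∈ inertiaSet p, ∀ v ∈ F i, act τ v - v ∈ F (i + 1)) :
    ∀ τ ∈ inertiaSet p, ∀ v : V, act τ v = v := by
  obtain ⟨H, i1, i2, hfin, -, -, e, hmul, hact⟩ := hV
  let _ := galDistribMulAction (F := ℚ_[p]) e hmul
  have hH : IsFunOrder ℤ_[p] ℚ_[p] (redAlg e) := isFunOrder_redAlg (F := ℚ_[p]) e hmul
  have hsm : ∀ (σ : GQp p) (m : V), σ • m = act σ m := fun σ m =>
    (act_eq_galSmul e act hact σ m).symm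
  intro τ hτ v
  rw [← hsm]
  refine smul_eq_of_filtration hp2 (Fermat.Agent.TW.FF.Unr68.unr p) hH a hkill F hF0 n hFn ?_ τ hτ v
  intro i τ' hτ' m hm
  rw [hsm]
  exact hstep i τ' hτ' m hm

end Local

/-! ### Global form -/

section Global

variable {r : ℕ} [Fact r.Prime]
variable {E : Type} [AddCommGroup E] [Finite E] {act : GQ → E → E}

/-- the general-exponent (R1) at the standard place `padicPlace r`. -/
theorem act_eq_of_flat_of_filtration_padicPlace (hr2 : r ≠ 2) (hflat : FlatModel r E act) (a : ℕ)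
    (hkill : ∀ e : E, r ^ a • e = 0) (F : ℕ → AddSubgroup E) (hF0 : F 0 = ⊤) (n : ℕ)
    (hFn : F n = ⊥)
    (hstep : ∀ i, ∀ σ ∈ (padicPlace r).inertiaSubgroupIn ℚ, ∀ e ∈ F i, act σ e - e ∈ F (i + 1)) :
    ∀ σ ∈ (padicPlace r).inertiaSubgroupIn ℚ, ∀ e : E, act σ e = e := by
  intro σ hσ e
  obtain ⟨τ, rfl, hτ⟩ := exists_local_inertia_of_mem_inertia r hσ
  have hloc : LocalFlatModel r E (fun τ => act (localGaloisToGlobal r τ)) :=
    localFlatModel_of_flatModel r hflat
  refine local_act_eq_of_filtration r hr2 E (fun τ => act (localGaloisToGlobal r τ)) hloc a hkill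
    F hF0 n hFn ?_ τ hτ e
  intro i τ₁ hτ₁ v hv
  exact hstep i _ ((localGaloisToGlobal_mem_inertia_iff r τ₁).2 hτ₁) v hv

/-- **General-exponent (R1).**  A flat module (`r` odd, killed by `r ^ a`) on which the inertia group
at a place `A` over `r` acts unipotently (a finite filtration `F 0 = ⊤ ≥ … ≥ F n = ⊥` of subgroups
with `act σ e - e ∈ F (i+1)` for `e ∈ F i`) is unramified at `A`. -/
theorem act_eq_of_flat_of_filtration (hr2 : r ≠ 2) (hflat : FlatModel r E act) (a : ℕ)
    (hkill : ∀ e : E, r ^ a • e = 0) {A : ValuationSubring Qb} (hA : A.LiesOverPrime r)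
    (F : ℕ → AddSubgroup E) (hF0 : F 0 = ⊤) (n : ℕ) (hFn : F n = ⊥)
    (hstep : ∀ i, ∀ σ ∈ A.inertiaSubgroupIn ℚ, ∀ e ∈ F i, act σ e - e ∈ F (i + 1)) :
    ∀ σ ∈ A.inertiaSubgroupIn ℚ, ∀ e : E, act σ e = e := by
  have hr : r.Prime := Fact.out
  have hP := padicPlace_liesOverPrime r
  obtain ⟨g, rfl⟩ := exists_smul_eq_of_liesOverPrime hr hP hA
  -- the conjugated filtration
  let F' : ℕ → AddSubgroup E := fun i =>
    { carrier := {w | act g w ∈ F i}
      zero_mem' := by
        show act g 0 ∈ F i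
        rw [FlatModel.act_zero hflat]
        exact (F i).zero_mem
      add_mem' := by
        intro x y hx hy
        show act g (x + y) ∈ F i
        rw [FlatModel.act_add hflat]
        exact (F i).add_mem hx hy
      neg_mem' := by
        intro x hx
        show act g (-x) ∈ F i
        rw [act_neg68 hflat]
        exact (F i).neg_mem hx }
  have conj : ∀ σ' ∈ (padicPlace r).inertiaSubgroupIn ℚ,
      g * σ' * g⁻¹ ∈ (g • padicPlace r).inertiaSubgroupIn ℚ := by
    intro σ' hσ'
    rw [mem_inertiaSubgroupIn_smul_iff hr hP g]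
    have e1 : g⁻¹ * (g * σ' * g⁻¹) * g = σ' := by group
    rw [e1]
    exact hσ'
  have hF'0 : F' 0 = ⊤ := by
    apply AddSubgroup.ext
    intro w
    constructor
    · intro _
      exact AddSubgroup.mem_top w
    · intro _
      show act g w ∈ F 0
      rw [hF0]
      exact AddSubgroup.mem_top _
  have hF'n : F' n = ⊥ := by
    apply AddSubgroup.ext
    intro w
    constructor
    · intro hw
      have h1 : act g w ∈ F n := hw
      rw [hFn, AddSubgroup.mem_bot] at h1
      have h2 := congrArg (act g⁻¹) h1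
      rw [act_inv_act68 hflat, FlatModel.act_zero hflat] at h2
      rw [AddSubgroup.mem_bot]
      exact h2
    · intro hw
      rw [AddSubgroup.mem_bot] at hw
      show act g w ∈ F n
      rw [hw, FlatModel.act_zero hflat]
      exact (F n).zero_mem
  have hmain := act_eq_of_flat_of_filtration_padicPlace hr2 hflat a hkill F' hF'0 n hF'n ?_
  · intro σ hσ e
    have hσ' : g⁻¹ * σ * g ∈ (padicPlace r).inertiaSubgroupIn ℚ :=
      (mem_inertiaSubgroupIn_smul_iff hr hP g).1 hσ
    have h1 := hmain _ hσ' (act g⁻¹ e)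
    rw [FlatModel.act_mul hflat, FlatModel.act_mul hflat, act_act_inv68 hflat] at h1
    have h2 := congrArg (act g) h1
    rwa [act_act_inv68 hflat, act_act_inv68 hflat] at h2
  · intro i σ' hσ' e he
    show act g (act σ' e - e) ∈ F (i + 1)
    have h1 := hstep i _ (conj σ' hσ') (act g e) he
    rw [FlatModel.act_mul hflat, FlatModel.act_mul hflat, act_inv_act68 hflat] at h1
    rwa [act_sub68 hflat]

/-- **(R1) for exponent `r ^ a`**: the two-step form of `FlatRank68.act_eq_of_flat_of_unipotent` without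
the hypothesis that `E` is killed by `r`.  ("A finite flat extension of an étale group by an étale
group is étale", `r` odd.) -/
theorem act_eq_of_flat_of_unipotent_pow (hr2 : r ≠ 2) (hflat : FlatModel r E act) (a : ℕ)
    (hkill : ∀ e : E, r ^ a • e = 0) {A : ValuationSubring Qb} (hA : A.LiesOverPrime r)
    (W : AddSubgroup E)
    (hW : ∀ σ ∈ A.inertiaSubgroupIn ℚ, ∀ w ∈ W, act σ w = w)
    (hEW : ∀ σ ∈ A.inertiaSubgroupIn ℚ, ∀ e : E, act σ e - e ∈ W) :
    ∀ σ ∈ A.inertiaSubgroupIn ℚ, ∀ e : E, act σ e = e := by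
  let F : ℕ → AddSubgroup E := fun i => if i = 0 then ⊤ else if i = 1 then W else ⊥
  refine act_eq_of_flat_of_filtration hr2 hflat a hkill hA F (by simp [F]) 2 (by simp [F]) ?_
  intro i σ hσ e he
  rcases i with _ | _ | i
  · have : F (0 + 1) = W := by simp [F]
    rw [this]
    exact hEW σ hσ e
  · have h1 : F 1 = W := by simp [F]
    have h2 : F (0 + 1 + 1) = ⊥ := by simp [F]
    rw [h1] at he
    rw [h2, AddSubgroup.mem_bot, hW σ hσ e he, sub_self]
  · have h1 : F (i + 1 + 1) = ⊥ := by simp [F]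
    have h2 : F (i + 1 + 1 + 1) = ⊥ := by simp [F]
    rw [h1, AddSubgroup.mem_bot] at he
    rw [h2, AddSubgroup.mem_bot, he, FlatModel.act_zero hflat, sub_self]

end Global

end Fermat.Agent.MAZ.Local.FlatUnip63
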