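/-
Program MAZ (S15), brick (MOD-c), part 1 (helper28): the nonsingular points of a split nodal
Weierstrass cubic form the multiplicative group.

Normal form `N α β : y² - (α+β) x y = x³ - α β x²` (node at the origin, tangent slopes `α ≠ β`):
`pt u = ((α-β)² u/(1-u)², (α - β u)(α-β)² u/(1-u)³)` for `u ≠ 1`, `pt 1 = 0`, is a bijective
homomorphism `Fˣ → (N α β).Point` (`pt_mul`, `pt_injective`, `pt_surjective`).  A general nodal
cubic (`Δ = 0`, `c₄ ≠ 0`, tangent slopes `α, β` in `F`) is translated to the normal form with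
`S05.Transport.pointEquiv`.  Consequence used by (MOD-c): at most `n` points are killed by `n`
(`card_torsion_le`).
-/
import Mathlib
import Fermat.Agent.ES.Q58.NodeCount15
import Fermat.Agent.S05.Transport

set_option autoImplicit false

open WeierstrassCurve WeierstrassCurve.Affine

namespace Fermat.Agent.MAZ.Local.NodalGm28

open Fermat.Agent.ES.Q58.NodeCount15

section Normal

variable {F : Type*} [Field F] (α β : F)

/-- The nodal cubic in normal form `y² - (α+β) x y = x³ - α β x²`. -/
def N : WeierstrassCurve F := ⟨-(α + β), -(α * β), 0, 0, 0⟩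

/-- `x`-coordinate of the point with parameter `u`. -/
noncomputable def xi (u : F) : F := (α - β) ^ 2 * u / (1 - u) ^ 2

/-- `y`-coordinate of the point with parameter `u`. -/
noncomputable def eta (u : F) : F := (α - β * u) * (α - β) ^ 2 * u / (1 - u) ^ 3

variable {α β}

theorem equation_N (x y : F) :
    (N α β).toAffine.Equation x y ↔ (y - α * x) * (y - β * x) = x ^ 3 := by
  rw [Affine.equation_iff]
  simp only [N]
  constructor <;> intro h <;> linear_combination h

theorem nonsingular_N (x y : F) :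
    (N α β).toAffine.Nonsingular x y ↔ (y - α * x) * (y - β * x) = x ^ 3 ∧ x ≠ 0 := by
  rw [Affine.nonsingular_iff, equation_N]
  simp only [N]
  constructor
  · rintro ⟨he, hns⟩
    refine ⟨he, ?_⟩
    rintro rfl
    have hy : y = 0 := by
      have : y ^ 2 = 0 := by linear_combination he
      exact pow_eq_zero_iff two_ne_zero |>.mp this
    subst hy
    rcases hns with h | h <;> exact h (by ring)
  · rintro ⟨he, hx⟩
    refine ⟨he, ?_⟩
    by_contra hcon
    push Not at hcon
    obtain ⟨h1, h2⟩ := hcon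
    have : x ^ 3 = 0 := by
      linear_combination (-x) * h1 + (-y) * h2 + 2 * he
    exact hx (pow_eq_zero_iff (by norm_num) |>.mp this)

theorem nonsingular_param (hαβ : α ≠ β) {u : F} (hu0 : u ≠ 0) (hu1 : u ≠ 1) :
    (N α β).toAffine.Nonsingular (xi α β u) (eta α β u) := by
  have h1 : (1 - u) ≠ 0 := sub_ne_zero.mpr (Ne.symm hu1)
  have hd : α - β ≠ 0 := sub_ne_zero.mpr hαβ
  rw [nonsingular_N]
  refine ⟨?_, ?_⟩
  · unfold xi eta
    field_simp
    ring
  · unfold xi
    exact div_ne_zero (mul_ne_zero (pow_ne_zero 2 hd) hu0) (pow_ne_zero 2 h1)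

theorem xi_eq_iff (hαβ : α ≠ β) {u v : F} (hu1 : u ≠ 1) (hv1 : v ≠ 1) :
    xi α β u = xi α β v ↔ u = v ∨ u * v = 1 := by
  have h1 : (1 - u) ≠ 0 := sub_ne_zero.mpr (Ne.symm hu1)
  have h2 : (1 - v) ≠ 0 := sub_ne_zero.mpr (Ne.symm hv1)
  have hd : α - β ≠ 0 := sub_ne_zero.mpr hαβ
  have key : xi α β u - xi α β v =
      (α - β) ^ 2 * ((u - v) * (1 - u * v)) / ((1 - u) ^ 2 * (1 - v) ^ 2) := by
    unfold xi
    field_simp
    ring
  rw [← sub_eq_zero, key, div_eq_zero_iff]
  constructor
  · rintro (h | h)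
    · rcases mul_eq_zero.mp h with h | h
      · exact absurd h (pow_ne_zero 2 hd)
      · rcases mul_eq_zero.mp h with h | h
        · exact Or.inl (sub_eq_zero.mp h)
        · exact Or.inr (sub_eq_zero.mp h).symm
    · exact absurd h (mul_ne_zero (pow_ne_zero 2 h1) (pow_ne_zero 2 h2))
  · rintro (h | h)
    · left; rw [h, sub_self, zero_mul, mul_zero]
    · left; rw [h, sub_self, mul_zero, mul_zero]

end Normal

section Hom

variable {F : Type*} [Field F] [DecidableEq F] {α β : F}

/-- The point of the normal form with parameter `u`. -/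
noncomputable def pt (hαβ : α ≠ β) (u : Fˣ) : (N α β).toAffine.Point :=
  if h : (u : F) = 1 then 0
  else Point.some _ _ (nonsingular_param hαβ u.ne_zero h)

theorem pt_of_eq (hαβ : α ≠ β) {u : Fˣ} (h : (u : F) = 1) : pt hαβ u = 0 := by
  rw [pt, dif_pos h]

theorem pt_of_ne (hαβ : α ≠ β) {u : Fˣ} (h : (u : F) ≠ 1) :
    pt hαβ u = Point.some _ _ (nonsingular_param hαβ u.ne_zero h) := by
  rw [pt, dif_neg h]

theorem pt_eq_zero_iff (hαβ : α ≠ β) (u : Fˣ) : pt hαβ u = 0 ↔ u = 1 := by
  constructor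
  · intro h
    by_contra hu
    have hu' : (u : F) ≠ 1 := fun h' => hu (Units.ext h')
    rw [pt_of_ne hαβ hu'] at h
    exact Point.some_ne_zero _ h
  · rintro rfl
    exact pt_of_eq hαβ rfl

omit [DecidableEq F] in
/-- negation: `-pt u = pt u⁻¹`. -/
theorem negY_param {u : F} (hu0 : u ≠ 0) (hu1 : u ≠ 1) :
    (N α β).toAffine.negY (xi α β u) (eta α β u) = eta α β u⁻¹ := by
  have h1 : (1 - u) ≠ 0 := sub_ne_zero.mpr (Ne.symm hu1)
  have h1' : (u - 1) ≠ 0 := sub_ne_zero.mpr hu1
  have e : (1 - u⁻¹) = (u - 1) / u := by field_simp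
  simp only [Affine.negY, N, xi, eta, e]
  field_simp
  ring

omit [DecidableEq F] in
theorem xi_inv {u : F} (hu0 : u ≠ 0) (hu1 : u ≠ 1) : xi α β u⁻¹ = xi α β u := by
  have h1 : (1 - u) ≠ 0 := sub_ne_zero.mpr (Ne.symm hu1)
  have h1' : (u - 1) ≠ 0 := sub_ne_zero.mpr hu1
  have e : (1 - u⁻¹) = (u - 1) / u := by field_simp
  simp only [xi, e]
  field_simp
  ring

/-- the explicit slope of the chord through `pt u`, `pt v`. -/
noncomputable def chordSlope (α β u v : F) : F :=
  ((α - β * u) * u * (1 - v) ^ 3 - (α - β * v) * v * (1 - u) ^ 3) /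
    ((u - v) * (1 - u * v) * (1 - u) * (1 - v))

omit [DecidableEq F] in
theorem chord_slope_eq (hαβ : α ≠ β) {u v : F} (hu1 : u ≠ 1) (hv1 : v ≠ 1)
    (huv : u ≠ v) (huv1 : u * v ≠ 1) :
    (eta α β u - eta α β v) / (xi α β u - xi α β v) = chordSlope α β u v := by
  have h1 : (1 - u) ≠ 0 := sub_ne_zero.mpr (Ne.symm hu1)
  have h2 : (1 - v) ≠ 0 := sub_ne_zero.mpr (Ne.symm hv1)
  have h3 : (1 - u * v) ≠ 0 := sub_ne_zero.mpr (Ne.symm huv1)
  have h4 : (u - v) ≠ 0 := sub_ne_zero.mpr huv
  have hd : α - β ≠ 0 := sub_ne_zero.mpr hαβ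
  have key : xi α β u - xi α β v =
      (α - β) ^ 2 * ((u - v) * (1 - u * v)) / ((1 - u) ^ 2 * (1 - v) ^ 2) := by
    unfold xi
    field_simp
    ring
  rw [key]
  unfold eta chordSlope
  field_simp

omit [DecidableEq F] in
/-- the chord formula, `x`-coordinate. -/
theorem addX_param {u v : F} (hu1 : u ≠ 1) (hv1 : v ≠ 1)
    (huv : u ≠ v) (huv1 : u * v ≠ 1) :
    (N α β).toAffine.addX (xi α β u) (xi α β v) (chordSlope α β u v) = xi α β (u * v) := by
  have h1 : (1 - u) ≠ 0 := sub_ne_zero.mpr (Ne.symm hu1)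
  have h2 : (1 - v) ≠ 0 := sub_ne_zero.mpr (Ne.symm hv1)
  have h3 : (1 - u * v) ≠ 0 := sub_ne_zero.mpr (Ne.symm huv1)
  have h4 : (u - v) ≠ 0 := sub_ne_zero.mpr huv
  simp only [Affine.addX, N, xi, chordSlope]
  field_simp
  ring

omit [DecidableEq F] in
/-- the chord formula, `y`-coordinate. -/
theorem addY_param {u v : F} (hu1 : u ≠ 1) (hv1 : v ≠ 1)
    (huv : u ≠ v) (huv1 : u * v ≠ 1) :
    (N α β).toAffine.addY (xi α β u) (xi α β v) (eta α β u) (chordSlope α β u v) =
      eta α β (u * v) := by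
  have h1 : (1 - u) ≠ 0 := sub_ne_zero.mpr (Ne.symm hu1)
  have h2 : (1 - v) ≠ 0 := sub_ne_zero.mpr (Ne.symm hv1)
  have h3 : (1 - u * v) ≠ 0 := sub_ne_zero.mpr (Ne.symm huv1)
  have h4 : (u - v) ≠ 0 := sub_ne_zero.mpr huv
  simp only [Affine.addY, Affine.negY, Affine.negAddY, Affine.addX, N, xi, eta, chordSlope]
  field_simp
  ring

/-- the explicit slope of the tangent at `pt u`. -/
noncomputable def tangentSlope (α β u : F) : F :=
  (3 * (α - β) ^ 2 * u - 2 * (α * β) * (1 - u) ^ 2 + (α + β) * (α - β * u) * (1 - u)) /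
    ((1 - u) * (α - β) * (1 + u))

omit [DecidableEq F] in
theorem sub_negY_param {u : F} (hu1 : u ≠ 1) :
    eta α β u - (N α β).toAffine.negY (xi α β u) (eta α β u) =
      xi α β u * ((α - β) * (1 + u) / (1 - u)) := by
  have h1 : (1 - u) ≠ 0 := sub_ne_zero.mpr (Ne.symm hu1)
  simp only [Affine.negY, N, xi, eta]
  field_simp
  ring

omit [DecidableEq F] in
theorem tangent_slope_eq (hαβ : α ≠ β) {u : F} (hu0 : u ≠ 0) (hu1 : u ≠ 1) (hu2 : 1 + u ≠ 0) :
    (3 * xi α β u ^ 2 + 2 * (N α β).a₂ * xi α β u + (N α β).a₄ - (N α β).a₁ * eta α β u) /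
      (eta α β u - (N α β).toAffine.negY (xi α β u) (eta α β u)) = tangentSlope α β u := by
  have h1 : (1 - u) ≠ 0 := sub_ne_zero.mpr (Ne.symm hu1)
  have hd : α - β ≠ 0 := sub_ne_zero.mpr hαβ
  rw [sub_negY_param hu1]
  simp only [N, xi, eta, tangentSlope]
  field_simp
  ring

omit [DecidableEq F] in
/-- the tangent formula, `x`-coordinate. -/
theorem addX_dbl (hαβ : α ≠ β) {u : F} (hu1 : u ≠ 1) (hu2 : 1 + u ≠ 0) :
    (N α β).toAffine.addX (xi α β u) (xi α β u) (tangentSlope α β u) = xi α β (u * u) := by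
  have h1 : (1 - u) ≠ 0 := sub_ne_zero.mpr (Ne.symm hu1)
  have hd : α - β ≠ 0 := sub_ne_zero.mpr hαβ
  have h3 : (1 - u * u) ≠ 0 := by
    have : 1 - u * u = (1 - u) * (1 + u) := by ring
    rw [this]; exact mul_ne_zero h1 hu2
  simp only [Affine.addX, N, xi, tangentSlope]
  rw [show (1 - u * u) = (1 - u) * (1 + u) by ring]
  field_simp
  ring

omit [DecidableEq F] in
/-- the tangent formula, `y`-coordinate. -/
theorem addY_dbl (hαβ : α ≠ β) {u : F} (hu1 : u ≠ 1) (hu2 : 1 + u ≠ 0) :
    (N α β).toAffine.addY (xi α β u) (xi α β u) (eta α β u) (tangentSlope α β u) =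
      eta α β (u * u) := by
  have h1 : (1 - u) ≠ 0 := sub_ne_zero.mpr (Ne.symm hu1)
  have hd : α - β ≠ 0 := sub_ne_zero.mpr hαβ
  have h3 : (1 - u * u) ≠ 0 := by
    have : 1 - u * u = (1 - u) * (1 + u) := by ring
    rw [this]; exact mul_ne_zero h1 hu2
  simp only [Affine.addY, Affine.negY, Affine.negAddY, Affine.addX, N, xi, eta, tangentSlope]
  rw [show (1 - u * u) = (1 - u) * (1 + u) by ring]
  field_simp
  ring

/-- **`pt` is a homomorphism.** -/
theorem pt_mul (hαβ : α ≠ β) (u v : Fˣ) : pt hαβ (u * v) = pt hαβ u + pt hαβ v := by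
  by_cases hu : (u : F) = 1
  · have : u = 1 := Units.ext hu
    subst this
    rw [one_mul, pt_of_eq hαβ (u := 1) rfl, zero_add]
  by_cases hv : (v : F) = 1
  · have : v = 1 := Units.ext hv
    subst this
    rw [mul_one, pt_of_eq hαβ (u := 1) rfl, add_zero]
  rw [pt_of_ne hαβ hu, pt_of_ne hαβ hv]
  by_cases huv1 : (u : F) * v = 1
  · -- inverse points
    have hv' : (v : F) = (u : F)⁻¹ := (eq_inv_of_mul_eq_one_right huv1)
    rw [pt_of_eq hαβ (by rw [Units.val_mul]; exact huv1)]
    rw [Point.add_of_Y_eq]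
    · rw [hv', xi_inv u.ne_zero hu]
    · rw [hv', xi_inv u.ne_zero hu, ← negY_param (α := α) (β := β) u.ne_zero hu]
      have hh : (u : F)⁻¹⁻¹ = u := inv_inv _
      have := negY_param (α := α) (β := β) (u := (u : F)⁻¹) (inv_ne_zero u.ne_zero)
        (fun h => hu (by rw [← inv_inv (u : F), h, inv_one]))
      rw [hh, xi_inv u.ne_zero hu] at this
      rw [← this, Affine.negY_negY]
  have huv1' : ((u * v : Fˣ) : F) ≠ 1 := by rw [Units.val_mul]; exact huv1
  rw [pt_of_ne hαβ huv1']
  by_cases huv : (u : F) = v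
  · -- doubling
    have : u = v := Units.ext huv
    subst this
    have hu2 : 1 + (u : F) ≠ 0 := by
      intro h
      apply huv1
      have : (u : F) = -1 := by linear_combination h
      rw [this]; ring
    have hy : eta α β (u : F) ≠ (N α β).toAffine.negY (xi α β u) (eta α β u) := by
      intro h
      have h' := sub_negY_param (α := α) (β := β) hu
      rw [← h, sub_self] at h'
      have h1 : (1 - (u : F)) ≠ 0 := sub_ne_zero.mpr (Ne.symm hu)
      have hd : α - β ≠ 0 := sub_ne_zero.mpr hαβ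
      have hxi : xi α β (u : F) ≠ 0 :=
        div_ne_zero (mul_ne_zero (pow_ne_zero 2 hd) u.ne_zero) (pow_ne_zero 2 h1)
      exact (mul_ne_zero hxi (div_ne_zero (mul_ne_zero hd hu2) h1)) h'.symm
    rw [Point.add_self_of_Y_ne hy]
    simp only [Point.some.injEq]
    rw [Affine.slope_of_Y_ne rfl hy, tangent_slope_eq hαβ u.ne_zero hu hu2,
      addX_dbl hαβ hu hu2, addY_dbl hαβ hu hu2, Units.val_mul]
    exact ⟨rfl, rfl⟩
  · -- chord
    have hx : xi α β (u : F) ≠ xi α β (v : F) := by
      intro h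
      rcases (xi_eq_iff hαβ hu hv).mp h with h | h
      · exact huv h
      · exact huv1 h
    rw [Point.add_of_X_ne hx]
    simp only [Point.some.injEq]
    rw [Affine.slope_of_X_ne hx, chord_slope_eq hαβ hu hv huv huv1,
      addX_param hu hv huv huv1, addY_param hu hv huv huv1, Units.val_mul]
    exact ⟨rfl, rfl⟩

/-- `pt` as a monoid homomorphism into the multiplicative version of the point group. -/
noncomputable def ptHom (hαβ : α ≠ β) : Fˣ →* Multiplicative (N α β).toAffine.Point where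
  toFun u := Multiplicative.ofAdd (pt hαβ u)
  map_one' := by
    show Multiplicative.ofAdd (pt hαβ 1) = 1
    rw [pt_of_eq hαβ rfl]; rfl
  map_mul' u v := by
    show Multiplicative.ofAdd (pt hαβ (u * v)) = _
    rw [pt_mul]; rfl

theorem pt_injective (hαβ : α ≠ β) : Function.Injective (pt (F := F) hαβ) := by
  intro u v h
  have h1 : pt hαβ (u * v⁻¹) = 0 := by
    rw [pt_mul, h, ← pt_mul, mul_inv_cancel, pt_of_eq hαβ rfl]
  have := (pt_eq_zero_iff hαβ _).mp h1
  exact mul_inv_eq_one.mp this

theorem pt_surjective (hαβ : α ≠ β) : Function.Surjective (pt (F := F) hαβ) := by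
  rintro (_ | ⟨x, y, h⟩)
  · exact ⟨1, pt_of_eq hαβ rfl⟩
  · obtain ⟨he, hx⟩ := (nonsingular_N x y).mp h
    have hd : α - β ≠ 0 := sub_ne_zero.mpr hαβ
    set t := y / x with ht
    have hy : y = t * x := by rw [ht]; field_simp
    have hxt : (t - α) * (t - β) = x := by
      have : x ^ 2 * ((t - α) * (t - β)) = x ^ 2 * x := by
        rw [hy] at he
        linear_combination he
      exact mul_left_cancel₀ (pow_ne_zero 2 hx) this
    have hta : t - α ≠ 0 := by
      intro h0; rw [h0, zero_mul] at hxt; exact hx hxt.symm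
    have htb : t - β ≠ 0 := by
      intro h0; rw [h0, mul_zero] at hxt; exact hx hxt.symm
    have hu0 : (t - α) / (t - β) ≠ 0 := div_ne_zero hta htb
    have hu1 : (t - α) / (t - β) ≠ 1 := by
      intro h1
      rw [div_eq_one_iff_eq htb] at h1
      apply hd
      linear_combination -h1
    refine ⟨Units.mk0 _ hu0, ?_⟩
    rw [pt_of_ne hαβ (by simpa using hu1)]
    simp only [Point.some.injEq, Units.val_mk0]
    have e1 : 1 - (t - α) / (t - β) = (α - β) / (t - β) := by field_simp; ring
    constructor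
    · unfold xi
      rw [e1, ← hxt]
      field_simp
    · unfold eta
      rw [e1, hy, ← hxt]
      field_simp
      ring

end Hom

section General

variable {F : Type*} [Field F] [DecidableEq F] {W : WeierstrassCurve F} {α β : F}

theorem pt_pow (hαβ : α ≠ β) (u : Fˣ) (n : ℕ) : pt hαβ (u ^ n) = n • pt hαβ u := by
  induction n with
  | zero => rw [pow_zero, zero_smul, pt_of_eq hαβ (u := 1) rfl]
  | succ k ih => rw [pow_succ, pt_mul, ih, succ_nsmul]

/-- The translation moving the node to the origin. -/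
noncomputable def nodeVC (W : WeierstrassCurve F) : VariableChange F := ⟨1, x₀ W, 0, y₀ W⟩

omit [DecidableEq F] in
/-- A nodal cubic with tangent slopes `α, β` is a translate of the normal form. -/
theorem normalForm_eq (hΔ : W.Δ = 0) (hc : W.c₄ ≠ 0) (hsum : α + β = -W.a₁)
    (hprod : α * β = -a₂' W) : N α β = nodeVC W • W := by
  have h1 := node_fy hc
  have h2 := node_fx hΔ hc
  have h3 := node_f hΔ hc
  ext
  · simp only [N, nodeVC, variableChange_a₁, Units.val_one, inv_one]
    linear_combination -hsum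
  · simp only [N, nodeVC, variableChange_a₂, Units.val_one, inv_one]
    unfold a₂' at hprod
    linear_combination -hprod
  · simp only [N, nodeVC, variableChange_a₃, Units.val_one, inv_one]
    linear_combination -h1
  · simp only [N, nodeVC, variableChange_a₄, Units.val_one, inv_one]
    linear_combination h2
  · simp only [N, nodeVC, variableChange_a₆, Units.val_one, inv_one]
    linear_combination h3

/-- **The nonsingular points of a split nodal cubic are the multiplicative group.** -/
noncomputable def gmEquiv (hΔ : W.Δ = 0) (hc : W.c₄ ≠ 0) (hsum : α + β = -W.a₁)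
    (hprod : α * β = -a₂' W) : Fˣ ≃* Multiplicative W.toAffine.Point :=
  (MulEquiv.ofBijective (ptHom (alpha_ne_beta hΔ hc hsum hprod))
      ⟨fun u v h => pt_injective (alpha_ne_beta hΔ hc hsum hprod)
          (Multiplicative.ofAdd.injective h),
        fun P => by
          obtain ⟨u, hu⟩ := pt_surjective (alpha_ne_beta hΔ hc hsum hprod)
            (Multiplicative.toAdd P)
          exact ⟨u, by show Multiplicative.ofAdd (pt _ u) = P; rw [hu]; rfl⟩⟩).trans
    (AddEquiv.toMultiplicative
      (Fermat.Agent.S05.Transport.pointEquiv (normalForm_eq hΔ hc hsum hprod)))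

/-- **At most `n` points of a split nodal cubic are killed by `n`.** -/
theorem card_torsion_le (hΔ : W.Δ = 0) (hc : W.c₄ ≠ 0) (hsum : α + β = -W.a₁)
    (hprod : α * β = -a₂' W) {n : ℕ} (hn : 0 < n) (S : Finset W.toAffine.Point)
    (hS : ∀ P ∈ S, n • P = 0) : S.card ≤ n := by
  set e := gmEquiv hΔ hc hsum hprod with he
  let f : W.toAffine.Point → F := fun P => ((e.symm (Multiplicative.ofAdd P) : Fˣ) : F)
  have hf : ∀ P ∈ S, f P ∈ Polynomial.nthRootsFinset n (1 : F) := by
    intro P hP
    rw [Polynomial.mem_nthRootsFinset hn]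
    have h1 : (e.symm (Multiplicative.ofAdd P)) ^ n = 1 := by
      rw [← map_pow, ← ofAdd_nsmul, hS P hP]
      exact map_one e.symm
    show ((e.symm (Multiplicative.ofAdd P) : Fˣ) : F) ^ n = 1
    rw [← Units.val_pow_eq_pow_val, h1, Units.val_one]
  have hinj : Set.InjOn f S := by
    intro P _ P' _ h
    have h' : e.symm (Multiplicative.ofAdd P) = e.symm (Multiplicative.ofAdd P') := Units.ext h
    exact Multiplicative.ofAdd.injective (e.symm.injective h')
  calc S.card ≤ (Polynomial.nthRootsFinset n (1 : F)).card :=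
        Finset.card_le_card_of_injOn f hf hinj
    _ ≤ Multiset.card (Polynomial.nthRoots n (1 : F)) := by
        rw [Polynomial.nthRootsFinset_def]
        exact Multiset.toFinset_card_le _
    _ ≤ n := Polynomial.card_nthRoots n 1

end General

end Fermat.Agent.MAZ.Local.NodalGm28
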