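/-
Program MAZ (S15), brick L1 (helper28): the local lemma.

`W` an integral Weierstrass model with multiplicative reduction at the prime `ℓ`
(`ℓ ∣ Δ`, `ℓ ∤ c₄`), `Q` a `ℚ`-rational point (Galois-fixed point of `E(ℚ̄)`) of odd prime order
`p ≠ ℓ`, `A` a place of `ℚ̄` over `ℓ`.  If `Q` lies in the zero component at `A`
(`WeierstrassCurve.InZeroComponentAt`, the Prelude predicate of S15), then `p ∣ ℓ - 1` or
`p ∣ ℓ + 1`.

Proof.  `Q` has integral coordinates (`S05.Kernel.x_integral_of_nsmul_eq_zero`); its reduction `R`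
is a nonsingular point of the special fibre, `p • R = 0` and `R ≠ 0`
(`ES/Q58/Red39a`: division polynomials commute with reduction; no good reduction needed);
`R` is `𝔽_ℓ`-rational, in particular fixed by `Frob²`; the group of `Frob²`-fixed nonsingular
points of a nodal cubic over `𝔽_ℓ` has `ℓ² - 1` elements (`ES/Q58/NodeCount15.card_fixPts`); Lagrange.

Consequences: `not_inZeroComponentAt_of_not_dvd`, and the hypotheses `h2`, `h3` of S15 are automatic
for `p ≥ 5` (`not_inZeroComponentAt_two`, `not_inZeroComponentAt_three`).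
-/
import Mathlib
import Fermat.Prelude.Def_EllipticCurve_ZeroComponentAt
import Fermat.Prelude.Def_FLTPrelim_Ramification
import Fermat.Prelude.Def_FLTPrelim_Modularity
import Fermat.Agent.S05.Kernel
import Fermat.Agent.S05.Inertia
import Fermat.Agent.S13.GalRat
import Fermat.Agent.ES.EC.LiftTorsion29
import Fermat.Agent.ES.Q58.Red39a
import Fermat.Agent.ES.Q58.NodeCount15
import Fermat.Agent.ES.Q58.InertiaMult88

set_option autoImplicit false
set_option linter.unusedSectionVars false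

open WeierstrassCurve WeierstrassCurve.Affine

namespace Fermat.Agent.MAZ.Local.ZeroComp28

open Fermat.Agent.ES.Q58.Red39 Fermat.Agent.ES.Q58.NodeCount15 Fermat.Agent.S05.Kernel

local notation "Qbar" => AlgebraicClosure ℚ

/-! ### 1. The generic and the special fibre -/

section Curves

variable (W : WeierstrassCurve ℤ) (A : ValuationSubring Qbar)

/-- The curve of S15 is the generic fibre of the model `W_A`. -/
theorem gen_eq :
    ((W.map (Int.castRingHom ℚ))⁄Qbar) = genFib A (W.map (Int.castRingHom A)) := by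
  show (W.map (Int.castRingHom ℚ)).map (algebraMap ℚ Qbar) =
    (W.map (Int.castRingHom A)).map A.subtype
  rw [WeierstrassCurve.map_map, WeierstrassCurve.map_map,
    show (algebraMap ℚ Qbar).comp (Int.castRingHom ℚ) = A.subtype.comp (Int.castRingHom A) from
      RingHom.ext_int _ _]

/-- The curve over the residue field used by `InZeroComponentAt` is the special fibre of `W_A`. -/
theorem sp_eq' :
    (W.map (Int.castRingHom (IsLocalRing.ResidueField A))).toAffine =
      spFib A (W.map (Int.castRingHom A)) := by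
  show W.map (Int.castRingHom (IsLocalRing.ResidueField A)) =
    (W.map (Int.castRingHom A)).map (IsLocalRing.residue A)
  rw [WeierstrassCurve.map_map,
    show (IsLocalRing.residue A).comp (Int.castRingHom A) =
      Int.castRingHom (IsLocalRing.ResidueField A) from RingHom.ext_int _ _]

/-- The base change of the reduction mod `ℓ` is the curve over the residue field used by
`InZeroComponentAt`. -/
theorem red_eq {ℓ : ℕ} [Algebra (ZMod ℓ) (IsLocalRing.ResidueField A)] :
    ((W.reductionMod ℓ).toAffine⁄(IsLocalRing.ResidueField A)) =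
      (W.map (Int.castRingHom (IsLocalRing.ResidueField A))).toAffine := by
  show (W.map (Int.castRingHom (ZMod ℓ))).map
      (algebraMap (ZMod ℓ) (IsLocalRing.ResidueField A)) =
    W.map (Int.castRingHom (IsLocalRing.ResidueField A))
  rw [WeierstrassCurve.map_map,
    show (algebraMap (ZMod ℓ) (IsLocalRing.ResidueField A)).comp (Int.castRingHom (ZMod ℓ)) =
      Int.castRingHom (IsLocalRing.ResidueField A) from RingHom.ext_int _ _]

end Curves

/-! ### 2. Residues of rational numbers are fixed by Frobenius -/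

section RatResidue

variable (A : ValuationSubring Qbar) {ℓ : ℕ} [Fact ℓ.Prime]
  [Algebra (ZMod ℓ) (IsLocalRing.ResidueField A)]

/-- The residue of a rational number of `A` lies in the prime field. -/
theorem residue_rat_mem_range (r : ℚ) (hr : (r : Qbar) ∈ A) :
    ∃ c : ZMod ℓ, IsLocalRing.residue A ⟨(r : Qbar), hr⟩ =
      algebraMap (ZMod ℓ) (IsLocalRing.ResidueField A) c := by
  have hℓ : ℓ.Prime := Fact.out
  have : CharP (IsLocalRing.ResidueField A) ℓ :=
    charP_of_injective_algebraMap (algebraMap (ZMod ℓ) (IsLocalRing.ResidueField A)).injective ℓ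
  -- `r * den = num` in `A`
  have h1 : (⟨(r : Qbar), hr⟩ : A) * ((r.den : ℕ) : A) = ((r.num : ℤ) : A) := by
    apply Subtype.ext
    push_cast
    have := Rat.mul_den_eq_num r
    exact_mod_cast congrArg (fun t : ℚ => (t : Qbar)) this
  have h2 := congrArg (IsLocalRing.residue A) h1
  rw [map_mul, map_natCast, map_intCast] at h2
  -- the denominator is nonzero in the residue field
  have hd : ((r.den : ℕ) : IsLocalRing.ResidueField A) ≠ 0 := by
    intro h0
    rw [h0, mul_zero] at h2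
    have hd' : ℓ ∣ r.den := (CharP.cast_eq_zero_iff (IsLocalRing.ResidueField A) ℓ r.den).mp h0
    have hn' : (ℓ : ℤ) ∣ r.num :=
      (CharP.intCast_eq_zero_iff (IsLocalRing.ResidueField A) ℓ r.num).mp h2.symm
    have hn'' : ℓ ∣ r.num.natAbs := Int.natCast_dvd.mp hn'
    have hcop : Nat.Coprime r.num.natAbs r.den := r.reduced
    have := Nat.dvd_gcd hn'' hd'
    rw [hcop.gcd_eq_one] at this
    exact hℓ.one_lt.ne' (Nat.dvd_one.mp this)
  refine ⟨(r.num : ZMod ℓ) / (r.den : ZMod ℓ), ?_⟩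
  rw [map_div₀, map_intCast, map_natCast, eq_div_iff hd]
  exact h2

/-- The residue of a rational number of `A` is fixed by every power of Frobenius. -/
theorem residue_rat_mem_fixN (r : ℚ) (hr : (r : Qbar) ∈ A) (N : ℕ) :
    IsLocalRing.residue A ⟨(r : Qbar), hr⟩ ∈ fixN ℓ (IsLocalRing.ResidueField A) N := by
  obtain ⟨c, hc⟩ := residue_rat_mem_range A (ℓ := ℓ) r hr
  rw [hc]
  exact algebraMap_mem_fixN (q := ℓ) N c

end RatResidue

/-! ### 3. The local lemma -/

/-- **(L1)** A rational point of odd prime order `p ≠ ℓ` in the zero component at a multiplicative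
prime `ℓ` forces `p ∣ ℓ - 1` or `p ∣ ℓ + 1`. -/
theorem dvd_of_inZeroComponentAt {p ℓ : ℕ} (hp : p.Prime) (hp2 : p ≠ 2) (hℓ : ℓ.Prime)
    (hℓp : ℓ ≠ p) (W : WeierstrassCurve ℤ) (hℓΔ : (ℓ : ℤ) ∣ W.Δ) (hℓc₄ : ¬ (ℓ : ℤ) ∣ W.c₄)
    (Q : ((W.map (Int.castRingHom ℚ))⁄Qbar).Point)
    (hQfix : ∀ σ : Qbar ≃ₐ[ℚ] Qbar, σ • Q = Q) (hQord : addOrderOf Q = p)
    (A : ValuationSubring Qbar) (hA : A.LiesOverPrime ℓ) (hQ0 : W.InZeroComponentAt A Q) :
    p ∣ ℓ - 1 ∨ p ∣ ℓ + 1 := by
  classical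
  have : Fact ℓ.Prime := ⟨hℓ⟩
  have : Fact p.Prime := ⟨hp⟩
  have hchar : CharP (IsLocalRing.ResidueField A) ℓ :=
    Fermat.Agent.ES.EC.LiftTorsion29.charP_residueField A hℓ hA
  let _ : Algebra (ZMod ℓ) (IsLocalRing.ResidueField A) :=
    ZMod.algebra (IsLocalRing.ResidueField A) ℓ
  have : IsAlgClosed (IsLocalRing.ResidueField A) :=
    Fermat.Agent.ES.Q58.InertiaMult88.isAlgClosed_residue A
  have hM : IsModel A (W.map (Int.castRingHom A)) ((W.map (Int.castRingHom ℚ))⁄Qbar)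
      ((W.reductionMod ℓ).toAffine⁄(IsLocalRing.ResidueField A)) :=
    ⟨gen_eq W A, (red_eq W A).trans (sp_eq' W A)⟩
  -- basic facts on `Q`
  have hpQ : p • Q = 0 := by rw [← hQord]; exact addOrderOf_nsmul_eq_zero Q
  have hQne : Q ≠ 0 := by
    rintro rfl
    rw [addOrderOf_zero] at hQord
    exact hp.one_lt.ne hQord
  have hℓp' : ¬ ℓ ∣ p := fun h => hℓp ((Nat.prime_dvd_prime_iff_eq hℓ hp).mp h)
  have hvp : A.valuation ((p : ℕ) : Qbar) = 1 :=
    Fermat.Agent.S05.Inertia.valuation_natCast_eq_one hℓ hA hℓp'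
  have hodd : Odd p := hp.odd_of_ne_two hp2
  -- unpack the zero component
  rcases hQ0 with h0 | ⟨x, y, h, hQe, hxy⟩
  · exact absurd h0 hQne
  subst hQe
  have hW : IntegralCoeffs A.valuation ((W.map (Int.castRingHom ℚ))⁄Qbar) := by
    rw [gen_eq W A]; exact integralCoeffs_genFib
  have hx : A.valuation x ≤ 1 := x_integral_of_nsmul_eq_zero hW h hvp hpQ
  rcases hxy with hxA | ⟨hxA, hyA, hns⟩
  · exact absurd ((A.valuation_le_one_iff x).mp hx) hxA
  -- the reduction
  have hns' : ((W.reductionMod ℓ).toAffine⁄(IsLocalRing.ResidueField A)).Nonsingular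
      (IsLocalRing.residue A ⟨x, hxA⟩) (IsLocalRing.residue A ⟨y, hyA⟩) := by
    rw [red_eq W A]; exact hns
  have hred : Red A ((W.map (Int.castRingHom ℚ))⁄Qbar)
      ((W.reductionMod ℓ).toAffine⁄(IsLocalRing.ResidueField A))
      (Point.some x y h) (Point.some _ _ hns') :=
    red_some (a := ⟨x, hxA⟩) (b := ⟨y, hyA⟩) h hns'
  have hpR : p • (Point.some _ _ hns' :
      ((W.reductionMod ℓ).toAffine⁄(IsLocalRing.ResidueField A)).Point) = 0 :=
    hM.nsmul_eq_zero hred hodd hpQ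
  -- rationality
  have hfix : ∀ σ : Qbar ≃ₐ[ℚ] Qbar, σ x = x ∧ σ y = y := by
    intro σ
    have h1 := hQfix σ
    have h2 := congrArg (fun P : ((W.map (Int.castRingHom ℚ))⁄Qbar).Point =>
      match P with
      | .zero => (none : Option (Qbar × Qbar))
      | .some a b _ => some (a, b)) h1
    change some (σ x, σ y) = some (x, y) at h2
    simpa using h2
  obtain ⟨rx, hrx⟩ := Fermat.Agent.S13.GalRat.exists_ratCast_of_fixed x (fun σ => (hfix σ).1)
  obtain ⟨ry, hry⟩ := Fermat.Agent.S13.GalRat.exists_ratCast_of_fixed y (fun σ => (hfix σ).2)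
  subst hrx; subst hry
  have hRmem : (Point.some _ _ hns' :
      ((W.reductionMod ℓ).toAffine⁄(IsLocalRing.ResidueField A)).Point) ∈
      fixPts (κ := IsLocalRing.ResidueField A) (W.reductionMod ℓ) (2 * 1) :=
    (some_mem_fixPts (W.reductionMod ℓ) hns').mpr
      ⟨residue_rat_mem_fixN A rx hxA (2 * 1), residue_rat_mem_fixN A ry hyA (2 * 1)⟩
  -- the count
  have hΔ0 : (W.reductionMod ℓ).Δ = 0 := by
    unfold reductionMod
    rw [map_Δ, eq_intCast]
    exact (ZMod.intCast_zmod_eq_zero_iff_dvd W.Δ ℓ).mpr hℓΔ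
  have hc0 : (W.reductionMod ℓ).c₄ ≠ 0 := by
    unfold reductionMod
    rw [map_c₄, eq_intCast]
    exact fun h => hℓc₄ ((ZMod.intCast_zmod_eq_zero_iff_dvd W.c₄ ℓ).mp h)
  have hΔκ : ((W.reductionMod ℓ).toAffine⁄(IsLocalRing.ResidueField A)).Δ = 0 := by
    change ((W.reductionMod ℓ).map (algebraMap (ZMod ℓ) (IsLocalRing.ResidueField A))).Δ = 0
    rw [map_Δ, hΔ0, map_zero]
  have hcκ : ((W.reductionMod ℓ).toAffine⁄(IsLocalRing.ResidueField A)).c₄ ≠ 0 := by
    change ((W.reductionMod ℓ).map (algebraMap (ZMod ℓ) (IsLocalRing.ResidueField A))).c₄ ≠ 0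
    rw [map_c₄]
    exact (map_ne_zero_iff _
      (algebraMap (ZMod ℓ) (IsLocalRing.ResidueField A)).injective).mpr hc0
  obtain ⟨α, β, hsum, hprod, hαβ⟩ := exists_slopes (W.reductionMod ℓ) hΔκ hcκ
  obtain ⟨hfin, hcard⟩ := card_fixPts (W.reductionMod ℓ) hΔκ hcκ (N := 2 * 1) (by norm_num)
    hsum hprod (hαβ 1).1 (hαβ 1).2
  -- Lagrange
  set g : fixPts (κ := IsLocalRing.ResidueField A) (W.reductionMod ℓ) (2 * 1) :=
    ⟨_, hRmem⟩ with hg
  have hg0 : g ≠ 0 := by
    intro h0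
    have := congrArg Subtype.val h0
    exact Point.some_ne_zero hns' this
  have hpg : p • g = 0 := Subtype.ext hpR
  have hord : addOrderOf g = p := addOrderOf_eq_prime hpg hg0
  have hdvd : p ∣ Nat.card (fixPts (κ := IsLocalRing.ResidueField A) (W.reductionMod ℓ) (2 * 1)) := by
    rw [← hord]; exact addOrderOf_dvd_natCard g
  rw [hcard] at hdvd
  have hfac : ℓ ^ (2 * 1) - 1 = (ℓ - 1) * (ℓ + 1) := by
    have h1 : 1 ≤ ℓ := hℓ.one_le
    obtain ⟨m, rfl⟩ : ∃ m, ℓ = m + 1 := ⟨ℓ - 1, by omega⟩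
    simp only [Nat.add_sub_cancel]
    ring_nf
    omega
  rw [hfac] at hdvd
  exact (Nat.Prime.dvd_mul hp).mp hdvd

/-- **(L1')** `Q` is not in the zero component at a multiplicative prime `ℓ ≢ ±1 mod p`. -/
theorem not_inZeroComponentAt_of_not_dvd {p ℓ : ℕ} (hp : p.Prime) (hp2 : p ≠ 2) (hℓ : ℓ.Prime)
    (hℓp : ℓ ≠ p) (W : WeierstrassCurve ℤ) (hℓΔ : (ℓ : ℤ) ∣ W.Δ) (hℓc₄ : ¬ (ℓ : ℤ) ∣ W.c₄)
    (Q : ((W.map (Int.castRingHom ℚ))⁄Qbar).Point)
    (hQfix : ∀ σ : Qbar ≃ₐ[ℚ] Qbar, σ • Q = Q) (hQord : addOrderOf Q = p)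
    (A : ValuationSubring Qbar) (hA : A.LiesOverPrime ℓ)
    (hnd : ¬ p ∣ ℓ - 1 ∧ ¬ p ∣ ℓ + 1) : ¬ W.InZeroComponentAt A Q := fun hQ0 =>
  (dvd_of_inZeroComponentAt hp hp2 hℓ hℓp W hℓΔ hℓc₄ Q hQfix hQord A hA hQ0).elim hnd.1 hnd.2

/-- The hypothesis `h2` of S15 is automatic for `p ≥ 5`. -/
theorem not_inZeroComponentAt_two {p : ℕ} (hp : p.Prime) (hp5 : 5 ≤ p)
    (W : WeierstrassCurve ℤ) (h2Δ : (2 : ℤ) ∣ W.Δ) (h2c₄ : ¬ (2 : ℤ) ∣ W.c₄)
    (Q : ((W.map (Int.castRingHom ℚ))⁄Qbar).Point)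
    (hQfix : ∀ σ : Qbar ≃ₐ[ℚ] Qbar, σ • Q = Q) (hQord : addOrderOf Q = p)
    (A : ValuationSubring Qbar) (hA : A.LiesOverPrime 2) : ¬ W.InZeroComponentAt A Q := by
  refine not_inZeroComponentAt_of_not_dvd hp (by omega) Nat.prime_two (by omega) W
    (by exact_mod_cast h2Δ) (by exact_mod_cast h2c₄) Q hQfix hQord A hA ⟨?_, ?_⟩
  · intro h
    have := Nat.le_of_dvd (by norm_num) h
    omega
  · intro h
    have := Nat.le_of_dvd (by norm_num) h
    omega

/-- The hypothesis `h3` of S15 is automatic for `p ≥ 5`. -/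
theorem not_inZeroComponentAt_three {p : ℕ} (hp : p.Prime) (hp5 : 5 ≤ p)
    (W : WeierstrassCurve ℤ) (h3Δ : (3 : ℤ) ∣ W.Δ) (h3c₄ : ¬ (3 : ℤ) ∣ W.c₄)
    (Q : ((W.map (Int.castRingHom ℚ))⁄Qbar).Point)
    (hQfix : ∀ σ : Qbar ≃ₐ[ℚ] Qbar, σ • Q = Q) (hQord : addOrderOf Q = p)
    (A : ValuationSubring Qbar) (hA : A.LiesOverPrime 3) : ¬ W.InZeroComponentAt A Q := by
  refine not_inZeroComponentAt_of_not_dvd hp (by omega) Nat.prime_three (by omega) W
    (by exact_mod_cast h3Δ) (by exact_mod_cast h3c₄) Q hQfix hQord A hA ⟨?_, ?_⟩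
  · intro h
    have := Nat.le_of_dvd (by norm_num) h
    omega
  · intro h
    have := Nat.le_of_dvd (by norm_num) h
    omega

end Fermat.Agent.MAZ.Local.ZeroComp28
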