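/-
Program MAZ (S15), brick (MOD-c) + (MOD-LOC (i), (i')) (helper28): torsion points and the zero
component at a multiplicative prime.

`W` an integral Weierstrass model, `E = (W.map (Int.castRingHom ℚ))⁄ℚ̄` (the curve of S15), `A` a
valuation subring of `ℚ̄`.  `WeierstrassCurve.InZeroComponentAt` is the Prelude predicate of S15.

* `inZero_iff_exists_red`: for a torsion point `T` killed by `n`, `v(n) = 1`:
  `T ∈ E₀ ↔ T` has a reduction in the sense of `ES/Q58/Red39` (`Red`).
* `node_of_not_inZero` **(MOD-LOC (i))**: a point `(x, y) ∉ E₀` has `x, y ∈ A`,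
  `v(2y + a₁x + a₃) < 1`, `v(6x² + b₂x + b₄) < 1` (both partials vanish at the node).
* `inZero_neg`, `inZero_add`, `inZero_nsmul`, `not_inZero_nsmul` **(MOD-LOC (i'))**: `E₀` is closed
  under the group law on the points killed by an odd `m` with `v(m) = 1`.
* `card_inZero_torsion_le`: multiplicative reduction (`ℓ ∣ Δ`, `ℓ ∤ c₄`): at most `m` points of
  `E₀` are killed by `m` (`NodalGm28.card_torsion_le`: the special fibre is `𝔾ₘ`).
* `mem_zmultiples_of_inZero`, `zmultiples_eq_of_inZero` **(MOD-c)**: the subgroup of order `p`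
  inside `E₀` is unique.
* `valuation_psi2_eq_one`: `T ∈ E₀`, `T ≠ 0` killed by an odd `m`: `v(2y + a₁x + a₃) = 1`.
-/
import Mathlib
import Fermat.Agent.MAZ.Local.ZeroComp28
import Fermat.Agent.MAZ.Local.NodalGm28

set_option autoImplicit false
set_option linter.unusedSectionVars false

open WeierstrassCurve WeierstrassCurve.Affine

namespace Fermat.Agent.MAZ.Local.ZeroTors28

open Fermat.Agent.ES.Q58.Red39 Fermat.Agent.ES.Q58.NodeCount15 Fermat.Agent.S05.Kernel
open Fermat.Agent.MAZ.Local.ZeroComp28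

local notation "Qbar" => AlgebraicClosure ℚ

/-! ### 1. Generalities on a model over a valuation subring -/

section General

variable {K : Type*} [Field K] [DecidableEq K] {A : ValuationSubring K}
  [DecidableEq (IsLocalRing.ResidueField A)] {WA : WeierstrassCurve A}
  {V : Affine K} {Vk : Affine (IsLocalRing.ResidueField A)}

/-- The coordinates of a torsion point of order prime to the residue characteristic are
integral. -/
theorem mem_of_nsmul_eq_zero (hM : IsModel A WA V Vk) {n : ℕ}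
    (hvn : A.valuation ((n : ℕ) : K) = 1) {x y : K} (h : V.Nonsingular x y)
    (hn : n • (Point.some x y h : V.Point) = 0) : x ∈ A ∧ y ∈ A := by
  obtain ⟨rfl, rfl⟩ := hM
  have hW := integralCoeffs_genFib (A := A) (WA := WA)
  have hx : A.valuation x ≤ 1 := x_integral_of_nsmul_eq_zero hW h hvn hn
  have hy : A.valuation y ≤ 1 := by
    by_contra hy
    exact absurd (vx_of_vy hW h.1 (not_le.mp hy)) (not_lt.mpr hx)
  exact ⟨(A.valuation_le_one_iff x).mp hx, (A.valuation_le_one_iff y).mp hy⟩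

/-- An integral `x` forces an integral `y`. -/
theorem mem_of_mem (hM : IsModel A WA V Vk) {x y : K} (h : V.Equation x y)
    (hx : x ∈ A) : y ∈ A := by
  obtain ⟨rfl, rfl⟩ := hM
  have hW := integralCoeffs_genFib (A := A) (WA := WA)
  have hx' : A.valuation x ≤ 1 := (A.valuation_le_one_iff x).mpr hx
  have hy : A.valuation y ≤ 1 := by
    by_contra hy
    exact absurd (vx_of_vy hW h (not_le.mp hy)) (not_lt.mpr hx')
  exact (A.valuation_le_one_iff y).mp hy

/-- The reduction of an integral point of the generic fibre lies on the special fibre. -/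
theorem equation_residue (hM : IsModel A WA V Vk) {a b : A}
    (h : V.Equation (a : K) (b : K)) :
    Vk.Equation (IsLocalRing.residue A a) (IsLocalRing.residue A b) := by
  obtain ⟨rfl, rfl⟩ := hM
  have hinj : Function.Injective A.subtype := Subtype.val_injective
  have heqA : WA.toAffine.Equation a b :=
    (Affine.map_equation (W := WA.toAffine) hinj a b).mp h
  exact Affine.Equation.map (IsLocalRing.residue A) heqA

/-- **Both partial derivatives vanish at a point reducing to the singular point.** -/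
theorem valuation_lt_one_of_not_nonsingular (hM : IsModel A WA V Vk) {a b : A}
    (h : V.Equation (a : K) (b : K))
    (hns : ¬ Vk.Nonsingular (IsLocalRing.residue A a) (IsLocalRing.residue A b)) :
    A.valuation (2 * (b : K) + V.a₁ * (a : K) + V.a₃) < 1 ∧
      A.valuation (6 * (a : K) ^ 2 + V.b₂ * (a : K) + V.b₄) < 1 := by
  have heqk := equation_residue hM h
  obtain ⟨rfl, rfl⟩ := hM
  rw [Affine.nonsingular_iff] at hns
  push Not at hns
  obtain ⟨h1, h2⟩ := hns heqk
  simp only [WeierstrassCurve.map_a₁, WeierstrassCurve.map_a₂, WeierstrassCurve.map_a₃,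
    WeierstrassCurve.map_a₄] at h1 h2
  have hY : IsLocalRing.residue A (2 * b + WA.a₁ * a + WA.a₃) = 0 := by
    simp only [map_add, map_mul, map_ofNat]
    linear_combination h2
  have hX : IsLocalRing.residue A (6 * a ^ 2 + WA.b₂ * a + WA.b₄) = 0 := by
    simp only [WeierstrassCurve.b₂, WeierstrassCurve.b₄, map_add, map_mul, map_pow, map_ofNat]
    linear_combination (-2 : IsLocalRing.ResidueField A) * h1 +
      (IsLocalRing.residue A WA.a₁) * h2
  rw [IsLocalRing.residue_eq_zero_iff, A.valuation_lt_one_iff] at hY hX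
  constructor
  · have e : ((2 * b + WA.a₁ * a + WA.a₃ : A) : K)
        = 2 * (b : K) + (genFib A WA).a₁ * (a : K) + (genFib A WA).a₃ := by
      rw [WeierstrassCurve.map_a₁, WeierstrassCurve.map_a₃]
      show A.subtype (2 * b + WA.a₁ * a + WA.a₃) = _
      simp only [map_add, map_mul, map_ofNat]
      rfl
    rw [← e]; exact hY
  · have e : ((6 * a ^ 2 + WA.b₂ * a + WA.b₄ : A) : K)
        = 6 * (a : K) ^ 2 + (genFib A WA).b₂ * (a : K) + (genFib A WA).b₄ := by
      rw [WeierstrassCurve.map_b₂, WeierstrassCurve.map_b₄]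
      show A.subtype (6 * a ^ 2 + WA.b₂ * a + WA.b₄) = _
      simp only [map_add, map_mul, map_pow, map_ofNat]
      rfl
    rw [← e]; exact hX

/-- A nonzero point killed by an odd `m` whose reduction is nonsingular has
`v(2y + a₁x + a₃) = 1`. -/
theorem valuation_polyY_eq_one (hM : IsModel A WA V Vk) {a b : A}
    (h : V.Nonsingular (a : K) (b : K))
    (h' : Vk.Nonsingular (IsLocalRing.residue A a) (IsLocalRing.residue A b))
    {m : ℕ} (hm : Odd m) (hP : m • (Point.some _ _ h : V.Point) = 0) :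
    A.valuation (2 * (b : K) + V.a₁ * (a : K) + V.a₃) = 1 := by
  have hR : m • (Point.some _ _ h' : Vk.Point) = 0 := hM.nsmul_eq_zero (red_some h h') hm hP
  obtain ⟨rfl, rfl⟩ := hM
  have hu0 := residue_polyY_ne_zero hm hR
  have := valuation_eq_one_of_residue_ne_zero hu0
  have e : ((2 * b + WA.a₁ * a + WA.a₃ : A) : K)
      = 2 * (b : K) + (genFib A WA).a₁ * (a : K) + (genFib A WA).a₃ := by
    rw [WeierstrassCurve.map_a₁, WeierstrassCurve.map_a₃]
    show A.subtype (2 * b + WA.a₁ * a + WA.a₃) = _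
    simp only [map_add, map_mul, map_ofNat]
    rfl
  rw [← e]; exact this

end General

/-! ### 2. The curve of S15: reductions and the zero component -/

/-- The curve of S15 over `ℚ̄`. -/
noncomputable abbrev Eg (W : WeierstrassCurve ℤ) : Affine Qbar := (W.map (Int.castRingHom ℚ))⁄Qbar

/-- The special fibre at `A` used by `InZeroComponentAt`. -/
noncomputable abbrev Ek (W : WeierstrassCurve ℤ) (A : ValuationSubring Qbar) :
    Affine (IsLocalRing.ResidueField A) :=
  (W.map (Int.castRingHom (IsLocalRing.ResidueField A))).toAffine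

section Reduction

variable (W : WeierstrassCurve ℤ) (A : ValuationSubring Qbar)
  [DecidableEq (IsLocalRing.ResidueField A)]

theorem isModel : IsModel A (W.map (Int.castRingHom A)) (Eg W) (Ek W A) :=
  ⟨gen_eq W A, sp_eq' W A⟩

variable {W A}

/-- A point with a reduction lies in the zero component. -/
theorem inZero_of_red {T : (Eg W).Point} {R : (Ek W A).Point}
    (h : Red A (Eg W) (Ek W A) T R) : W.InZeroComponentAt A T := by
  rcases h with ⟨hT, -⟩ | ⟨a, b, h, h', hT, -⟩
  · exact Or.inl hT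
  · exact Or.inr ⟨a, b, h, hT, Or.inr ⟨a.2, b.2, h'⟩⟩

/-- A torsion point (of order prime to the residue characteristic) of the zero component has a
reduction. -/
theorem exists_red_of_inZero {n : ℕ} (hvn : A.valuation ((n : ℕ) : Qbar) = 1)
    {T : (Eg W).Point} (hT : n • T = 0) (h0 : W.InZeroComponentAt A T) :
    ∃ R : (Ek W A).Point, Red A (Eg W) (Ek W A) T R := by
  rcases h0 with h0 | ⟨x, y, h, hTe, hxy⟩
  · exact ⟨0, Or.inl ⟨h0, rfl⟩⟩
  subst hTe
  obtain ⟨hx, hy⟩ := mem_of_nsmul_eq_zero (isModel W A) hvn h hT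
  rcases hxy with hxA | ⟨hxA, hyA, hns⟩
  · exact absurd hx hxA
  · exact ⟨Point.some _ _ hns, red_some (a := ⟨x, hxA⟩) (b := ⟨y, hyA⟩) h hns⟩

theorem inZero_iff_exists_red {n : ℕ} (hvn : A.valuation ((n : ℕ) : Qbar) = 1)
    {T : (Eg W).Point} (hT : n • T = 0) :
    W.InZeroComponentAt A T ↔ ∃ R : (Ek W A).Point, Red A (Eg W) (Ek W A) T R :=
  ⟨exists_red_of_inZero hvn hT, fun ⟨_, h⟩ => inZero_of_red h⟩

end Reduction

/-! ### 3. (MOD-LOC (i)): points outside the zero component reduce to the node -/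

section Node

variable {W : WeierstrassCurve ℤ} {A : ValuationSubring Qbar}

/-- **(MOD-LOC (i))** A point outside the zero component has integral coordinates, and both
partial derivatives of the Weierstrass equation are non-units at it. -/
theorem node_of_not_inZero {x y : Qbar}
    (h : ((W.map (Int.castRingHom ℚ))⁄Qbar).toAffine.Nonsingular x y)
    (hT : ¬ W.InZeroComponentAt A (Point.some x y h)) :
    x ∈ A ∧ y ∈ A ∧
      A.valuation (2 * y + ((W.map (Int.castRingHom ℚ))⁄Qbar).a₁ * x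
        + ((W.map (Int.castRingHom ℚ))⁄Qbar).a₃) < 1 ∧
      A.valuation (6 * x ^ 2 + ((W.map (Int.castRingHom ℚ))⁄Qbar).b₂ * x
        + ((W.map (Int.castRingHom ℚ))⁄Qbar).b₄) < 1 := by
  classical
  have hx : x ∈ A := by
    by_contra hx
    exact hT (Or.inr ⟨x, y, h, rfl, Or.inl hx⟩)
  have hy : y ∈ A := mem_of_mem (isModel W A) h.1 hx
  have hns : ¬ (Ek W A).Nonsingular (IsLocalRing.residue A ⟨x, hx⟩)
      (IsLocalRing.residue A ⟨y, hy⟩) := fun hns =>
    hT (Or.inr ⟨x, y, h, rfl, Or.inr ⟨hx, hy, hns⟩⟩)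
  have := valuation_lt_one_of_not_nonsingular (isModel W A) (a := ⟨x, hx⟩) (b := ⟨y, hy⟩) h.1 hns
  exact ⟨hx, hy, this.1, this.2⟩

end Node

/-! ### 4. (MOD-LOC (i')): the zero component is closed under the group law on torsion -/

section Closure

variable {W : WeierstrassCurve ℤ} {A : ValuationSubring Qbar}

theorem inZero_zero : W.InZeroComponentAt A (0 : ((W.map (Int.castRingHom ℚ))⁄Qbar).Point) :=
  Or.inl rfl

/-- The zero component is closed under negation (no torsion hypothesis). -/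
theorem inZero_neg {T : ((W.map (Int.castRingHom ℚ))⁄Qbar).Point}
    (h0 : W.InZeroComponentAt A T) : W.InZeroComponentAt A (-T) := by
  classical
  rcases h0 with h0 | ⟨x, y, h, hTe, hxy⟩
  · subst h0
    exact Or.inl neg_zero
  subst hTe
  rcases hxy with hxA | ⟨hxA, hyA, hns⟩
  · exact Or.inr ⟨x, _, _, Point.neg_some h, Or.inl hxA⟩
  · exact inZero_of_red
      ((isModel W A).red_neg (red_some (a := ⟨x, hxA⟩) (b := ⟨y, hyA⟩) h hns))

theorem inZero_neg_iff {T : ((W.map (Int.castRingHom ℚ))⁄Qbar).Point} :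
    W.InZeroComponentAt A (-T) ↔ W.InZeroComponentAt A T :=
  ⟨fun h => by simpa using inZero_neg h, inZero_neg⟩

variable {m : ℕ}

/-- The zero component is closed under addition on the points killed by an odd `m`, `v(m) = 1`. -/
theorem inZero_add (hm : Odd m) (hvm : A.valuation ((m : ℕ) : Qbar) = 1)
    {T₁ T₂ : ((W.map (Int.castRingHom ℚ))⁄Qbar).Point} (hT₁ : m • T₁ = 0) (hT₂ : m • T₂ = 0)
    (h₁ : W.InZeroComponentAt A T₁) (h₂ : W.InZeroComponentAt A T₂) :
    W.InZeroComponentAt A (T₁ + T₂) := by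
  classical
  obtain ⟨R₁, hR₁⟩ := exists_red_of_inZero hvm hT₁ h₁
  obtain ⟨R₂, hR₂⟩ := exists_red_of_inZero hvm hT₂ h₂
  exact inZero_of_red ((isModel W A).red_add hR₁ hR₂ hm hvm hT₁ hT₂)

theorem inZero_nsmul (hm : Odd m) (hvm : A.valuation ((m : ℕ) : Qbar) = 1)
    {T : ((W.map (Int.castRingHom ℚ))⁄Qbar).Point} (hT : m • T = 0)
    (h0 : W.InZeroComponentAt A T) (k : ℕ) : W.InZeroComponentAt A (k • T) := by
  classical
  obtain ⟨R, hR⟩ := exists_red_of_inZero hvm hT h0
  exact inZero_of_red ((isModel W A).red_nsmul hR hm hvm hT k)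

theorem inZero_zsmul (hm : Odd m) (hvm : A.valuation ((m : ℕ) : Qbar) = 1)
    {T : ((W.map (Int.castRingHom ℚ))⁄Qbar).Point} (hT : m • T = 0)
    (h0 : W.InZeroComponentAt A T) (k : ℤ) : W.InZeroComponentAt A (k • T) := by
  classical
  obtain ⟨R, hR⟩ := exists_red_of_inZero hvm hT h0
  exact inZero_of_red ((isModel W A).red_zsmul hR hm hvm hT k)

/-- A point of odd prime order `p` outside the zero component: none of its nonzero multiples
lies in the zero component. -/
theorem not_inZero_nsmul {p : ℕ} (hp : p.Prime) (hp2 : p ≠ 2)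
    (hvp : A.valuation ((p : ℕ) : Qbar) = 1)
    {Q : ((W.map (Int.castRingHom ℚ))⁄Qbar).Point} (hQ : p • Q = 0)
    (h0 : ¬ W.InZeroComponentAt A Q) {k : ℕ} (hk : ¬ p ∣ k) :
    ¬ W.InZeroComponentAt A (k • Q) := by
  intro hk0
  have hodd : Odd p := hp.odd_of_ne_two hp2
  have hcop : Nat.Coprime k p := (Nat.Coprime.symm ((Nat.Prime.coprime_iff_not_dvd hp).mpr hk))
  obtain ⟨j, -, hj⟩ := Nat.exists_mul_mod_eq_one_of_coprime hcop hp.one_lt
  have hkQ : p • (k • Q) = 0 := by rw [smul_comm, hQ, nsmul_zero]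
  have h1 := inZero_nsmul hodd hvp hkQ hk0 j
  have e : j • (k • Q) = Q := by
    rw [← mul_smul, mul_comm, ← Nat.div_add_mod (k * j) p, hj, add_smul, mul_comm p, mul_smul, hQ,
      nsmul_zero, zero_add, one_smul]
  rw [e] at h1
  exact h0 h1

end Closure

/-! ### 5. Multiplicative reduction: the special fibre is a split nodal cubic -/

section Special

open Polynomial in
/-- The two tangent slopes at the node exist over an algebraically closed field. -/
theorem exists_slopes' {F : Type*} [Field F] [IsAlgClosed F] (W : WeierstrassCurve F) :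
    ∃ α β : F, α + β = -W.a₁ ∧ α * β = -a₂' W := by
  set a := W.a₁ with ha
  set b := a₂' W with hb
  have hdeg : (X ^ 2 + C a * X - C b : F[X]).degree ≠ 0 := by
    have : (X ^ 2 + C a * X - C b : F[X]).degree = 2 := by
      rw [sub_eq_add_neg, ← C_neg, add_assoc]
      compute_degree!
    rw [this]
    norm_num
  obtain ⟨α, hα⟩ := IsAlgClosed.exists_root _ hdeg
  have hα' : α ^ 2 + a * α - b = 0 := by
    simpa [IsRoot.def] using hα
  exact ⟨α, -a - α, by ring, by linear_combination -hα'⟩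

variable {W : WeierstrassCurve ℤ} {A : ValuationSubring Qbar} {ℓ : ℕ}

theorem Ek_Δ_eq_zero (hℓ : ℓ.Prime) (hA : A.LiesOverPrime ℓ) (hℓΔ : (ℓ : ℤ) ∣ W.Δ) :
    (Ek W A).Δ = 0 := by
  have hchar : CharP (IsLocalRing.ResidueField A) ℓ :=
    Fermat.Agent.ES.EC.LiftTorsion29.charP_residueField A hℓ hA
  show (W.map (Int.castRingHom (IsLocalRing.ResidueField A))).Δ = 0
  rw [map_Δ, eq_intCast]
  exact (CharP.intCast_eq_zero_iff (IsLocalRing.ResidueField A) ℓ W.Δ).mpr hℓΔ

theorem Ek_c₄_ne_zero (hℓ : ℓ.Prime) (hA : A.LiesOverPrime ℓ) (hℓc₄ : ¬ (ℓ : ℤ) ∣ W.c₄) :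
    (Ek W A).c₄ ≠ 0 := by
  have hchar : CharP (IsLocalRing.ResidueField A) ℓ :=
    Fermat.Agent.ES.EC.LiftTorsion29.charP_residueField A hℓ hA
  show (W.map (Int.castRingHom (IsLocalRing.ResidueField A))).c₄ ≠ 0
  rw [map_c₄, eq_intCast]
  exact fun h => hℓc₄ ((CharP.intCast_eq_zero_iff (IsLocalRing.ResidueField A) ℓ W.c₄).mp h)

/-- **At most `m` points of the zero component are killed by `m`** (multiplicative reduction,
`m` odd and prime to the residue characteristic). -/
theorem card_inZero_torsion_le (hℓ : ℓ.Prime) (hA : A.LiesOverPrime ℓ) (hℓΔ : (ℓ : ℤ) ∣ W.Δ)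
    (hℓc₄ : ¬ (ℓ : ℤ) ∣ W.c₄) {m : ℕ} (hm : Odd m) (hvm : A.valuation ((m : ℕ) : Qbar) = 1)
    (S : Finset ((W.map (Int.castRingHom ℚ))⁄Qbar).Point)
    (hS : ∀ T ∈ S, m • T = 0 ∧ W.InZeroComponentAt A T) : S.card ≤ m := by
  classical
  have : IsAlgClosed (IsLocalRing.ResidueField A) :=
    Fermat.Agent.ES.Q58.InertiaMult88.isAlgClosed_residue A
  have hΔκ := Ek_Δ_eq_zero hℓ hA hℓΔ
  have hcκ := Ek_c₄_ne_zero hℓ hA hℓc₄
  obtain ⟨α, β, hsum, hprod⟩ := exists_slopes' (Ek W A)
  have hM := isModel W A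
  have hmpos : 0 < m := hm.pos
  -- choose reductions
  have hex : ∀ T : (Eg W).Point, ∃ R : (Ek W A).Point,
      (m • T = 0 ∧ W.InZeroComponentAt A T) → Red A (Eg W) (Ek W A) T R := by
    intro T
    by_cases hT : m • T = 0 ∧ W.InZeroComponentAt A T
    · obtain ⟨R, hR⟩ := exists_red_of_inZero hvm hT.1 hT.2
      exact ⟨R, fun _ => hR⟩
    · exact ⟨0, fun h => absurd h hT⟩
  choose f hf using hex
  have hinj : Set.InjOn f S := by
    intro T hT T' hT' hff
    have h1 := hf T (hS T hT)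
    have h2 := hf T' (hS T' hT')
    rw [← hff] at h2
    exact hM.eq_of_red_eq h1 h2 hm hvm (hS T hT).1 (hS T' hT').1
  have hcard : (S.image f).card = S.card := Finset.card_image_of_injOn hinj
  rw [← hcard]
  refine Fermat.Agent.MAZ.Local.NodalGm28.card_torsion_le hΔκ hcκ hsum hprod hmpos (S.image f) ?_
  intro R hR
  obtain ⟨T, hT, rfl⟩ := Finset.mem_image.mp hR
  exact hM.nsmul_eq_zero (hf T (hS T hT)) hm (hS T hT).1

end Special

/-! ### 6. (MOD-c): uniqueness of the subgroup of order `p` inside the zero component -/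

section ModC

variable {W : WeierstrassCurve ℤ} {A : ValuationSubring Qbar} {p ℓ : ℕ}

/-- `v(p) = 1` at a place over `ℓ ≠ p`. -/
theorem valuation_prime_eq_one (hp : p.Prime) (hℓ : ℓ.Prime) (hℓp : ℓ ≠ p)
    (hA : A.LiesOverPrime ℓ) : A.valuation ((p : ℕ) : Qbar) = 1 :=
  Fermat.Agent.S05.Inertia.valuation_natCast_eq_one hℓ hA
    (fun h => hℓp ((Nat.prime_dvd_prime_iff_eq hℓ hp).mp h))

/-- **(MOD-c)** At a prime `ℓ ≠ p` of multiplicative reduction, every point of the zero component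
killed by `p` is a multiple of a given point `Q` of order `p` of the zero component. -/
theorem mem_zmultiples_of_inZero (hp : p.Prime) (hp2 : p ≠ 2) (hℓ : ℓ.Prime) (hℓp : ℓ ≠ p)
    (hA : A.LiesOverPrime ℓ) (hℓΔ : (ℓ : ℤ) ∣ W.Δ) (hℓc₄ : ¬ (ℓ : ℤ) ∣ W.c₄)
    {Q T : ((W.map (Int.castRingHom ℚ))⁄Qbar).Point} (hQ : addOrderOf Q = p)
    (hQ0 : W.InZeroComponentAt A Q) (hT : p • T = 0) (hT0 : W.InZeroComponentAt A T) :
    T ∈ AddSubgroup.zmultiples Q := by
  classical
  have hodd : Odd p := hp.odd_of_ne_two hp2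
  have hvp := valuation_prime_eq_one hp hℓ hℓp hA
  have hpQ : p • Q = 0 := by rw [← hQ]; exact addOrderOf_nsmul_eq_zero Q
  set S₀ : Finset ((W.map (Int.castRingHom ℚ))⁄Qbar).Point :=
    (Finset.range p).image (fun k : ℕ => k • Q) with hS₀
  have hinj : Set.InjOn (fun k : ℕ => k • Q) (Finset.range p : Set ℕ) := by
    have := nsmul_injOn_Iio_addOrderOf (x := Q)
    rw [hQ] at this
    intro a ha b hb hab
    exact this (by simpa using ha) (by simpa using hb) hab
  have hcard₀ : S₀.card = p := by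
    rw [hS₀, Finset.card_image_of_injOn hinj, Finset.card_range]
  by_contra hTn
  have hTS : T ∉ S₀ := by
    intro h
    obtain ⟨k, -, rfl⟩ := Finset.mem_image.mp h
    exact hTn (AddSubgroup.nsmul_mem_zmultiples Q k)
  have hle := card_inZero_torsion_le hℓ hA hℓΔ hℓc₄ hodd hvp (insert T S₀) (by
    intro T' hT'
    rcases Finset.mem_insert.mp hT' with rfl | h
    · exact ⟨hT, hT0⟩
    · obtain ⟨k, -, rfl⟩ := Finset.mem_image.mp h
      exact ⟨by rw [smul_comm, hpQ, nsmul_zero], inZero_nsmul hodd hvp hpQ hQ0 k⟩)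
  rw [Finset.card_insert_of_notMem hTS, hcard₀] at hle
  omega

/-- **(MOD-c)** Two points of order `p` of the zero component at a prime `ℓ ≠ p` of multiplicative
reduction generate the same subgroup. -/
theorem zmultiples_eq_of_inZero (hp : p.Prime) (hp2 : p ≠ 2) (hℓ : ℓ.Prime) (hℓp : ℓ ≠ p)
    (hA : A.LiesOverPrime ℓ) (hℓΔ : (ℓ : ℤ) ∣ W.Δ) (hℓc₄ : ¬ (ℓ : ℤ) ∣ W.c₄)
    {Q Q' : ((W.map (Int.castRingHom ℚ))⁄Qbar).Point} (hQ : addOrderOf Q = p)
    (hQ' : addOrderOf Q' = p) (hQ0 : W.InZeroComponentAt A Q)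
    (hQ'0 : W.InZeroComponentAt A Q') :
    AddSubgroup.zmultiples Q = AddSubgroup.zmultiples Q' := by
  have hpQ : p • Q = 0 := by rw [← hQ]; exact addOrderOf_nsmul_eq_zero Q
  have hpQ' : p • Q' = 0 := by rw [← hQ']; exact addOrderOf_nsmul_eq_zero Q'
  apply le_antisymm
  · rw [AddSubgroup.zmultiples_le]
    exact mem_zmultiples_of_inZero hp hp2 hℓ hℓp hA hℓΔ hℓc₄ hQ' hQ'0 hpQ hQ0
  · rw [AddSubgroup.zmultiples_le]
    exact mem_zmultiples_of_inZero hp hp2 hℓ hℓp hA hℓΔ hℓc₄ hQ hQ0 hpQ' hQ'0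

/-- A nonzero point of the zero component killed by an odd `m` prime to the residue
characteristic is not congruent to a `2`-torsion point: `v(2y + a₁x + a₃) = 1`. -/
theorem valuation_psi2_eq_one {m : ℕ} (hm : Odd m) (hvm : A.valuation ((m : ℕ) : Qbar) = 1)
    {x y : Qbar} (h : ((W.map (Int.castRingHom ℚ))⁄Qbar).toAffine.Nonsingular x y)
    (hT : m • (Point.some x y h : ((W.map (Int.castRingHom ℚ))⁄Qbar).Point) = 0)
    (h0 : W.InZeroComponentAt A (Point.some x y h)) :
    A.valuation (2 * y + ((W.map (Int.castRingHom ℚ))⁄Qbar).a₁ * x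
      + ((W.map (Int.castRingHom ℚ))⁄Qbar).a₃) = 1 := by
  classical
  obtain ⟨hx, hy⟩ := mem_of_nsmul_eq_zero (isModel W A) hvm h hT
  rcases h0 with h0 | ⟨x', y', h', hTe, hxy⟩
  · exact absurd h0 (Point.some_ne_zero h)
  rw [Point.some.injEq] at hTe
  obtain ⟨rfl, rfl⟩ := hTe
  rcases hxy with hxA | ⟨hxA, hyA, hns⟩
  · exact absurd hx hxA
  · exact valuation_polyY_eq_one (isModel W A) (a := ⟨x, hxA⟩) (b := ⟨y, hyA⟩) h hns hm hT

end ModC

end Fermat.Agent.MAZ.Local.ZeroTors28
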