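/-
Program MAZ (S15), helper28: the contracts `ModLocNode` and (torsion form of) `ZeroCompNsmul` of
`MAZ/Point/ModAsm62` in their literal shapes, and the assembly `xMod_of_contracts'` of `XMod` in which
these two contracts are discharged.

* `modLocNode : ModAsm62.ModLocNode` (unconditional; `ZeroTors28.node_of_not_inZero`).
* `ZeroCompNsmulTors p` : the zero component at a place over `q ≠ p` is stable under `n • ·` on the
  points killed by `p`; `zeroCompNsmulTors (hp : p.Prime) (hp2 : p ≠ 2) : ZeroCompNsmulTors p`.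
  (The unconditional `ModAsm62.ZeroCompNsmul` would need the full subgroup property of `E₀`, kernel
  of reduction included; the assembly only uses it for multiples of the point `Q` of order `p`.)
* `xMod_of_contracts_tors` : `ModAsm62.xMod_of_contracts` with `ZeroCompNsmulTors p` in place of
  `ZeroCompNsmul` (same proof, one line changed).
* `xMod_of_contracts'` : `XMod p cZ` from `ModGlobal p`, `ModLocUnit p`, `NPDich p`, `PPFixed p` only.
-/
import Mathlib
import Fermat.Agent.MAZ.Point.ModAsm62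
import Fermat.Agent.MAZ.Local.ZeroTors28

set_option autoImplicit false
set_option linter.unusedSectionVars false

open AlgebraicCurve ModularCurve
open WeierstrassCurve WeierstrassCurve.Affine

namespace Fermat.Agent.MAZ.Local.ModLocNode28

open Fermat.Agent.X0 Fermat.Agent.MAZ.Spec.XSpec62 Fermat.Agent.MAZ.Point.ModAsm62
open Fermat.Agent.MAZ.Local.ZeroTors28

/-- **(MOD-LOC, node)**, literal contract of `ModAsm62`. -/
theorem modLocNode : ModLocNode := by
  intro W A P hP
  rcases P with _ | ⟨x, y, h⟩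
  · exact absurd (Or.inl rfl) hP
  · obtain ⟨-, -, h1, h2⟩ := node_of_not_inZero h hP
    exact ⟨h1, h2⟩

/-- The zero component at a place over `q ≠ p` is stable under multiplication by integers on the
points killed by `p`. -/
def ZeroCompNsmulTors (p : ℕ) : Prop :=
  ∀ (W : WeierstrassCurve ℤ) (q : ℕ), q.Prime → q ≠ p →
    ∀ A : ValuationSubring Qb, A.LiesOverPrime q →
    ∀ (P : ((W.map (Int.castRingHom ℚ))⁄Qb).Point) (n : ℕ), p • P = 0 →
      W.InZeroComponentAt A P → W.InZeroComponentAt A (n • P)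

theorem zeroCompNsmulTors {p : ℕ} (hp : p.Prime) (hp2 : p ≠ 2) : ZeroCompNsmulTors p := by
  intro W q hq hqp A hA P n hP h0
  exact inZero_nsmul (hp.odd_of_ne_two hp2) (valuation_prime_eq_one hp hq hqp hA) hP h0 n

section Assembly

variable {p : ℕ} [NeZero p]

/-- `ModAsm62.xMod_of_contracts` with the torsion form of `ZeroCompNsmul`. -/
theorem xMod_of_contracts_tors (hp : p.Prime) (cZ : Place Qb (FF p))
    (hex : ∀ q : ℕ, q.Prime → ∃ A : ValuationSubring Qb, A.LiesOverPrime q)
    (hG : ModGlobal p) (hNode : ModLocNode) (hNsmul : ZeroCompNsmulTors p)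
    (hUnit : ModLocUnit p) (hNP : NPDich p) (hPP : PPFixed p) : XMod p cZ := by
  intro W hΔ Q hQfix hQord hmult
  -- the coefficients
  have hc4 : ((W.map (Int.castRingHom ℚ))⁄Qb).c₄ = ((W.c₄ : ℤ) : Qb) := by
    rw [show ((W.map (Int.castRingHom ℚ))⁄Qb).c₄ =
      algebraMap ℚ Qb (W.map (Int.castRingHom ℚ)).c₄ from WeierstrassCurve.map_c₄ _ _,
      WeierstrassCurve.map_c₄]
    simp
  have hΔE : ((W.map (Int.castRingHom ℚ))⁄Qb).Δ = ((W.Δ : ℤ) : Qb) := by
    rw [show ((W.map (Int.castRingHom ℚ))⁄Qb).Δ =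
      algebraMap ℚ Qb (W.map (Int.castRingHom ℚ)).Δ from WeierstrassCurve.map_Δ _ _,
      WeierstrassCurve.map_Δ]
    simp
  have hΔ0 : ((W.map (Int.castRingHom ℚ))⁄Qb).Δ ≠ 0 := by
    rw [hΔE]
    exact_mod_cast hΔ
  have hp0 : p • Q = 0 := by rw [← hQord]; exact addOrderOf_nsmul_eq_zero Q
  -- the place
  obtain ⟨x, hxa, hxb⟩ := hG ((W.map (Int.castRingHom ℚ))⁄Qb) hΔ0 Q hQord
  -- valuations at a multiplicative prime
  have key : ∀ q : ℕ, q.Prime → (q : ℤ) ∣ W.Δ → ¬ (q : ℤ) ∣ W.c₄ →
      ∀ A : ValuationSubring Qb, A.LiesOverPrime q →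
        A.valuation ((W.map (Int.castRingHom ℚ))⁄Qb).c₄ = 1 ∧
          A.valuation ((W.map (Int.castRingHom ℚ))⁄Qb).Δ < 1 := by
    intro q hq hqΔ hqc A hA
    constructor
    · rw [hc4, Fermat.Agent.S13.GalRat.valuation_intCast_eq_pow A hq hA
        (fun h => hqc (by rw [h]; exact dvd_zero _))]
      have : padicValInt q W.c₄ = 0 := padicValInt.eq_zero_of_not_dvd hqc
      rw [this, pow_zero]
    · rw [hΔE]
      obtain ⟨d, hd⟩ := hqΔ
      rw [hd]
      push_cast
      rw [map_mul]
      have hq1 : A.valuation (q : Qb) < 1 := A.mem_nonunits_iff.mp hA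
      have hd1 : A.valuation (d : Qb) ≤ 1 :=
        (ValuationSubring.valuation_le_one_iff A _).mpr (intCast_mem _ d)
      calc A.valuation (q : Qb) * A.valuation (d : Qb) ≤ A.valuation (q : Qb) * 1 :=
            mul_le_mul_right hd1 _
        _ < 1 := by rw [mul_one]; exact hq1
  have haA : ∀ q : ℕ, q.Prime → (q : ℤ) ∣ W.Δ → ¬ (q : ℤ) ∣ W.c₄ →
      ∀ A : ValuationSubring Qb, A.LiesOverPrime q →
        ((W.map (Int.castRingHom ℚ))⁄Qb).c₄ ^ 3 / ((W.map (Int.castRingHom ℚ))⁄Qb).Δ ∉ A := by
    intro q hq hqΔ hqc A hA hmem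
    obtain ⟨h1, h2⟩ := key q hq hqΔ hqc A hA
    have := (ValuationSubring.valuation_le_one_iff A _).mpr hmem
    exact absurd this (not_le.mpr (one_lt_val_a A.valuation h1 h2 hΔ0))
  -- the Galois action
  have hxfix : PlaceFixed p x := by
    obtain ⟨q, hq, -, hqΔ, hqc⟩ := hmult
    obtain ⟨A, hA⟩ := hex q hq
    have h1 := haA q hq hqΔ hqc A hA
    obtain ⟨-, -, -, -, hc4r, hΔr⟩ := coeff_mem_ratField W
    obtain ⟨a', ha'⟩ := mem_ratField_iff.mp (div_mem (pow_mem hc4r 3) hΔr)
    obtain ⟨b', hb'⟩ := mem_ratField_iff.mp (velJ_mem_ratField hQfix p)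
    refine hPP x a' b' (by rw [ha']; exact hxa) (by rw [hb']; exact hxb) ⟨A, ?_⟩
    rw [ha']
    exact h1
  refine ⟨x, hxfix, ?_⟩
  intro q hq hqp hqΔ hqc A hA
  obtain ⟨hc1, hΔ1⟩ := key q hq hqΔ hqc A hA
  have haA' := haA q hq hqΔ hqc A hA
  constructor
  · -- the node case
    intro hQ0
    right
    refine ⟨_, _, hxa, hxb, haA', ?_⟩
    -- all multiples are outside the identity component
    have hk0 : ∀ k ∈ Finset.Ico 1 p, ¬ W.InZeroComponentAt A (k • Q) := by
      intro k hk hin
      rw [Finset.mem_Ico] at hk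
      have hcop : Nat.Coprime k p := by
        rw [Nat.coprime_comm]
        exact (Nat.Prime.coprime_iff_not_dvd hp).mpr
          (fun h => absurd (Nat.le_of_dvd (by omega) h) (by omega))
      obtain ⟨k', -, hk'⟩ := Nat.exists_mul_mod_eq_one_of_coprime hcop hp.one_lt
      have hpk : p • (k • Q) = 0 := by rw [smul_comm, hp0, nsmul_zero]
      have h1 := hNsmul W q hq hqp A hA (k • Q) k' hpk hin
      rw [smul_smul] at h1
      have h2 : (k' * k) • Q = Q := by
        have hkk : k' * k = 1 + (k * k' / p) * p := by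
          rw [mul_comm k' k, mul_comm (k * k' / p) p]
          conv_lhs => rw [← Nat.mod_add_div (k * k') p, hk']
        rw [hkk, add_smul, one_smul, mul_smul, hp0, nsmul_zero, add_zero]
      rw [h2] at h1
      exact hQ0 h1
    have hC4 : A.valuation (velC4 p Q) = 1 := by
      unfold velC4
      refine val_add_small A.valuation hc1 ?_ 120
        ((ValuationSubring.valuation_le_one_iff A _).mpr (by exact_mod_cast intCast_mem A 120))
      exact Valuation.map_sum_lt _ one_ne_zero fun k hk => (hNode W A (k • Q) (hk0 k hk)).2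
    have hPi : A.valuation (velPi p Q) < 1 := by
      unfold velPi
      exact val_prod_lt_one A.valuation _ _ (Finset.mem_Ico.mpr ⟨le_refl _, hp.one_lt⟩)
        fun k hk => (hNode W A (k • Q) (hk0 k hk)).1
    -- `|b| < |a|^p`
    have hlt := node_calc A.valuation hc1 hΔ0 hC4 hPi p
    rcases hNP x _ _ hxa hxb A haA' with h | h
    · exact absurd h hlt.ne
    · exact h
  · -- the unit case
    intro hQ0
    right
    refine ⟨_, _, hxa, hxb, haA', ?_⟩
    obtain ⟨hψ, hC4⟩ := hUnit W q hq hqp hqΔ hqc A hA Q hQord hQ0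
    have hPi : A.valuation (velPi p Q) = 1 := by
      unfold velPi
      rw [map_prod]
      exact Finset.prod_eq_one hψ
    exact unit_calc A.valuation hc1 hC4 hPi p

/-- **`XMod` from the four remaining contracts** (`ModLocNode` and the stability of the zero
component discharged). -/
theorem xMod_of_contracts' (hp : p.Prime) (hp2 : p ≠ 2) (cZ : Place Qb (FF p))
    (hex : ∀ q : ℕ, q.Prime → ∃ A : ValuationSubring Qb, A.LiesOverPrime q)
    (hG : ModGlobal p) (hUnit : ModLocUnit p) (hNP : NPDich p) (hPP : PPFixed p) : XMod p cZ :=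
  xMod_of_contracts_tors hp cZ hex hG modLocNode (zeroCompNsmulTors hp hp2) hUnit hNP hPP

end Assembly

end Fermat.Agent.MAZ.Local.ModLocNode28
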