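/-
Program MAZ (S15), chapter LOCAL, MOD-LOC (ii), residue-field part (helper2).

**Vélu's `c₄` on a nodal cubic.**  `E` a Weierstrass cubic over a field `F` with `Δ = 0`, `c₄ ≠ 0`
(any characteristic), `Q` a (nonsingular) point of odd order `p = 2m+1` with `p ≠ 0` in `F`.  Then

  `velC4 p Q = c₄ + 120 Σ_{k=1}^{p-1} t(k•Q) = p⁴ c₄`   and   `ψ₂(k•Q) ≠ 0` for `1 ≤ k < p`.

Proof: the `x(k•Q) - x₀` (`x₀` the node), `1 ≤ k ≤ m`, are `m` distinct roots of `Hh (b₂ + 12 x₀) m`
(`A1Final.nsmul_eq_zero_iff_preΨ'` + `NodalTrans2.preΨ'_nodal_at`), so `NodalSums2.velu_sum_finset`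
applies; the sum over `1 ≤ k < p` is twice the sum over the half system.
-/
import Mathlib
import Fermat.Agent.DivPoly.A1Final
import Fermat.Agent.ES.Q58.NodeCount15
import Fermat.Agent.MAZ.Point.ModAsm62
import Fermat.Agent.MAZ.Moduli.NodalSums2
import Fermat.Agent.MAZ.Moduli.NodalTrans2

set_option autoImplicit false

open Polynomial WeierstrassCurve WeierstrassCurve.Affine

namespace Fermat.Agent.MAZ.Local.NodalVelu2

open Fermat.Agent.MAZ.Moduli.NodalPsi2 Fermat.Agent.MAZ.Moduli.NodalSums2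
open Fermat.Agent.MAZ.Moduli.NodalTrans2 Fermat.Agent.ES.Q58.NodeCount15
open Fermat.Agent.MAZ.Point.ModAsm62 Fermat.Agent.DivPoly

section Pairing

/-- **Pairing `±P` in a cyclic group of odd order**, image form. -/
theorem sum_pairing_image {G K L : Type*} [AddGroup G] [DecidableEq K] [AddCommMonoid L]
    (Q : G) (m : ℕ) (hQ : addOrderOf Q = 2 * m + 1) (x : G → K)
    (hneg : ∀ P : G, x (-P) = x P)
    (hinj : ∀ P P' : G, P ≠ 0 → P' ≠ 0 → x P = x P' → P = P' ∨ P = -P') (F : K → L) :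
    ((Finset.Ico 1 (m + 1)).image (fun k => x (k • Q))).card = m ∧
    ∑ k ∈ Finset.Ico 1 (2 * m + 1), F (x (k • Q)) =
      2 • ∑ y ∈ (Finset.Ico 1 (m + 1)).image (fun k => x (k • Q)), F y := by
  have hpQ : (2 * m + 1) • Q = 0 := by rw [← hQ]; exact addOrderOf_nsmul_eq_zero Q
  have hne : ∀ i : ℕ, 0 < i → i < 2 * m + 1 → i • Q ≠ 0 := by
    intro i h0 h1 h
    have := addOrderOf_dvd_of_nsmul_eq_zero h
    rw [hQ] at this
    exact absurd (Nat.le_of_dvd h0 this) (by omega)
  have hinjOn : Set.InjOn (fun k : ℕ => x (k • Q)) (Finset.Ico 1 (m + 1) : Finset ℕ) := by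
    intro i hi j hj hij
    simp only [Finset.coe_Ico, Set.mem_Ico] at hi hj
    simp only at hij
    rcases hinj _ _ (hne i (by omega) (by omega)) (hne j (by omega) (by omega)) hij with h | h
    · exact nsmul_injOn_Iio_addOrderOf (x := Q) (by rw [hQ]; simp; omega)
        (by rw [hQ]; simp; omega) h
    · exfalso
      have h2 : (i + j) • Q = 0 := by rw [add_nsmul, h]; simp
      exact hne (i + j) (by omega) (by omega) h2
  refine ⟨by rw [Finset.card_image_of_injOn hinjOn]; simp, ?_⟩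
  have hsplit : ∑ k ∈ Finset.Ico 1 (2 * m + 1), F (x (k • Q)) =
      ∑ k ∈ Finset.Ico 1 (m + 1), F (x (k • Q)) +
        ∑ k ∈ Finset.Ico (m + 1) (2 * m + 1), F (x (k • Q)) :=
    (Finset.sum_Ico_consecutive _ (by omega) (by omega)).symm
  have hrefl : ∑ k ∈ Finset.Ico (m + 1) (2 * m + 1), F (x (k • Q)) =
      ∑ k ∈ Finset.Ico 1 (m + 1), F (x (k • Q)) := by
    have h1 := Finset.sum_Ico_reflect (fun j => F (x (j • Q))) 1 (m := m + 1) (n := 2 * m + 1)
      (by omega)
    have e1 : 2 * m + 1 + 1 - (m + 1) = m + 1 := by omega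
    have e2 : 2 * m + 1 + 1 - 1 = 2 * m + 1 := by omega
    rw [e1, e2] at h1
    rw [← h1]
    apply Finset.sum_congr rfl
    intro k hk
    rw [Finset.mem_Ico] at hk
    have : (2 * m + 1 - k) • Q = -(k • Q) := by
      rw [eq_neg_iff_add_eq_zero, ← add_nsmul]
      have : 2 * m + 1 - k + k = 2 * m + 1 := by omega
      rw [this, hpQ]
    rw [this, hneg]
  rw [hsplit, hrefl, Finset.sum_image hinjOn, two_nsmul]

end Pairing

section Nodal

variable {F : Type*} [Field F] [DecidableEq F] {E : WeierstrassCurve.Affine F}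

theorem xOf_neg (P : E.Point) : xOf (-P) = xOf P := by
  rcases P with _ | ⟨x, y, h⟩
  · rfl
  · rfl

theorem eq_or_eq_neg_of_xOf_eq (P P' : E.Point) (hP : P ≠ 0) (hP' : P' ≠ 0)
    (h : xOf P = xOf P') : P = P' ∨ P = -P' := by
  rcases P with _ | ⟨x, y, h1⟩
  · exact absurd rfl hP
  rcases P' with _ | ⟨x', y', h2⟩
  · exact absurd rfl hP'
  change x = x' at h
  subst h
  rcases Y_eq_of_X_eq h1.1 h2.1 rfl with hy | hy
  · left; subst hy; rfl
  · right
    rw [Point.neg_some, Point.some.injEq]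
    exact ⟨rfl, hy⟩

theorem tOf_eq_of_ne_zero (P : E.Point) (hP : P ≠ 0) :
    tOf P = 6 * xOf P ^ 2 + E.b₂ * xOf P + E.b₄ := by
  rcases P with _ | ⟨x, y, h⟩
  · exact absurd rfl hP
  · rfl

/-- `ψ₂` does not vanish at a nonzero point of odd order. -/
theorem psi2_ne_zero_of_odd_nsmul (P : E.Point) (hP : P ≠ 0) {n : ℕ} (hn : Odd n)
    (hnP : n • P = 0) : psi2 P ≠ 0 := by
  rcases P with _ | ⟨x, y, h⟩
  · exact absurd rfl hP
  · intro h0
    change 2 * y + E.a₁ * x + E.a₃ = 0 at h0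
    have hneg : y = E.negY x y := by
      simp only [Affine.negY]
      linear_combination h0
    have h2 : (2 : ℕ) • (Point.some x y h : E.Point) = 0 := by
      rw [two_nsmul]
      exact Point.add_of_Y_eq rfl hneg
    obtain ⟨j, hj⟩ := hn
    have e1 : n • (Point.some x y h : E.Point)
        = j • ((2 : ℕ) • (Point.some x y h : E.Point)) + Point.some x y h := by
      rw [hj, add_smul, mul_comm, mul_smul, one_smul]
    rw [hnP, h2, nsmul_zero, zero_add] at e1
    exact Point.some_ne_zero h e1.symm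

/-- **Vélu's `c₄` on a nodal cubic.** -/
theorem velC4_nodal (hΔ : E.Δ = 0) (hc : E.c₄ ≠ 0) (p m : ℕ) (hpm : p = 2 * m + 1)
    (hpF : (p : F) ≠ 0) (Q : E.Point) (hQ : addOrderOf Q = p) :
    velC4 p Q = (p : F) ^ 4 * E.c₄ ∧ ∀ k ∈ Finset.Ico 1 p, psi2 (k • Q) ≠ 0 := by
  subst hpm
  have hodd : Odd (2 * m + 1) := ⟨m, rfl⟩
  have hpQ : (2 * m + 1) • Q = 0 := by rw [← hQ]; exact addOrderOf_nsmul_eq_zero Q
  have hne : ∀ i : ℕ, 0 < i → i < 2 * m + 1 → i • Q ≠ 0 := by
    intro i h0 h1 h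
    have := addOrderOf_dvd_of_nsmul_eq_zero h
    rw [hQ] at this
    exact absurd (Nat.le_of_dvd h0 this) (by omega)
  have hkill : ∀ i : ℕ, (2 * m + 1) • (i • Q) = 0 := by
    intro i; rw [smul_comm, hpQ, nsmul_zero]
  refine ⟨?_, ?_⟩
  swap
  · intro k hk
    rw [Finset.mem_Ico] at hk
    exact psi2_ne_zero_of_odd_nsmul (k • Q) (hne k (by omega) hk.2) hodd (hkill k)
  -- the node
  set r : F := x₀ E with hr
  set t : F := y₀ E with ht
  have hy := node_fy (W := E) hc
  have hx := node_fx (W := E) hΔ hc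
  have hf := node_f (W := E) hΔ hc
  rw [← hr, ← ht] at hy hx hf
  set β : F := E.b₂ + 12 * r with hβ
  have e4 : E.b₄ + r * E.b₂ + 6 * r ^ 2 = 0 := by
    simp only [WeierstrassCurve.b₂, WeierstrassCurve.b₄]
    linear_combination (-2 : F) * hx + E.a₁ * hy
  have hc4β : E.c₄ = β ^ 2 := by
    rw [WeierstrassCurve.c₄, hβ]
    linear_combination (-24 : F) * e4
  have hnod := preΨ'_nodal_at E r t hy hx hf m
  rw [← hβ] at hnod
  -- roots
  have hroot : ∀ P : E.Point, P ≠ 0 → (2 * m + 1) • P = 0 → (Hh β m).eval (xOf P - r) = 0 := by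
    intro P hP hPp
    rcases P with _ | ⟨x, y, h⟩
    · exact absurd rfl hP
    · change (Hh β m).eval (x - r) = 0
      have h1 := (A1Final.nsmul_eq_zero_iff_preΨ' h hodd).mp hPp
      rw [hnod, eval_mul, eval_pow, eval_comp] at h1
      simp only [eval_sub, eval_X, eval_C] at h1
      have hxr : x - r ≠ 0 := by
        have h2 : E.Nonsingular (x₀ E + (x - r)) (y₀ E + (y - t)) := by
          rw [hr, ht]
          have e1 : x₀ E + (x - x₀ E) = x := by ring
          have e2 : y₀ E + (y - y₀ E) = y := by ring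
          rw [e1, e2]; exact h
        exact ((nonsingular_iff_node hΔ hc (x - r) (y - t)).mp h2).2
      rcases mul_eq_zero.mp h1 with h3 | h3
      · exact absurd (eq_zero_of_pow_eq_zero h3) hxr
      · exact h3
  -- pairing
  obtain ⟨hcard, hsum⟩ := sum_pairing_image Q m hQ (fun P : E.Point => xOf P) xOf_neg
    eq_or_eq_neg_of_xOf_eq (fun x => 6 * x ^ 2 + E.b₂ * x + E.b₄)
  set I := (Finset.Ico 1 (m + 1)).image (fun k => xOf (k • Q)) with hI
  -- the translated root set
  set S : Finset F := I.image (fun x => x - r) with hS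
  have hScard : S.card = m := by
    rw [hS, Finset.card_image_of_injective _ (sub_left_injective), hcard]
  have hSroot : ∀ s ∈ S, (Hh β m).eval s = 0 := by
    intro s hs
    rw [hS, Finset.mem_image] at hs
    obtain ⟨x, hxI, rfl⟩ := hs
    rw [hI, Finset.mem_image] at hxI
    obtain ⟨k, hk, rfl⟩ := hxI
    rw [Finset.mem_Ico] at hk
    exact hroot (k • Q) (hne k (by omega) (by omega)) (hkill k)
  have hp' : ((2 * m + 1 : ℕ) : F) ≠ 0 := hpF
  have hvelu := velu_sum_finset β m hp' S hScard hSroot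
  rw [hS, Finset.sum_image (fun a _ b _ h => sub_left_injective h)] at hvelu
  have hFeq : ∀ x : F, 6 * (x - r) ^ 2 + β * (x - r) = 6 * x ^ 2 + E.b₂ * x + E.b₄ := by
    intro x
    rw [hβ]
    linear_combination (-1 : F) * e4
  simp only [hFeq] at hvelu
  -- assemble
  have hsumt : ∑ k ∈ Finset.Ico 1 (2 * m + 1), tOf (k • Q) =
      2 • ∑ y ∈ I, (6 * y ^ 2 + E.b₂ * y + E.b₄) := by
    rw [← hsum]
    apply Finset.sum_congr rfl
    intro k hk
    rw [Finset.mem_Ico] at hk
    exact tOf_eq_of_ne_zero (k • Q) (hne k (by omega) hk.2)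
  unfold velC4
  rw [hsumt, hc4β, two_nsmul]
  linear_combination hvelu

end Nodal

end Fermat.Agent.MAZ.Local.NodalVelu2
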