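/-
Program MAZ (S15), chapter LOCAL, MOD-LOC (ii) (helper2): the contract `ModAsm62.ModLocUnit p`.

For a point `Q` of odd prime order `p` in the identity component at a multiplicative prime `q ≠ p`
(`q ∣ Δ`, `q ∤ c₄`, `A` a valuation subring of `ℚbar` over `q`), the `ψ₂(k•Q)`, `1 ≤ k < p`, and Vélu's
`c₄' = c₄ + 120 Σ t(k•Q)` are units of `A`.

Proof: `Q` reduces to a nonsingular point `Q̄` of order `p` of the nodal special fibre, `k•Q` reduces
to `k•Q̄` (`Red39a.IsModel.red_nsmul`), and on the nodal cubic `c₄' = p⁴ c₄`, `ψ₂(k•Q̄) ≠ 0`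
(`NodalVelu2.velC4_nodal`).
-/
import Mathlib
import Fermat.Agent.MAZ.Local.ZeroComp28
import Fermat.Agent.MAZ.Local.NodalVelu2

set_option autoImplicit false

open WeierstrassCurve WeierstrassCurve.Affine

namespace Fermat.Agent.MAZ.Local.ModLocUnit2

open Fermat.Agent.ES.Q58.Red39 Fermat.Agent.S05.Kernel Fermat.Agent.MAZ.Local.ZeroComp28
open Fermat.Agent.MAZ.Point.ModAsm62 Fermat.Agent.MAZ.Local.NodalVelu2

local notation "Qbar" => AlgebraicClosure ℚ

section Transfer

variable {K : Type*} [Field K] [DecidableEq K] {A : ValuationSubring K}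
  [DecidableEq (IsLocalRing.ResidueField A)] {WA : WeierstrassCurve A}

/-- `ψ₂` and `t` of a point with a reduction are integral and reduce to `ψ₂`, `t` of the reduction. -/
theorem Red.psi2_tOf {P : (genFib A WA).Point} {R : (spFib A WA).Point}
    (h : Red A (genFib A WA) (spFib A WA) P R) :
    (∃ u : A, (u : K) = psi2 P ∧ IsLocalRing.residue A u = psi2 R) ∧
    (∃ u : A, (u : K) = tOf P ∧ IsLocalRing.residue A u = tOf R) := by
  rcases h with ⟨hP, hR⟩ | ⟨a, b, h1, h1', hP, hR⟩
  · subst hP; subst hR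
    exact ⟨⟨0, rfl, by rw [map_zero]; rfl⟩, ⟨0, rfl, by rw [map_zero]; rfl⟩⟩
  · subst hP; subst hR
    refine ⟨⟨2 * b + WA.a₁ * a + WA.a₃, ?_, ?_⟩, ⟨6 * a ^ 2 + WA.b₂ * a + WA.b₄, ?_, ?_⟩⟩
    · change A.subtype (2 * b + WA.a₁ * a + WA.a₃) =
        2 * (b : K) + (genFib A WA).a₁ * (a : K) + (genFib A WA).a₃
      rw [WeierstrassCurve.map_a₁, WeierstrassCurve.map_a₃]
      simp only [map_add, map_mul, map_ofNat]
      rfl
    · change IsLocalRing.residue A (2 * b + WA.a₁ * a + WA.a₃) =
        2 * IsLocalRing.residue A b + (spFib A WA).a₁ * IsLocalRing.residue A a + (spFib A WA).a₃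
      rw [WeierstrassCurve.map_a₁, WeierstrassCurve.map_a₃]
      simp only [map_add, map_mul, map_ofNat]
    · change A.subtype (6 * a ^ 2 + WA.b₂ * a + WA.b₄) =
        6 * (a : K) ^ 2 + (genFib A WA).b₂ * (a : K) + (genFib A WA).b₄
      rw [WeierstrassCurve.map_b₂, WeierstrassCurve.map_b₄]
      simp only [map_add, map_mul, map_pow, map_ofNat]
      rfl
    · change IsLocalRing.residue A (6 * a ^ 2 + WA.b₂ * a + WA.b₄) =
        6 * IsLocalRing.residue A a ^ 2 + (spFib A WA).b₂ * IsLocalRing.residue A a +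
          (spFib A WA).b₄
      rw [WeierstrassCurve.map_b₂, WeierstrassCurve.map_b₄]
      simp only [map_add, map_mul, map_pow, map_ofNat]

theorem IsModel.psi2_tOf {V : Affine K} {Vk : Affine (IsLocalRing.ResidueField A)}
    (hM : IsModel A WA V Vk) {P : V.Point} {R : Vk.Point} (h : Red A V Vk P R) :
    (∃ u : A, (u : K) = psi2 P ∧ IsLocalRing.residue A u = psi2 R) ∧
    (∃ u : A, (u : K) = tOf P ∧ IsLocalRing.residue A u = tOf R) := by
  obtain ⟨rfl, rfl⟩ := hM
  exact Red.psi2_tOf h

end Transfer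

/-- **(MOD-LOC, unit)**. -/
theorem modLocUnit {p : ℕ} [NeZero p] (hp : p.Prime) (hp2 : p ≠ 2) : ModLocUnit p := by
  intro W q hq hqp hqΔ hqc₄ A hA Q hQord hQ0
  classical
  have : Fact q.Prime := ⟨hq⟩
  have : Fact p.Prime := ⟨hp⟩
  have hchar : CharP (IsLocalRing.ResidueField A) q :=
    Fermat.Agent.ES.EC.LiftTorsion29.charP_residueField A hq hA
  have hM : IsModel A (W.map (Int.castRingHom A)) ((W.map (Int.castRingHom ℚ))⁄Qbar)
      ((W.map (Int.castRingHom (IsLocalRing.ResidueField A))).toAffine) :=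
    ⟨gen_eq W A, sp_eq' W A⟩
  have hpQ : p • Q = 0 := by rw [← hQord]; exact addOrderOf_nsmul_eq_zero Q
  have hQne : Q ≠ 0 := by
    rintro rfl
    rw [addOrderOf_zero] at hQord
    exact hp.one_lt.ne hQord
  have hqp' : ¬ q ∣ p := fun h => hqp ((Nat.prime_dvd_prime_iff_eq hq hp).mp h)
  have hvp : A.valuation ((p : ℕ) : Qbar) = 1 :=
    Fermat.Agent.S05.Inertia.valuation_natCast_eq_one hq hA hqp'
  have hodd : Odd p := hp.odd_of_ne_two hp2
  obtain ⟨m, hm⟩ := hodd
  have hodd : Odd p := ⟨m, hm⟩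
  -- unpack the zero component
  rcases hQ0 with h0 | ⟨x, y, h, hQe, hxy⟩
  · exact absurd h0 hQne
  subst hQe
  have hW : IntegralCoeffs A.valuation ((W.map (Int.castRingHom ℚ))⁄Qbar) := by
    rw [gen_eq W A]; exact integralCoeffs_genFib
  have hx : A.valuation x ≤ 1 := x_integral_of_nsmul_eq_zero hW h hvp hpQ
  rcases hxy with hxA | ⟨hxA, hyA, hns⟩
  · exact absurd ((A.valuation_le_one_iff x).mp hx) hxA
  -- the reduction
  have hred : Red A ((W.map (Int.castRingHom ℚ))⁄Qbar)
      ((W.map (Int.castRingHom (IsLocalRing.ResidueField A))).toAffine)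
      (Point.some x y h) (Point.some _ _ hns) :=
    red_some (a := ⟨x, hxA⟩) (b := ⟨y, hyA⟩) h hns
  set Qr : ((W.map (Int.castRingHom (IsLocalRing.ResidueField A))).toAffine).Point :=
    Point.some _ _ hns with hQr
  have hpR : p • Qr = 0 := hM.nsmul_eq_zero hred hodd hpQ
  have hQrord : addOrderOf Qr = p := addOrderOf_eq_prime hpR (Point.some_ne_zero hns)
  -- the special fibre is a nodal cubic
  have hΔκ : ((W.map (Int.castRingHom (IsLocalRing.ResidueField A))).toAffine).Δ = 0 := by
    change (W.map (Int.castRingHom (IsLocalRing.ResidueField A))).Δ = 0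
    rw [map_Δ, eq_intCast]
    exact (CharP.intCast_eq_zero_iff (IsLocalRing.ResidueField A) q W.Δ).mpr hqΔ
  have hcκ : ((W.map (Int.castRingHom (IsLocalRing.ResidueField A))).toAffine).c₄ ≠ 0 := by
    change (W.map (Int.castRingHom (IsLocalRing.ResidueField A))).c₄ ≠ 0
    rw [map_c₄, eq_intCast]
    exact fun h => hqc₄ ((CharP.intCast_eq_zero_iff (IsLocalRing.ResidueField A) q W.c₄).mp h)
  have hpκ : ((p : ℕ) : IsLocalRing.ResidueField A) ≠ 0 := by
    intro h0
    exact hqp' ((CharP.cast_eq_zero_iff (IsLocalRing.ResidueField A) q p).mp h0)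
  obtain ⟨hvel, hpsi⟩ := velC4_nodal hΔκ hcκ p m hm hpκ Qr hQrord
  -- reductions of the multiples
  have hredk : ∀ k : ℕ, Red A ((W.map (Int.castRingHom ℚ))⁄Qbar)
      ((W.map (Int.castRingHom (IsLocalRing.ResidueField A))).toAffine)
      (k • Point.some x y h) (k • Qr) := fun k => hM.red_nsmul hred hodd hvp hpQ k
  refine ⟨?_, ?_⟩
  · intro k hk
    obtain ⟨⟨u, hu, hures⟩, -⟩ := IsModel.psi2_tOf hM (hredk k)
    have hval : A.valuation (u : Qbar) = 1 :=
      valuation_eq_one_of_residue_ne_zero (by rw [hures]; exact hpsi k hk)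
    exact (congrArg A.valuation hu).symm.trans hval
  · have hex : ∀ k : ℕ, ∃ u : A, (u : Qbar) = tOf (k • (Point.some x y h :
        ((W.map (Int.castRingHom ℚ))⁄Qbar).Point)) ∧
        IsLocalRing.residue A u = tOf (k • Qr) := fun k => (IsModel.psi2_tOf hM (hredk k)).2
    choose u hu hures using hex
    set U : A := ((W.c₄ : ℤ) : A) + 120 * ∑ k ∈ Finset.Ico 1 p, u k with hU
    have hUval : (U : Qbar) = velC4 p (Point.some x y h :
        ((W.map (Int.castRingHom ℚ))⁄Qbar).Point) := by
      unfold velC4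
      rw [hU]
      have hc4 : ((W.map (Int.castRingHom ℚ))⁄Qbar).c₄ = ((W.c₄ : ℤ) : Qbar) := by
        change ((W.map (Int.castRingHom ℚ)).map (algebraMap ℚ Qbar)).c₄ = _
        rw [map_c₄, map_c₄]
        simp
      rw [hc4]
      push_cast
      congr 2
      apply Finset.sum_congr rfl
      intro k _
      exact hu k
    have hUres : IsLocalRing.residue A U = velC4 p Qr := by
      unfold velC4
      rw [hU]
      have hc4 : ((W.map (Int.castRingHom (IsLocalRing.ResidueField A))).toAffine).c₄ =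
          ((W.c₄ : ℤ) : IsLocalRing.ResidueField A) := by
        change (W.map (Int.castRingHom (IsLocalRing.ResidueField A))).c₄ = _
        rw [map_c₄]
        simp
      rw [hc4]
      simp only [map_add, map_mul, map_sum, map_intCast, map_ofNat]
      congr 2
      apply Finset.sum_congr rfl
      intro k _
      exact hures k
    have hval : A.valuation (U : Qbar) = 1 :=
      valuation_eq_one_of_residue_ne_zero (by
        rw [hUres, hvel]
        exact mul_ne_zero (pow_ne_zero 4 hpκ) hcκ)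
    exact (congrArg A.valuation hUval).symm.trans hval

end Fermat.Agent.MAZ.Local.ModLocUnit2
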