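/-
Program MAZ (S15), brick L1, part (A) (helper76): the number of nonsingular points of a nodal
Weierstrass cubic over a finite field.

`W` a Weierstrass curve over a field `F` with `Δ = 0`, `c₄ ≠ 0` (a nodal cubic).  The lines through
the node parametrise the nonsingular affine points: `t ↦ (x₀ + ξ(t), y₀ + t ξ(t))`,
`ξ(t) = t² + a₁ t - a₂'` (the tangent cone), defined for `ξ(t) ≠ 0`.  The quadratic `ξ` has either
no root or exactly two roots in `F`, hence for `F` finite with `q` elements Mathlib's group
`W.toAffine.Point` of nonsingular points has `q + 1` (non-split) or `q - 1` (split) elements.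
-/
import Mathlib
import Fermat.Agent.ES.Q58.NodeCount15

set_option autoImplicit false

open WeierstrassCurve WeierstrassCurve.Affine

namespace Fermat.Agent.MAZ.Local.NodalCount76

open Fermat.Agent.ES.Q58.NodeCount15

section Param

variable {F : Type*} [Field F] (W : WeierstrassCurve F)

/-- The tangent cone at the node: `ξ(t) = t² + a₁ t - a₂'`. -/
noncomputable def cone (t : F) : F := t ^ 2 + W.a₁ * t - a₂' W

variable {W}

theorem param_ns (hΔ : W.Δ = 0) (hc : W.c₄ ≠ 0) {t : F} (ht : cone W t ≠ 0) :
    W.toAffine.Nonsingular (x₀ W + cone W t) (y₀ W + t * cone W t) := by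
  refine (nonsingular_iff_node hΔ hc _ _).mpr ⟨?_, ht⟩
  have e : cone W t = t ^ 2 + W.a₁ * t - a₂' W := rfl
  have : (t * cone W t) ^ 2 + W.a₁ * cone W t * (t * cone W t) - a₂' W * cone W t ^ 2
      = cone W t ^ 2 * (t ^ 2 + W.a₁ * t - a₂' W) := by ring
  rw [← e] at this
  linear_combination this

theorem exists_param_cone (hΔ : W.Δ = 0) (hc : W.c₄ ≠ 0) {x y : F}
    (h : W.toAffine.Nonsingular x y) :
    x - x₀ W ≠ 0 ∧ cone W ((y - y₀ W) / (x - x₀ W)) = x - x₀ W := by
  have hx : x = x₀ W + (x - x₀ W) := by ring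
  have hy : y = y₀ W + (y - y₀ W) := by ring
  rw [hx, hy, nonsingular_iff_node hΔ hc] at h
  obtain ⟨he, hξ⟩ := h
  refine ⟨hξ, ?_⟩
  unfold cone
  field_simp
  linear_combination he

/-- The parametrisation `Option {t // ξ(t) ≠ 0} → W.Point`. -/
noncomputable def paramC (hΔ : W.Δ = 0) (hc : W.c₄ ≠ 0) :
    Option {t : F // cone W t ≠ 0} → W.toAffine.Point
  | none => 0
  | some t => Point.some _ _ (param_ns hΔ hc t.2)

theorem paramC_injective (hΔ : W.Δ = 0) (hc : W.c₄ ≠ 0) :
    Function.Injective (paramC (W := W) hΔ hc) := by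
  rintro (_ | ⟨t, ht⟩) (_ | ⟨t', ht'⟩) h
  · rfl
  · exact absurd h (by simp [paramC, Point.zero_def])
  · exact absurd h (by simp [paramC, Point.zero_def])
  · simp only [paramC, Point.some.injEq, add_right_inj] at h
    obtain ⟨h1, h2⟩ := h
    have : t = t' := by
      rw [← h1] at h2
      exact mul_right_cancel₀ ht h2
    subst this
    rfl

theorem paramC_surjective (hΔ : W.Δ = 0) (hc : W.c₄ ≠ 0) :
    Function.Surjective (paramC (W := W) hΔ hc) := by
  intro P
  rcases P with _ | ⟨x, y, h⟩
  · exact ⟨none, rfl⟩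
  · obtain ⟨hξ, e⟩ := exists_param_cone hΔ hc h
    have ht : cone W ((y - y₀ W) / (x - x₀ W)) ≠ 0 := by rw [e]; exact hξ
    refine ⟨some ⟨(y - y₀ W) / (x - x₀ W), ht⟩, ?_⟩
    simp only [paramC, Point.some.injEq]
    refine ⟨by rw [e]; ring, ?_⟩
    rw [e, div_mul_cancel₀ _ hξ]
    ring

/-- The nonsingular points are in bijection with `{t // ξ(t) ≠ 0} ∪ {∞}`. -/
noncomputable def paramEquiv (hΔ : W.Δ = 0) (hc : W.c₄ ≠ 0) :
    Option {t : F // cone W t ≠ 0} ≃ W.toAffine.Point :=
  Equiv.ofBijective _ ⟨paramC_injective hΔ hc, paramC_surjective hΔ hc⟩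

/-- If `r` is a root of the tangent cone, then `ξ(t) = (t - r)(t + a₁ + r)`. -/
theorem cone_eq_of_root {r : F} (hr : cone W r = 0) (t : F) :
    cone W t = (t - r) * (t - (-W.a₁ - r)) := by
  unfold cone at hr ⊢
  linear_combination hr

/-- The two roots of the tangent cone are distinct. -/
theorem root_ne (hΔ : W.Δ = 0) (hc : W.c₄ ≠ 0) {r : F} (hr : cone W r = 0) :
    r ≠ -W.a₁ - r := by
  intro h
  apply b2'_ne_zero hΔ hc
  unfold cone at hr
  have h2 : 2 * r + W.a₁ = 0 := by linear_combination h
  linear_combination (2 * r + W.a₁) * h2 - 4 * hr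

end Param

section Count

variable {F : Type*} [Field F] [Fintype F] {W : WeierstrassCurve F}

open Classical in
/-- **The point count of a nodal cubic over a finite field**: `q - 1` or `q + 1` nonsingular
points (including the point at infinity). -/
theorem card_point_nodal_field (hΔ : W.Δ = 0) (hc : W.c₄ ≠ 0) :
    Nat.card W.toAffine.Point = Fintype.card F - 1 ∨
      Nat.card W.toAffine.Point = Fintype.card F + 1 := by
  have e := Nat.card_congr (paramEquiv (W := W) hΔ hc)
  rw [Finite.card_option] at e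
  by_cases hroot : ∃ r : F, cone W r = 0
  · -- split: exactly two roots
    obtain ⟨r, hr⟩ := hroot
    left
    set s : F := -W.a₁ - r with hs
    have hne : r ≠ s := root_ne hΔ hc hr
    have hiff : ∀ t : F, cone W t ≠ 0 ↔ t ∈ ((Finset.univ : Finset F).erase r).erase s := by
      intro t
      rw [cone_eq_of_root hr t, mul_ne_zero_iff, sub_ne_zero, sub_ne_zero, Finset.mem_erase,
        Finset.mem_erase]
      simp only [Finset.mem_univ, and_true]
      tauto
    have hcard : Nat.card {t : F // cone W t ≠ 0} = Fintype.card F - 2 := by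
      rw [Nat.subtype_card _ (fun t => (hiff t).symm)]
      rw [Finset.card_erase_of_mem (Finset.mem_erase.mpr ⟨hne.symm, Finset.mem_univ _⟩),
        Finset.card_erase_of_mem (Finset.mem_univ _), Finset.card_univ]
      rfl
    have h2 : 2 ≤ Fintype.card F := by
      have : ({r, s} : Finset F).card ≤ Fintype.card F := Finset.card_le_univ _
      rwa [Finset.card_pair hne] at this
    rw [← e, hcard]
    omega
  · -- non-split: no root
    right
    push Not at hroot
    have hcard : Nat.card {t : F // cone W t ≠ 0} = Fintype.card F := by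
      rw [← Nat.card_eq_fintype_card]
      exact Nat.card_congr (Equiv.subtypeUnivEquiv hroot)
    rw [← e, hcard]

end Count

/-- **The point count of a nodal cubic over `𝔽_ℓ`**. -/
theorem card_point_nodal {ℓ : ℕ} [Fact ℓ.Prime] (W₀ : WeierstrassCurve (ZMod ℓ))
    (hΔ : W₀.Δ = 0) (hc : W₀.c₄ ≠ 0) :
    Nat.card W₀.toAffine.Point = ℓ - 1 ∨ Nat.card W₀.toAffine.Point = ℓ + 1 := by
  have := card_point_nodal_field (W := W₀) hΔ hc
  rwa [ZMod.card] at this

end Fermat.Agent.MAZ.Local.NodalCount76
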