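/-
Program MAZ (S15 / S12), chapter Local, helper28: THE NODE AND COSETS OF THE ZERO COMPONENT.

Small local toolbox on top of `ZeroTors28`, shared by MAZ-S12 K1e (DICT) and MIRROR (c):

* `residue_eq_node` (general model): an integral point whose reduction is singular reduces to the
  node `(x₀, y₀)` of the special fibre (`Δ = 0`, `c₄ ≠ 0`);
* `not_inZero_add_nsmul` : `T ∈ E₀[p]`, `R₀ ∈ E[p] ∖ E₀`, `p ∤ k`  ⟹  `T + k • R₀ ∉ E₀`;
* `residue_eq_node_of_not_inZero` : at a multiplicative prime a point outside `E₀` has integral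
  coordinates with residues `(x₀, y₀)`;
* `valuation_sub_lt_one_of_not_inZero` : two points outside `E₀` have congruent coordinates.
-/
import Mathlib
import Fermat.Agent.MAZ.Local.ZeroTors28

set_option autoImplicit false
set_option linter.unusedSectionVars false

open WeierstrassCurve WeierstrassCurve.Affine

namespace Fermat.Agent.MAZ.Local.NodeCoset28

open Fermat.Agent.ES.Q58.Red39 Fermat.Agent.S05.Kernel
open Fermat.Agent.ES.Q58.NodeCount15
open Fermat.Agent.MAZ.Local.ZeroTors28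

local notation "Qbar" => AlgebraicClosure ℚ

/-! ### 1. General model -/

section General

variable {K : Type*} [Field K] [DecidableEq K] {A : ValuationSubring K}
  [DecidableEq (IsLocalRing.ResidueField A)] {WA : WeierstrassCurve A}
  {V : Affine K} {Vk : Affine (IsLocalRing.ResidueField A)}

/-- An integral point whose reduction is singular reduces to the node `(x₀, y₀)`. -/
theorem residue_eq_node (hM : IsModel A WA V Vk) (hΔ : Vk.Δ = 0) (hc : Vk.c₄ ≠ 0) {a b : A}
    (h : V.Equation (a : K) (b : K))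
    (hns : ¬ Vk.Nonsingular (IsLocalRing.residue A a) (IsLocalRing.residue A b)) :
    IsLocalRing.residue A a = x₀ Vk ∧ IsLocalRing.residue A b = y₀ Vk := by
  have heq := equation_residue hM h
  obtain ⟨ξ, hξ⟩ : ∃ ξ, IsLocalRing.residue A a = x₀ Vk + ξ :=
    ⟨IsLocalRing.residue A a - x₀ Vk, by ring⟩
  obtain ⟨η, hη⟩ : ∃ η, IsLocalRing.residue A b = y₀ Vk + η :=
    ⟨IsLocalRing.residue A b - y₀ Vk, by ring⟩
  rw [hξ, hη] at heq hns
  have h1 := (equation_iff_node hΔ hc ξ η).mp heq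
  have hξ0 : ξ = 0 := by
    by_contra hne
    exact hns ((nonsingular_iff_node hΔ hc ξ η).mpr ⟨h1, hne⟩)
  rw [hξ0] at h1
  have hη0 : η = 0 := by
    have : η ^ 2 = 0 := by linear_combination h1
    exact pow_eq_zero_iff two_ne_zero |>.mp this
  rw [hξ, hη, hξ0, hη0, add_zero, add_zero]
  exact ⟨rfl, rfl⟩

/-- Two elements of `A` with the same residue are congruent modulo the maximal ideal. -/
theorem valuation_sub_lt_one_of_residue_eq {a a' : A}
    (h : IsLocalRing.residue A a = IsLocalRing.residue A a') :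
    A.valuation ((a : K) - (a' : K)) < 1 := by
  have h0 : IsLocalRing.residue A (a - a') = 0 := by rw [map_sub, h, sub_self]
  rw [IsLocalRing.residue_eq_zero_iff, A.valuation_lt_one_iff] at h0
  exact h0

end General

/-! ### 2. The curve of S15 -/

section Coset

variable {W : WeierstrassCurve ℤ} {A : ValuationSubring Qbar}

/-- `T ∈ E₀[p]`, `R₀ ∈ E[p] ∖ E₀`, `p ∤ k`: the point `T + k • R₀` is outside `E₀`. -/
theorem not_inZero_add_nsmul {p : ℕ} (hp : p.Prime) (hp2 : p ≠ 2)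
    (hvp : A.valuation ((p : ℕ) : Qbar) = 1)
    {T R₀ : ((W.map (Int.castRingHom ℚ))⁄Qbar).Point} (hT : p • T = 0)
    (hT0 : W.InZeroComponentAt A T) (hR : p • R₀ = 0) (hR0 : ¬ W.InZeroComponentAt A R₀)
    {k : ℕ} (hk : ¬ p ∣ k) : ¬ W.InZeroComponentAt A (T + k • R₀) := by
  intro h
  have hodd : Odd p := hp.odd_of_ne_two hp2
  have hkR : p • (k • R₀) = 0 := by rw [smul_comm, hR, nsmul_zero]
  have h1 : p • (T + k • R₀) = 0 := by rw [nsmul_add, hT, hkR, add_zero]
  have h2 : p • (-T) = 0 := by rw [neg_nsmul, hT, neg_zero]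
  have h3 := inZero_add hodd hvp h1 h2 h (inZero_neg hT0)
  have e : T + k • R₀ + -T = k • R₀ := by abel
  rw [e] at h3
  exact not_inZero_nsmul hp hp2 hvp hR hR0 hk h3

variable {ℓ : ℕ}

/-- At a multiplicative prime, a point outside the zero component has integral coordinates which
reduce to the node `(x₀, y₀)` of the special fibre. -/
theorem residue_eq_node_of_not_inZero (hℓ : ℓ.Prime) (hA : A.LiesOverPrime ℓ)
    (hℓΔ : (ℓ : ℤ) ∣ W.Δ) (hℓc₄ : ¬ (ℓ : ℤ) ∣ W.c₄) {x y : Qbar}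
    (h : ((W.map (Int.castRingHom ℚ))⁄Qbar).toAffine.Nonsingular x y)
    (hT : ¬ W.InZeroComponentAt A (Point.some x y h)) :
    ∃ (hx : x ∈ A) (hy : y ∈ A),
      IsLocalRing.residue A ⟨x, hx⟩ = x₀ (Ek W A) ∧ IsLocalRing.residue A ⟨y, hy⟩ = y₀ (Ek W A) := by
  classical
  have hx : x ∈ A := by
    by_contra hx
    exact hT (Or.inr ⟨x, y, h, rfl, Or.inl hx⟩)
  have hy : y ∈ A := mem_of_mem (isModel W A) h.1 hx
  have hns : ¬ (Ek W A).Nonsingular (IsLocalRing.residue A ⟨x, hx⟩)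
      (IsLocalRing.residue A ⟨y, hy⟩) := fun hns =>
    hT (Or.inr ⟨x, y, h, rfl, Or.inr ⟨hx, hy, hns⟩⟩)
  exact ⟨hx, hy, residue_eq_node (isModel W A) (Ek_Δ_eq_zero hℓ hA hℓΔ) (Ek_c₄_ne_zero hℓ hA hℓc₄)
    (a := ⟨x, hx⟩) (b := ⟨y, hy⟩) h.1 hns⟩

/-- At a multiplicative prime, two points outside the zero component have congruent
coordinates. -/
theorem valuation_sub_lt_one_of_not_inZero (hℓ : ℓ.Prime) (hA : A.LiesOverPrime ℓ)
    (hℓΔ : (ℓ : ℤ) ∣ W.Δ) (hℓc₄ : ¬ (ℓ : ℤ) ∣ W.c₄) {x y x' y' : Qbar}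
    (h : ((W.map (Int.castRingHom ℚ))⁄Qbar).toAffine.Nonsingular x y)
    (h' : ((W.map (Int.castRingHom ℚ))⁄Qbar).toAffine.Nonsingular x' y')
    (hT : ¬ W.InZeroComponentAt A (Point.some x y h))
    (hT' : ¬ W.InZeroComponentAt A (Point.some x' y' h')) :
    A.valuation (x - x') < 1 ∧ A.valuation (y - y') < 1 := by
  classical
  obtain ⟨hx, hy, e1, e2⟩ := residue_eq_node_of_not_inZero hℓ hA hℓΔ hℓc₄ h hT
  obtain ⟨hx', hy', e1', e2'⟩ := residue_eq_node_of_not_inZero hℓ hA hℓΔ hℓc₄ h' hT'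
  exact ⟨valuation_sub_lt_one_of_residue_eq (a := ⟨x, hx⟩) (a' := ⟨x', hx'⟩) (e1.trans e1'.symm),
    valuation_sub_lt_one_of_residue_eq (a := ⟨y, hy⟩) (a' := ⟨y', hy'⟩) (e2.trans e2'.symm)⟩

end Coset

end Fermat.Agent.MAZ.Local.NodeCoset28
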